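import Fermat.Agent.FLTK.Defs

set_option autoImplicit false
set_option linter.unusedSectionVars false

/-!
# Plan K, chunk F: Kummer's descent (the second case of Fermat's Last Theorem)
-/

namespace Fermat.Agent.FLTK

open NumberField IsCyclotomicExtension Polynomial

noncomputable section

variable (p : ℕ) [hp : Fact p.Prime] (K : Type) [Field K] [NumberField K]
  [IsCyclotomicExtension {p} ℚ K]

/-! ### Basic facts on `ζ` and `λ` -/

theorem caseII_zetaInt_isPrimitiveRoot : IsPrimitiveRoot (zetaInt p K) p :=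
  (zetaK_spec p K).toInteger_isPrimitiveRoot

theorem caseII_lam_prime : Prime (lam p K) :=
  (zetaK_spec p K).zeta_sub_one_prime'

theorem caseII_lam_dvd_intCast_iff {n : ℤ} : lam p K ∣ (n : 𝓞 K) ↔ (p : ℤ) ∣ n :=
  IsCyclotomicExtension.Rat.zeta_sub_one_dvd_intCast_iff' p (zetaK_spec p K)

theorem caseII_associated_lam_pow : Associated (lam p K ^ (p - 1)) (p : 𝓞 K) :=
  IsCyclotomicExtension.Rat.associated_zeta_sub_one_pow_prime p (zetaK_spec p K)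

theorem caseII_lam_dvd_p : lam p K ∣ (p : 𝓞 K) := by
  have h := (caseII_associated_lam_pow p K).dvd
  have hp1 : 1 ≤ p - 1 := by have := hp.out.two_le; omega
  exact dvd_trans (dvd_pow_self _ (by omega)) h

theorem caseII_p_dvd_lam_pow : (p : 𝓞 K) ∣ lam p K ^ p := by
  have h := (caseII_associated_lam_pow p K).symm.dvd
  exact dvd_trans h (pow_dvd_pow _ (Nat.sub_le p 1))

theorem caseII_card_quot : Nat.card (𝓞 K ⧸ Ideal.span {lam p K}) = p := by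
  have h : IsCyclotomicExtension {p ^ (0 + 1)} ℚ K := by simpa using (inferInstance :
    IsCyclotomicExtension {p} ℚ K)
  have hζ : IsPrimitiveRoot (zetaK p K) (p ^ (0 + 1)) := by simpa using zetaK_spec p K
  have := IsCyclotomicExtension.Rat.absNorm_span_zeta_sub_one p 0 hζ
  rw [Ideal.absNorm_apply, Submodule.cardQuot_apply] at this
  exact this


theorem caseII_adjoin_eq_top : Algebra.adjoin ℤ {zetaInt p K} = ⊤ := by
  have h := (zetaK_spec p K).integralPowerBasis.adjoin_gen_eq_top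
  rwa [(zetaK_spec p K).integralPowerBasis_gen] at h

/-- `d ^ p` is congruent to a rational integer modulo `p`. -/
theorem caseII_exists_int_dvd_pow_sub (d : 𝓞 K) : ∃ n : ℤ, (p : 𝓞 K) ∣ d ^ p - (n : 𝓞 K) := by
  have hd : d ∈ Algebra.adjoin ℤ {zetaInt p K} := by
    rw [caseII_adjoin_eq_top]; trivial
  induction hd using Algebra.adjoin_induction with
  | mem x hx =>
    rw [Set.mem_singleton_iff] at hx
    subst hx
    refine ⟨1, ?_⟩
    rw [(caseII_zetaInt_isPrimitiveRoot p K).pow_eq_one]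
    simp
  | algebraMap r =>
    refine ⟨r ^ p, ?_⟩
    simp
  | add x y _ _ hx hy =>
    obtain ⟨a, ha⟩ := hx
    obtain ⟨b, hb⟩ := hy
    refine ⟨a + b, ?_⟩
    rw [add_pow_prime_eq hp.out]
    have : x ^ p + y ^ p + (p : 𝓞 K) * x * y *
        ∑ k ∈ Finset.Ioo 0 p, x ^ (k - 1) * y ^ (p - k - 1) * ((p.choose k / p : ℕ) : 𝓞 K) -
        ((a + b : ℤ) : 𝓞 K) = (x ^ p - a) + (y ^ p - b) + (p : 𝓞 K) * (x * y *
        ∑ k ∈ Finset.Ioo 0 p, x ^ (k - 1) * y ^ (p - k - 1) * ((p.choose k / p : ℕ) : 𝓞 K)) := by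
      push_cast; ring
    rw [this]
    exact dvd_add (dvd_add ha hb) (dvd_mul_right _ _)
  | mul x y _ _ hx hy =>
    obtain ⟨a, ha⟩ := hx
    obtain ⟨b, hb⟩ := hy
    refine ⟨a * b, ?_⟩
    have : (x * y) ^ p - ((a * b : ℤ) : 𝓞 K) = (x ^ p - a) * y ^ p + a * (y ^ p - b) := by
      push_cast; ring
    rw [this]
    exact dvd_add (dvd_mul_of_dvd_left ha _) (dvd_mul_of_dvd_right hb _)

/-- If `p ∣ d₁ ^ p + u * d₂ ^ p` with `λ ∤ d₂`, then `u` is congruent to an integer mod `p`. -/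
theorem caseII_unit_congr_int (u d₁ d₂ : 𝓞 K) (hd₂ : ¬ lam p K ∣ d₂)
    (h : (p : 𝓞 K) ∣ d₁ ^ p + u * d₂ ^ p) : ∃ n : ℤ, (p : 𝓞 K) ∣ u - (n : 𝓞 K) := by
  obtain ⟨a₁, A₁, h1⟩ := caseII_exists_int_dvd_pow_sub p K d₁
  obtain ⟨a₂, A₂, h2⟩ := caseII_exists_int_dvd_pow_sub p K d₂
  obtain ⟨w, hw⟩ := h
  -- `p ∤ a₂`
  have ha₂ : ¬ (p : ℤ) ∣ a₂ := by
    intro hdiv
    apply hd₂
    have h3 : lam p K ∣ (a₂ : 𝓞 K) := (caseII_lam_dvd_intCast_iff p K).mpr hdiv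
    have h4 : lam p K ∣ d₂ ^ p := by
      have : d₂ ^ p = (p : 𝓞 K) * A₂ + a₂ := by rw [← h2]; ring
      rw [this]
      exact dvd_add (dvd_mul_of_dvd_left (caseII_lam_dvd_p p K) _) h3
    exact (caseII_lam_prime p K).dvd_of_dvd_pow h4
  -- Bezout in `ℤ`
  have hcop : IsCoprime a₂ (p : ℤ) := by
    rw [isCoprime_comm]
    exact (Nat.prime_iff_prime_int.mp hp.out).coprime_iff_not_dvd.mpr ha₂
  obtain ⟨b, B, hbB⟩ := hcop
  refine ⟨-(a₁ * b), u * B + b * (-(u * A₂) - A₁ + w), ?_⟩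
  have hbB' : (b : 𝓞 K) * a₂ + B * p = 1 := by exact_mod_cast congrArg (Int.cast : ℤ → 𝓞 K) hbB
  push_cast
  linear_combination (-(b : 𝓞 K)) * h1 + (-(u * b : 𝓞 K)) * h2 + (b : 𝓞 K) * hw - u * hbB'

local notation "π" => lam p K
local notation "ζ" => zetaInt p K
local notation "μ" => nthRootsFinset p (1 : 𝓞 K)

theorem caseII_one_mem : (1 : 𝓞 K) ∈ μ := by
  rw [mem_nthRootsFinset hp.out.pos]; simp

theorem caseII_zeta_mem : ζ ∈ μ := by
  rw [mem_nthRootsFinset hp.out.pos]; exact (caseII_zetaInt_isPrimitiveRoot p K).pow_eq_one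

theorem caseII_mem_pow {η : 𝓞 K} (hη : η ∈ μ) : η ^ p = 1 := by
  rwa [mem_nthRootsFinset hp.out.pos] at hη

theorem caseII_mem_isUnit {η : 𝓞 K} (hη : η ∈ μ) : IsUnit η :=
  IsUnit.of_pow_eq_one (caseII_mem_pow p K hη) hp.out.ne_zero

/-- difference of two distinct roots of unity is `λ` times a unit -/
theorem caseII_sub_eq {η₁ η₂ : 𝓞 K} (h₁ : η₁ ∈ μ) (h₂ : η₂ ∈ μ) (hne : η₁ ≠ η₂) :
    ∃ v : (𝓞 K)ˣ, η₁ - η₂ = π * v := by
  obtain ⟨v, hv⟩ := (caseII_zetaInt_isPrimitiveRoot p K).nthRootsFinset_pairwise_associated_sub_one_sub_of_prime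
    hp.out h₁ h₂ hne
  exact ⟨v, hv.symm⟩

theorem caseII_lam_dvd_sub {η₁ η₂ : 𝓞 K} (h₁ : η₁ ∈ μ) (h₂ : η₂ ∈ μ) : π ∣ η₁ - η₂ :=
  (caseII_zetaInt_isPrimitiveRoot p K).sub_one_dvd_sub hp.out h₁ h₂

variable {p K}

section descent

variable {x y z : 𝓞 K} {ε : (𝓞 K)ˣ} {m : ℕ}

theorem caseII_lam_dvd_add (hp2 : p ≠ 2) (e : x ^ p + y ^ p = ε * (π ^ (m + 1) * z) ^ p)
    {η : 𝓞 K} (hη : η ∈ μ) : π ∣ x + η * y := by
  have hodd : Odd p := hp.out.odd_of_ne_two hp2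
  have hprod := (caseII_zetaInt_isPrimitiveRoot p K).pow_add_pow_eq_prod_add_mul x y hodd
  have h1 : π ∣ x ^ p + y ^ p := by
    rw [e]
    refine dvd_mul_of_dvd_right (dvd_pow ?_ hp.out.ne_zero) _
    exact dvd_mul_of_dvd_left (dvd_pow_self _ (Nat.succ_ne_zero m)) _
  rw [hprod] at h1
  obtain ⟨η₀, hη₀, h0⟩ := (caseII_lam_prime p K).exists_mem_finset_dvd h1
  have : x + η * y = (x + η₀ * y) + (η - η₀) * y := by ring
  rw [this]
  exact dvd_add h0 (dvd_mul_of_dvd_left (caseII_lam_dvd_sub p K hη hη₀) _)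

theorem caseII_exists_sq_dvd (hp2 : p ≠ 2) (hy : ¬ π ∣ y)
    (e : x ^ p + y ^ p = ε * (π ^ (m + 1) * z) ^ p) : ∃ η ∈ μ, π ^ 2 ∣ x + η * y := by
  have hdvd : ∀ η ∈ μ, ∃ c, x + η * y = π * c := fun η hη => caseII_lam_dvd_add hp2 e hη
  choose! c hc using hdvd
  let I : Ideal (𝓞 K) := Ideal.span {π}
  let f : μ → 𝓞 K ⧸ I := fun η => Ideal.Quotient.mk I (c η)
  have hcard : Nat.card (𝓞 K ⧸ I) = p := caseII_card_quot p K
  have : Finite (𝓞 K ⧸ I) := Nat.finite_of_card_ne_zero (by rw [hcard]; exact hp.out.ne_zero)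
  have hinj : Function.Injective f := by
    intro η₁ η₂ h12
    by_contra hne
    have hne' : (η₁ : 𝓞 K) ≠ η₂ := fun h => hne (Subtype.ext h)
    obtain ⟨v, hv⟩ := caseII_sub_eq p K η₁.2 η₂.2 hne'
    have h3 : π ∣ c η₁ - c η₂ := by
      have := (Ideal.Quotient.eq (I := I)).mp h12
      exact Ideal.mem_span_singleton.mp this
    have h4 : π * (c η₁ - c η₂) = π * (v * y) := by
      rw [mul_sub, ← hc _ η₁.2, ← hc _ η₂.2, ← mul_assoc, ← hv]; ring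
    have h5 : c η₁ - c η₂ = v * y := mul_left_cancel₀ (caseII_lam_prime p K).ne_zero h4
    rw [h5] at h3
    exact hy ((Units.dvd_mul_left (u := v)).mp (by simpa [mul_comm] using h3))
  have hbij : Function.Bijective f := by
    apply hinj.bijective_of_nat_card_le
    rw [hcard, Nat.card_eq_fintype_card, Fintype.card_coe,
      (caseII_zetaInt_isPrimitiveRoot p K).card_nthRootsFinset]
  obtain ⟨η, hη⟩ := hbij.2 0
  refine ⟨η, η.2, ?_⟩
  have h3 : π ∣ c η := by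
    have : c η ∈ I := (Ideal.Quotient.eq_zero_iff_mem (I := I)).mp hη
    exact Ideal.mem_span_singleton.mp this
  rw [hc _ η.2, pow_two]
  exact mul_dvd_mul_left _ h3

/-- The descent step, normalised so that `λ² ∣ x + y`. -/
theorem caseII_step (hp2 : p ≠ 2) (hK : KummerData p K) (hy : ¬ π ∣ y) (hz : ¬ π ∣ z)
    (hxy : IsCoprime x y) (e : x ^ p + y ^ p = ε * (π ^ (m + 1) * z) ^ p)
    (h2 : π ^ 2 ∣ x + y) :
    ∃ m' : ℕ, m = m' + 1 ∧ ∃ (x' y' z' : 𝓞 K) (ε' : (𝓞 K)ˣ), ¬ π ∣ y' ∧ ¬ π ∣ z' ∧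
      IsCoprime x' y' ∧ x' ^ p + y' ^ p = ε' * (π ^ (m' + 1) * z') ^ p := by
  classical
  have hζ := caseII_zetaInt_isPrimitiveRoot p K
  have hπ := caseII_lam_prime p K
  have := hK.pid
  have hodd : Odd p := hp.out.odd_of_ne_two hp2
  have hp3 : 3 ≤ p := by
    have := hp.out.two_le
    omega
  have hdvd : ∀ η ∈ μ, ∃ c, x + η * y = π * c := fun η hη => caseII_lam_dvd_add hp2 e hη
  choose! c hc using hdvd
  -- the product of the `c η`
  have hprod : ∏ η ∈ μ, c η = ε * (π ^ m * z) ^ p := by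
    have h1 := hζ.pow_add_pow_eq_prod_add_mul x y hodd
    have h2 : ∏ η ∈ μ, (x + η * y) = π ^ p * ∏ η ∈ μ, c η := by
      rw [Finset.prod_congr rfl (fun η hη => hc η hη), Finset.prod_mul_distrib, Finset.prod_const,
        hζ.card_nthRootsFinset]
    have h3 : π ^ p * ∏ η ∈ μ, c η = π ^ p * (ε * (π ^ m * z) ^ p) := by
      rw [← h2, ← h1, e]; ring
    exact mul_left_cancel₀ (pow_ne_zero _ hπ.ne_zero) h3
  -- `λ ∤ c η` for `η ≠ 1`
  have hndvd : ∀ η ∈ μ, η ≠ 1 → ¬ π ∣ c η := by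
    intro η hη hne hdiv
    obtain ⟨v, hv⟩ := caseII_sub_eq p K hη (caseII_one_mem p K) hne
    have h3 : π ^ 2 ∣ x + η * y := by rw [hc η hη, pow_two]; exact mul_dvd_mul_left _ hdiv
    have h4 : π ^ 2 ∣ π * (v * y) := by
      have : π * (v * y) = (x + η * y) - (x + y) := by rw [← mul_assoc, ← hv]; ring
      rw [this]; exact dvd_sub h3 h2
    rw [pow_two] at h4
    have h5 : π ∣ v * y := (mul_dvd_mul_iff_left hπ.ne_zero).mp h4
    exact hy ((Units.dvd_mul_left).mp (by rwa [mul_comm] at h5))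
  -- `λ ∣ c 1`
  have hc1 : π ∣ c 1 := by
    have h3 := hc 1 (caseII_one_mem p K)
    rw [one_mul] at h3
    rw [h3, pow_two] at h2
    exact (mul_dvd_mul_iff_left hπ.ne_zero).mp h2
  -- `m ≠ 0`
  have hm : m ≠ 0 := by
    rintro rfl
    apply hz
    have h3 : π ∣ ∏ η ∈ μ, c η := dvd_trans hc1 (Finset.dvd_prod_of_mem c (caseII_one_mem p K))
    rw [hprod, pow_zero, one_mul] at h3
    have h4 : π ∣ z ^ p := (Units.dvd_mul_left).mp (by rwa [mul_comm] at h3)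
    exact hπ.dvd_of_dvd_pow h4
  obtain ⟨m', rfl⟩ := Nat.exists_eq_succ_of_ne_zero hm
  refine ⟨m', rfl, ?_⟩

  have hsucc : Nat.succ m' = m' + 1 := rfl
  rw [hsucc] at hprod e
  -- pairwise coprimality
  have hcop : ∀ η₁ ∈ μ, ∀ η₂ ∈ μ, η₁ ≠ η₂ → IsCoprime (c η₁) (c η₂) := by
    intro η₁ h₁ η₂ h₂ hne
    obtain ⟨v, hv⟩ := caseII_sub_eq p K h₁ h₂ hne
    obtain ⟨s, t, hst⟩ := hxy
    have e1 : c η₁ - c η₂ = v * y := by
      apply mul_left_cancel₀ hπ.ne_zero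
      rw [mul_sub, ← hc _ h₁, ← hc _ h₂, ← mul_assoc, ← hv]; ring
    have e2 : η₂ * c η₁ - η₁ * c η₂ = -(v * x) := by
      apply mul_left_cancel₀ hπ.ne_zero
      have h3 : π * (η₂ * c η₁ - η₁ * c η₂) = η₂ * (π * c η₁) - η₁ * (π * c η₂) := by ring
      have h4 : π * -(↑v * x) = -((η₁ - η₂) * x) := by rw [hv]; ring
      rw [h3, ← hc _ h₁, ← hc _ h₂, h4]; ring
    refine ⟨(-(s * η₂) + t) * ↑v⁻¹, (s * η₁ - t) * ↑v⁻¹, ?_⟩
    have h5 : (-(s * η₂) + t) * ↑v⁻¹ * c η₁ + (s * η₁ - t) * ↑v⁻¹ * c η₂ =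
        ↑v⁻¹ * (-s * (η₂ * c η₁ - η₁ * c η₂) + t * (c η₁ - c η₂)) := by ring
    have h6 : (↑v⁻¹ : 𝓞 K) * (-s * -(↑v * x) + t * (↑v * y)) = (↑v⁻¹ * ↑v) * (s * x + t * y) := by
      ring
    rw [h5, e1, e2, h6, hst]; simp
  -- each `c η` is a unit times a `p`-th power
  have hpow : ∀ η₁ ∈ μ, ∃ d : 𝓞 K, ∃ u : (𝓞 K)ˣ, d ^ p * u = c η₁ := by
    intro η₁ h₁
    have hab : IsCoprime (c η₁) (∏ η ∈ Finset.erase μ η₁, c η) := by
      apply IsCoprime.prod_right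
      intro η hη
      exact hcop η₁ h₁ η (Finset.mem_of_mem_erase hη) (Finset.ne_of_mem_erase hη).symm
    have hassoc : Associated ((π ^ (m' + 1) * z) ^ p) (c η₁ * ∏ η ∈ Finset.erase μ η₁, c η) := by
      rw [Finset.mul_prod_erase μ c h₁, hprod]
      exact ⟨ε, by ring⟩
    obtain ⟨d, u, hu⟩ := exists_associated_pow_of_associated_pow_mul hab hassoc
    exact ⟨d, u, hu⟩
  -- the three roots of unity `1`, `ζ`, `ζ⁻¹`
  have hζm : ζ ∈ μ := caseII_zeta_mem p K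
  have hζ1 : ζ ≠ 1 := hζ.ne_one hp.out.one_lt
  set ζi : 𝓞 K := ζ ^ (p - 1) with hζi
  have hζζi : ζ * ζi = 1 := by
    rw [hζi, ← pow_succ']
    have : p - 1 + 1 = p := by omega
    rw [this, hζ.pow_eq_one]
  have hζim : ζi ∈ μ := by
    rw [mem_nthRootsFinset hp.out.pos, hζi, ← pow_mul, mul_comm, pow_mul, hζ.pow_eq_one, one_pow]
  have hζi1 : ζi ≠ 1 := hζ.pow_ne_one_of_pos_of_lt (by omega) (by omega)
  have hζζi' : ζ ≠ ζi := by
    intro h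
    have h3 : ζ ^ 2 = 1 := by rw [pow_two]; nth_rewrite 2 [h]; exact hζζi
    exact hζ.pow_ne_one_of_pos_of_lt (by norm_num) (by omega) h3
  obtain ⟨d₀, u₀, h0⟩ := hpow 1 (caseII_one_mem p K)
  obtain ⟨d₁, u₁, h1⟩ := hpow ζ hζm
  obtain ⟨d₂, u₂, h2'⟩ := hpow ζi hζim
  -- the three term relation
  have hrel : c ζ + ζ * c ζi = (1 + ζ) * c 1 := by
    apply mul_left_cancel₀ hπ.ne_zero
    have h3 : π * (c ζ + ζ * c ζi) = π * c ζ + ζ * (π * c ζi) := by ring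
    have h4 : π * ((1 + ζ) * c 1) = (1 + ζ) * (π * c 1) := by ring
    rw [h3, h4, ← hc _ hζm, ← hc _ hζim, ← hc _ (caseII_one_mem p K)]
    have : x + ζ * y + ζ * (x + ζi * y) = x + ζ * y + ζ * x + (ζ * ζi) * y := by ring
    rw [this, hζζi]; ring
  -- `1 + ζ` is a unit
  have h1ζ : IsUnit (1 + ζ) := by
    have := hζ.geom_sum_isUnit hp.out.two_le
      (j := 2) ((Nat.coprime_primes Nat.prime_two hp.out).mpr (Ne.symm hp2))
    simpa [Finset.sum_range_succ] using this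
  obtain ⟨w, hw⟩ := h1ζ
  -- `λ ∤ d₂`
  have hd₂ : ¬ π ∣ d₂ := by
    intro h
    apply hndvd ζi hζim hζi1
    rw [← h2']
    exact dvd_mul_of_dvd_left (dvd_pow h hp.out.ne_zero) _
  -- `λ ^ (p (m'+1)) ∣ c 1`
  have hc1pow : π ^ ((m' + 1) * p) ∣ c 1 := by
    have hcop' : IsCoprime (π ^ ((m' + 1) * p)) (∏ η ∈ Finset.erase μ 1, c η) := by
      apply IsCoprime.pow_left
      apply IsCoprime.prod_right
      intro η hη
      exact hπ.irreducible.coprime_iff_not_dvd.mpr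
        (hndvd η (Finset.mem_of_mem_erase hη) (Finset.ne_of_mem_erase hη))
    apply hcop'.dvd_of_dvd_mul_right
    rw [Finset.mul_prod_erase μ c (caseII_one_mem p K), hprod, mul_pow, ← pow_mul]
    exact dvd_mul_of_dvd_right (dvd_mul_right _ _) _
  -- `λ ^ (m'+1) ∣ d₀`
  have hd₀ : π ^ (m' + 1) ∣ d₀ := by
    have h3 : (π ^ (m' + 1)) ^ p ∣ d₀ ^ p := by
      rw [← pow_mul]
      rw [← h0] at hc1pow
      exact (Units.dvd_mul_right).mp hc1pow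
    exact (IsIntegrallyClosed.pow_dvd_pow_iff hp.out.ne_zero).mp h3
  obtain ⟨ρ, hρ⟩ := hd₀
  -- `λ ∤ ρ`
  have hρ' : ¬ π ∣ ρ := by
    rintro ⟨ρ', rfl⟩
    apply hz
    have h3 : π ^ ((m' + 2) * p) ∣ ∏ η ∈ μ, c η := by
      refine dvd_trans ?_ (Finset.dvd_prod_of_mem c (caseII_one_mem p K))
      rw [← h0, hρ]
      refine dvd_mul_of_dvd_left ?_ _
      have : (π ^ (m' + 1) * (π * ρ')) ^ p = π ^ ((m' + 2) * p) * ρ' ^ p := by ring
      rw [this]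
      exact dvd_mul_right _ _
    rw [hprod] at h3
    have h4 : π ^ ((m' + 1) * p) * π ^ p ∣ π ^ ((m' + 1) * p) * (ε * z ^ p) := by
      have e1 : π ^ ((m' + 1) * p) * π ^ p = π ^ ((m' + 2) * p) := by ring
      have e2 : π ^ ((m' + 1) * p) * (ε * z ^ p) = ε * (π ^ (m' + 1) * z) ^ p := by ring
      rw [e1, e2]; exact h3
    have h5 : π ^ p ∣ ε * z ^ p := (mul_dvd_mul_iff_left (pow_ne_zero _ hπ.ne_zero)).mp h4
    have h6 : π ^ p ∣ z ^ p := (Units.dvd_mul_left).mp (by rwa [mul_comm] at h5)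
    exact (IsIntegrallyClosed.pow_dvd_pow_iff hp.out.ne_zero).mp h6
  -- the new equation
  have hnew : d₁ ^ p + (ζ * u₂ * ↑u₁⁻¹) * d₂ ^ p = (w * u₀ * u₁⁻¹ : (𝓞 K)ˣ) * (π ^ (m' + 1) * ρ) ^ p := by
    have h3 : d₁ ^ p * u₁ + ζ * (d₂ ^ p * u₂) = (1 + ζ) * (d₀ ^ p * u₀) := by
      rw [h0, h1, h2']; exact hrel
    have h4 : (↑u₁⁻¹ : 𝓞 K) * u₁ = 1 := by simp
    calc d₁ ^ p + (ζ * u₂ * ↑u₁⁻¹) * d₂ ^ p
        = (d₁ ^ p * u₁ + ζ * (d₂ ^ p * u₂)) * ↑u₁⁻¹ + d₁ ^ p * (1 - ↑u₁⁻¹ * u₁) := by ring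
      _ = (1 + ζ) * (d₀ ^ p * u₀) * ↑u₁⁻¹ := by rw [h3, h4]; ring
      _ = (w * u₀ * u₁⁻¹ : (𝓞 K)ˣ) * (π ^ (m' + 1) * ρ) ^ p := by
        rw [← hρ, ← hw]; push_cast; ring
  -- Kummer's lemma
  obtain ⟨ζu, hζu⟩ := caseII_mem_isUnit p K hζm
  have hunit : ζ * u₂ * ↑u₁⁻¹ = ((ζu * u₂ * u₁⁻¹ : (𝓞 K)ˣ) : 𝓞 K) := by
    push_cast; rw [hζu]
  have hpdvd : (p : 𝓞 K) ∣ d₁ ^ p + (ζ * u₂ * ↑u₁⁻¹) * d₂ ^ p := by
    rw [hnew]
    refine dvd_mul_of_dvd_right ?_ _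
    rw [mul_pow]
    refine dvd_mul_of_dvd_left ?_ _
    rw [← pow_mul]
    refine dvd_trans (caseII_p_dvd_lam_pow p K) (pow_dvd_pow _ ?_)
    exact Nat.le_mul_of_pos_left p (Nat.succ_pos m')
  obtain ⟨n, hn⟩ := caseII_unit_congr_int p K _ d₁ d₂ hd₂ hpdvd
  rw [hunit] at hn
  obtain ⟨v, hv⟩ := hK.kummer _ ⟨n, hn⟩
  refine ⟨d₁, v * d₂, ρ, w * u₀ * u₁⁻¹, ?_, hρ', ?_, ?_⟩
  · intro h
    exact hd₂ ((Units.dvd_mul_left).mp (by rwa [mul_comm] at h))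
  · have h3 : IsCoprime (c ζ) (c ζi) := hcop ζ hζm ζi hζim hζζi'
    rw [← h1, ← h2'] at h3
    have h4 : IsCoprime (d₁ ^ p) (d₂ ^ p) :=
      (isCoprime_mul_unit_right_left u₁.isUnit _ _).mp
        ((isCoprime_mul_unit_right_right u₂.isUnit _ _).mp h3)
    have h5 : IsCoprime d₁ d₂ := (IsCoprime.pow_iff hp.out.pos hp.out.pos).mp h4
    exact (isCoprime_mul_unit_left_right v.isUnit _ _).mpr h5
  · rw [← hnew, hunit, hv, mul_pow]; push_cast; ring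


/-- Kummer's descent: the generalised equation has no solution. -/
theorem caseII_descent (hp2 : p ≠ 2) (hK : KummerData p K) (m : ℕ) :
    ∀ (x y z : 𝓞 K) (ε : (𝓞 K)ˣ), ¬ π ∣ y → ¬ π ∣ z → IsCoprime x y →
      x ^ p + y ^ p ≠ ε * (π ^ (m + 1) * z) ^ p := by
  induction m with
  | zero =>
    intro x y z ε hy hz hxy e
    obtain ⟨η, hη, h2⟩ := caseII_exists_sq_dvd hp2 hy e
    have hηu := caseII_mem_isUnit p K hη
    have hy' : ¬ π ∣ η * y := fun h => hy ((hηu.dvd_mul_left).mp h)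
    have hxy' : IsCoprime x (η * y) := (isCoprime_mul_unit_left_right hηu _ _).mpr hxy
    have e' : x ^ p + (η * y) ^ p = ε * (π ^ (0 + 1) * z) ^ p := by
      rw [mul_pow, caseII_mem_pow p K hη, one_mul]; exact e
    have h2' : π ^ 2 ∣ x + η * y := h2
    obtain ⟨m', hm', -⟩ := caseII_step hp2 hK hy' hz hxy' e' h2'
    omega
  | succ m ih =>
    intro x y z ε hy hz hxy e
    obtain ⟨η, hη, h2⟩ := caseII_exists_sq_dvd hp2 hy e
    have hηu := caseII_mem_isUnit p K hη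
    have hy' : ¬ π ∣ η * y := fun h => hy ((hηu.dvd_mul_left).mp h)
    have hxy' : IsCoprime x (η * y) := (isCoprime_mul_unit_left_right hηu _ _).mpr hxy
    have e' : x ^ p + (η * y) ^ p = ε * (π ^ (m + 1 + 1) * z) ^ p := by
      rw [mul_pow, caseII_mem_pow p K hη, one_mul]; exact e
    obtain ⟨m', hm', x', y', z', ε', hy'', hz'', hxy'', e''⟩ :=
      caseII_step hp2 hK hy' hz hxy' e' h2
    have : m' = m := by omega
    subst this
    exact ih x' y' z' ε' hy'' hz'' hxy'' e''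

end descent

variable (p K)

/-- The generalised equation has no solution. -/
theorem caseII_gen (hp5 : 5 ≤ p) (h : KummerData p K) (x y z : 𝓞 K) (ε : (𝓞 K)ˣ) (m : ℕ)
    (hm : 1 ≤ m) (_hx : ¬ lam p K ∣ x) (hy : ¬ lam p K ∣ y) (hz : ¬ lam p K ∣ z)
    (hxy : IsCoprime x y) (_hz0 : z ≠ 0) :
    x ^ p + y ^ p ≠ ε * lam p K ^ (p * m) * z ^ p := by
  have hp2 : p ≠ 2 := by omega
  obtain ⟨m', rfl⟩ : ∃ m', m = m' + 1 := ⟨m - 1, by omega⟩
  have := caseII_descent hp2 h m' x y z ε hy hz hxy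
  intro e
  apply this
  rw [e, mul_pow, ← pow_mul, mul_comm (m' + 1) p, mul_assoc]

theorem caseII (hp5 : 5 ≤ p) (h : KummerData p K) {a b c : ℤ} (hc : c ≠ 0)
    (_ha : ¬ (p : ℤ) ∣ a) (hb : ¬ (p : ℤ) ∣ b) (hpc : (p : ℤ) ∣ c) (hab : IsCoprime a b) :
    a ^ p + b ^ p ≠ c ^ p := by
  have hp2 : p ≠ 2 := by omega
  have hpprime : Prime (p : ℤ) := Nat.prime_iff_prime_int.mp hp.out
  intro e
  -- write `c = p ^ k * c₀`
  obtain ⟨k, c₀, hc₀, hck⟩ : ∃ (k : ℕ) (c₀ : ℤ), ¬ (p : ℤ) ∣ c₀ ∧ c = (p : ℤ) ^ k * c₀ := by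
    have hfin : FiniteMultiplicity (p : ℤ) c :=
      Int.finiteMultiplicity_iff.mpr ⟨by
        have := hp.out.one_lt
        simp only [Int.natAbs_natCast]; omega, hc⟩
    obtain ⟨c₀, h1, h2⟩ := hfin.exists_eq_pow_mul_and_not_dvd
    exact ⟨_, c₀, h2, h1⟩
  have hk : k ≠ 0 := by
    rintro rfl
    apply hc₀
    rw [pow_zero, one_mul] at hck
    rwa [← hck]
  obtain ⟨u, hu⟩ := caseII_associated_lam_pow p K
  -- the equation in `𝓞 K`
  have e' : ((a : ℤ) : 𝓞 K) ^ p + ((b : ℤ) : 𝓞 K) ^ p =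
      ((u ^ (k * p) : (𝓞 K)ˣ) : 𝓞 K) *
        (lam p K ^ ((p - 1) * k - 1 + 1) * ((c₀ : ℤ) : 𝓞 K)) ^ p := by
    have h1 : ((a : ℤ) : 𝓞 K) ^ p + ((b : ℤ) : 𝓞 K) ^ p = ((c : ℤ) : 𝓞 K) ^ p := by
      exact_mod_cast congrArg (Int.cast : ℤ → 𝓞 K) e
    have h2 : (p - 1) * k - 1 + 1 = (p - 1) * k := by
      have : 1 ≤ (p - 1) * k := Nat.one_le_iff_ne_zero.mpr
        (Nat.mul_ne_zero (by have := hp.out.two_le; omega) hk)
      omega
    have h3 : (p : 𝓞 K) = lam p K ^ (p - 1) * u := hu.symm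
    rw [h1, h2, hck]
    push_cast
    rw [h3]
    ring
  have hb' : ¬ lam p K ∣ ((b : ℤ) : 𝓞 K) := fun hdiv => hb ((caseII_lam_dvd_intCast_iff p K).mp hdiv)
  have hc' : ¬ lam p K ∣ ((c₀ : ℤ) : 𝓞 K) :=
    fun hdiv => hc₀ ((caseII_lam_dvd_intCast_iff p K).mp hdiv)
  have hab' : IsCoprime ((a : ℤ) : 𝓞 K) ((b : ℤ) : 𝓞 K) := hab.intCast
  exact caseII_descent hp2 h _ _ _ _ _ hb' hc' hab' e'

end

end Fermat.Agent.FLTK
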