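import Mathlib

set_option autoImplicit false

/-!
# Plan K: Fermat's Last Theorem for the exponents 5, 7, 11, 13 (Kummer)

Common definitions.  `K` is a `p`-th cyclotomic field, `zetaInt p K` the chosen primitive root in
`𝓞 K`, `lam p K = zetaInt p K - 1`.
-/

namespace Fermat.Agent.FLTK

open NumberField IsCyclotomicExtension

noncomputable section

variable (p : ℕ) [hp : Fact p.Prime] (K : Type) [Field K] [NumberField K]
  [IsCyclotomicExtension {p} ℚ K]

instance neZero_of_fact_prime : NeZero p := ⟨hp.out.ne_zero⟩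

/-- The chosen primitive `p`-th root of unity in `K`. -/
def zetaK : K := IsCyclotomicExtension.zeta p ℚ K

theorem zetaK_spec : IsPrimitiveRoot (zetaK p K) p := IsCyclotomicExtension.zeta_spec p ℚ K

/-- The chosen primitive `p`-th root of unity, in the ring of integers. -/
def zetaInt : 𝓞 K := (zetaK_spec p K).toInteger

/-- `λ = ζ - 1`. -/
def lam : 𝓞 K := zetaInt p K - 1

/-- The data making Kummer's proof work: the ring of integers is a PID and Kummer's lemma holds. -/
structure KummerData : Prop where
  pid : IsPrincipalIdealRing (𝓞 K)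
  kummer : ∀ u : (𝓞 K)ˣ, (∃ n : ℤ, (p : 𝓞 K) ∣ (u : 𝓞 K) - (n : 𝓞 K)) →
    ∃ v : (𝓞 K)ˣ, u = v ^ p

end

end Fermat.Agent.FLTK
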