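import Fermat.Agent.FLTK.LogDer

set_option autoImplicit false

/-!
# Plan K, chunk B2: explicit independence of the logarithmic derivatives of `ζ` and of the
cyclotomic units modulo `p`, for `p = 5, 7, 11, 13`.  (Generated by a script.)
-/

namespace Fermat.Agent.FLTK

open Polynomial NumberField

noncomputable section

theorem cycPolyZ_2 : cycPolyZ 2 = 2 + X := by
  simp only [cycPolyZ, Finset.sum_range_succ, Finset.sum_range_zero]
  ring

theorem derivative_cycPolyZ_2 : derivative (cycPolyZ 2) = 1 := by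
  rw [cycPolyZ_2]
  simp only [derivative_add, derivative_mul, derivative_X_pow, derivative_X, derivative_ofNat, Nat.cast_ofNat, map_ofNat]
  ring

theorem cycPolyZ_3 : cycPolyZ 3 = 3 + 3 * X + X ^ 2 := by
  simp only [cycPolyZ, Finset.sum_range_succ, Finset.sum_range_zero]
  ring

theorem derivative_cycPolyZ_3 : derivative (cycPolyZ 3) = 3 + 2 * X := by
  rw [cycPolyZ_3]
  simp only [derivative_add, derivative_mul, derivative_X_pow, derivative_X, derivative_ofNat, Nat.cast_ofNat, map_ofNat]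
  ring

theorem cycPolyZ_4 : cycPolyZ 4 = 4 + 6 * X + 4 * X ^ 2 + X ^ 3 := by
  simp only [cycPolyZ, Finset.sum_range_succ, Finset.sum_range_zero]
  ring

theorem derivative_cycPolyZ_4 : derivative (cycPolyZ 4) = 6 + 8 * X + 3 * X ^ 2 := by
  rw [cycPolyZ_4]
  simp only [derivative_add, derivative_mul, derivative_X_pow, derivative_X, derivative_ofNat, Nat.cast_ofNat, map_ofNat]
  ring

theorem cycPolyZ_5 : cycPolyZ 5 = 5 + 10 * X + 10 * X ^ 2 + 5 * X ^ 3 + X ^ 4 := by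
  simp only [cycPolyZ, Finset.sum_range_succ, Finset.sum_range_zero]
  ring

theorem derivative_cycPolyZ_5 : derivative (cycPolyZ 5) = 10 + 20 * X + 15 * X ^ 2 + 4 * X ^ 3 := by
  rw [cycPolyZ_5]
  simp only [derivative_add, derivative_mul, derivative_X_pow, derivative_X, derivative_ofNat, Nat.cast_ofNat, map_ofNat]
  ring

theorem cycPolyZ_6 : cycPolyZ 6 = 6 + 15 * X + 20 * X ^ 2 + 15 * X ^ 3 + 6 * X ^ 4 + X ^ 5 := by
  simp only [cycPolyZ, Finset.sum_range_succ, Finset.sum_range_zero]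
  ring

theorem derivative_cycPolyZ_6 : derivative (cycPolyZ 6) = 15 + 40 * X + 45 * X ^ 2 + 24 * X ^ 3 + 5 * X ^ 4 := by
  rw [cycPolyZ_6]
  simp only [derivative_add, derivative_mul, derivative_X_pow, derivative_X, derivative_ofNat, Nat.cast_ofNat, map_ofNat]
  ring

section P5

variable (K : Type) [Field K] [NumberField K] [IsCyclotomicExtension {5} ℚ K]

/-- The polynomial whose vanishing modulo `X^3` encodes a relation. -/
def relPoly5 (j e2 : ℤ) : ℤ[X] :=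
  (j : ℤ[X]) * cycPolyZ 2 + (e2 : ℤ[X]) * ((1 + X) * derivative (cycPolyZ 2))

theorem relPoly5_eq (j e2 : ℤ) : relPoly5 j e2 =
    C (2 * j + e2) + C (j + e2) * X + C (0) * X ^ 2 := by
  unfold relPoly5
  rw [derivative_cycPolyZ_2, cycPolyZ_2]
  simp only [map_add, map_mul, map_ofNat, map_one, map_zero, ← Polynomial.C_eq_intCast, Int.cast_id]
  ring

theorem relPoly5_coeff_0 (j e2 : ℤ) : (relPoly5 j e2).coeff 0 = 2 * j + e2 := by
  rw [relPoly5_eq]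
  simp only [coeff_add, coeff_C_mul_X_pow, coeff_C_mul_X, coeff_C]
  norm_num

theorem relPoly5_coeff_1 (j e2 : ℤ) : (relPoly5 j e2).coeff 1 = j + e2 := by
  rw [relPoly5_eq]
  simp only [coeff_add, coeff_C_mul_X_pow, coeff_C_mul_X, coeff_C]
  norm_num

theorem relPoly5_coeff_2 (j e2 : ℤ) : (relPoly5 j e2).coeff 2 = 0 := by
  rw [relPoly5_eq]
  simp only [coeff_add, coeff_C_mul_X_pow, coeff_C_mul_X, coeff_C]
  norm_num

end P5

section P7

variable (K : Type) [Field K] [NumberField K] [IsCyclotomicExtension {7} ℚ K]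

/-- The polynomial whose vanishing modulo `X^5` encodes a relation. -/
def relPoly7 (j e2 e3 : ℤ) : ℤ[X] :=
  (j : ℤ[X]) * cycPolyZ 2 * cycPolyZ 3 + (e2 : ℤ[X]) * ((1 + X) * derivative (cycPolyZ 2) * cycPolyZ 3) + (e3 : ℤ[X]) * ((1 + X) * derivative (cycPolyZ 3) * cycPolyZ 2)

theorem relPoly7_eq (j e2 e3 : ℤ) : relPoly7 j e2 e3 =
    C (6 * j + 3 * e2 + 6 * e3) + C (9 * j + 6 * e2 + 13 * e3) * X + C (5 * j + 4 * e2 + 9 * e3) * X ^ 2 + C (j + e2 + 2 * e3) * X ^ 3 + C (0) * X ^ 4 := by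
  unfold relPoly7
  rw [derivative_cycPolyZ_2, derivative_cycPolyZ_3, cycPolyZ_2, cycPolyZ_3]
  simp only [map_add, map_mul, map_ofNat, map_one, map_zero, ← Polynomial.C_eq_intCast, Int.cast_id]
  ring

theorem relPoly7_coeff_0 (j e2 e3 : ℤ) : (relPoly7 j e2 e3).coeff 0 = 6 * j + 3 * e2 + 6 * e3 := by
  rw [relPoly7_eq]
  simp only [coeff_add, coeff_C_mul_X_pow, coeff_C_mul_X, coeff_C]
  norm_num

theorem relPoly7_coeff_1 (j e2 e3 : ℤ) : (relPoly7 j e2 e3).coeff 1 = 9 * j + 6 * e2 + 13 * e3 := by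
  rw [relPoly7_eq]
  simp only [coeff_add, coeff_C_mul_X_pow, coeff_C_mul_X, coeff_C]
  norm_num

theorem relPoly7_coeff_2 (j e2 e3 : ℤ) : (relPoly7 j e2 e3).coeff 2 = 5 * j + 4 * e2 + 9 * e3 := by
  rw [relPoly7_eq]
  simp only [coeff_add, coeff_C_mul_X_pow, coeff_C_mul_X, coeff_C]
  norm_num

theorem relPoly7_coeff_3 (j e2 e3 : ℤ) : (relPoly7 j e2 e3).coeff 3 = j + e2 + 2 * e3 := by
  rw [relPoly7_eq]
  simp only [coeff_add, coeff_C_mul_X_pow, coeff_C_mul_X, coeff_C]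
  norm_num

theorem relPoly7_coeff_4 (j e2 e3 : ℤ) : (relPoly7 j e2 e3).coeff 4 = 0 := by
  rw [relPoly7_eq]
  simp only [coeff_add, coeff_C_mul_X_pow, coeff_C_mul_X, coeff_C]
  norm_num

end P7

section P11

variable (K : Type) [Field K] [NumberField K] [IsCyclotomicExtension {11} ℚ K]

/-- The polynomial whose vanishing modulo `X^9` encodes a relation. -/
def relPoly11 (j e2 e3 e4 e5 : ℤ) : ℤ[X] :=
  (j : ℤ[X]) * cycPolyZ 2 * cycPolyZ 3 * cycPolyZ 4 * cycPolyZ 5 + (e2 : ℤ[X]) * ((1 + X) * derivative (cycPolyZ 2) * cycPolyZ 3 * cycPolyZ 4 * cycPolyZ 5) + (e3 : ℤ[X]) * ((1 + X) * derivative (cycPolyZ 3) * cycPolyZ 2 * cycPolyZ 4 * cycPolyZ 5) + (e4 : ℤ[X]) * ((1 + X) * derivative (cycPolyZ 4) * cycPolyZ 2 * cycPolyZ 3 * cycPolyZ 5) + (e5 : ℤ[X]) * ((1 + X) * derivative (cycPolyZ 5) * cycPolyZ 2 * cycPolyZ 3 * cycPolyZ 4)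

theorem relPoly11_eq (j e2 e3 e4 e5 : ℤ) : relPoly11 j e2 e3 e4 e5 =
    C (120 * j + 60 * e2 + 120 * e3 + 180 * e4 + 240 * e5) + C (600 * j + 330 * e2 + 680 * e3 + 1050 * e4 + 1440 * e5) * X + C (1450 * j + 860 * e2 + 1810 * e3 + 2850 * e4 + 3980 * e5) * X ^ 2 + C (2200 * j + 1395 * e2 + 2980 * e3 + 4745 * e4 + 6676 * e5) * X ^ 3 + C (2299 * j + 1552 * e2 + 3349 * e3 + 5356 * e4 + 7524 * e5) * X ^ 4 + C (1717 * j + 1232 * e2 + 2673 * e3 + 4268 * e4 + 5950 * e5) * X ^ 5 + C (923 * j + 704 * e2 + 1528 * e3 + 2422 * e4 + 3341 * e5) * X ^ 6 + C (351 * j + 285 * e2 + 615 * e3 + 963 * e4 + 1314 * e5) * X ^ 7 + C (90 * j + 78 * e2 + 166 * e3 + 256 * e4 + 346 * e5) * X ^ 8 + C (14 * j + 13 * e2 + 27 * e3 + 41 * e4 + 55 * e5) * X ^ 9 + C (j + e2 + 2 * e3 + 3 * e4 + 4 * e5) * X ^ 10 := by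
  unfold relPoly11
  rw [derivative_cycPolyZ_2, derivative_cycPolyZ_3, derivative_cycPolyZ_4, derivative_cycPolyZ_5, cycPolyZ_2, cycPolyZ_3, cycPolyZ_4, cycPolyZ_5]
  simp only [map_add, map_mul, map_ofNat, map_one, map_zero, ← Polynomial.C_eq_intCast, Int.cast_id]
  ring

theorem relPoly11_coeff_0 (j e2 e3 e4 e5 : ℤ) : (relPoly11 j e2 e3 e4 e5).coeff 0 = 120 * j + 60 * e2 + 120 * e3 + 180 * e4 + 240 * e5 := by
  rw [relPoly11_eq]
  simp only [coeff_add, coeff_C_mul_X_pow, coeff_C_mul_X, coeff_C]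
  norm_num

theorem relPoly11_coeff_1 (j e2 e3 e4 e5 : ℤ) : (relPoly11 j e2 e3 e4 e5).coeff 1 = 600 * j + 330 * e2 + 680 * e3 + 1050 * e4 + 1440 * e5 := by
  rw [relPoly11_eq]
  simp only [coeff_add, coeff_C_mul_X_pow, coeff_C_mul_X, coeff_C]
  norm_num

theorem relPoly11_coeff_2 (j e2 e3 e4 e5 : ℤ) : (relPoly11 j e2 e3 e4 e5).coeff 2 = 1450 * j + 860 * e2 + 1810 * e3 + 2850 * e4 + 3980 * e5 := by
  rw [relPoly11_eq]
  simp only [coeff_add, coeff_C_mul_X_pow, coeff_C_mul_X, coeff_C]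
  norm_num

theorem relPoly11_coeff_3 (j e2 e3 e4 e5 : ℤ) : (relPoly11 j e2 e3 e4 e5).coeff 3 = 2200 * j + 1395 * e2 + 2980 * e3 + 4745 * e4 + 6676 * e5 := by
  rw [relPoly11_eq]
  simp only [coeff_add, coeff_C_mul_X_pow, coeff_C_mul_X, coeff_C]
  norm_num

theorem relPoly11_coeff_4 (j e2 e3 e4 e5 : ℤ) : (relPoly11 j e2 e3 e4 e5).coeff 4 = 2299 * j + 1552 * e2 + 3349 * e3 + 5356 * e4 + 7524 * e5 := by
  rw [relPoly11_eq]
  simp only [coeff_add, coeff_C_mul_X_pow, coeff_C_mul_X, coeff_C]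
  norm_num

theorem relPoly11_coeff_5 (j e2 e3 e4 e5 : ℤ) : (relPoly11 j e2 e3 e4 e5).coeff 5 = 1717 * j + 1232 * e2 + 2673 * e3 + 4268 * e4 + 5950 * e5 := by
  rw [relPoly11_eq]
  simp only [coeff_add, coeff_C_mul_X_pow, coeff_C_mul_X, coeff_C]
  norm_num

theorem relPoly11_coeff_6 (j e2 e3 e4 e5 : ℤ) : (relPoly11 j e2 e3 e4 e5).coeff 6 = 923 * j + 704 * e2 + 1528 * e3 + 2422 * e4 + 3341 * e5 := by
  rw [relPoly11_eq]
  simp only [coeff_add, coeff_C_mul_X_pow, coeff_C_mul_X, coeff_C]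
  norm_num

theorem relPoly11_coeff_7 (j e2 e3 e4 e5 : ℤ) : (relPoly11 j e2 e3 e4 e5).coeff 7 = 351 * j + 285 * e2 + 615 * e3 + 963 * e4 + 1314 * e5 := by
  rw [relPoly11_eq]
  simp only [coeff_add, coeff_C_mul_X_pow, coeff_C_mul_X, coeff_C]
  norm_num

theorem relPoly11_coeff_8 (j e2 e3 e4 e5 : ℤ) : (relPoly11 j e2 e3 e4 e5).coeff 8 = 90 * j + 78 * e2 + 166 * e3 + 256 * e4 + 346 * e5 := by
  rw [relPoly11_eq]
  simp only [coeff_add, coeff_C_mul_X_pow, coeff_C_mul_X, coeff_C]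
  norm_num

end P11

section P13

variable (K : Type) [Field K] [NumberField K] [IsCyclotomicExtension {13} ℚ K]

/-- The polynomial whose vanishing modulo `X^11` encodes a relation. -/
def relPoly13 (j e2 e3 e4 e5 e6 : ℤ) : ℤ[X] :=
  (j : ℤ[X]) * cycPolyZ 2 * cycPolyZ 3 * cycPolyZ 4 * cycPolyZ 5 * cycPolyZ 6 + (e2 : ℤ[X]) * ((1 + X) * derivative (cycPolyZ 2) * cycPolyZ 3 * cycPolyZ 4 * cycPolyZ 5 * cycPolyZ 6) + (e3 : ℤ[X]) * ((1 + X) * derivative (cycPolyZ 3) * cycPolyZ 2 * cycPolyZ 4 * cycPolyZ 5 * cycPolyZ 6) + (e4 : ℤ[X]) * ((1 + X) * derivative (cycPolyZ 4) * cycPolyZ 2 * cycPolyZ 3 * cycPolyZ 5 * cycPolyZ 6) + (e5 : ℤ[X]) * ((1 + X) * derivative (cycPolyZ 5) * cycPolyZ 2 * cycPolyZ 3 * cycPolyZ 4 * cycPolyZ 6) + (e6 : ℤ[X]) * ((1 + X) * derivative (cycPolyZ 6) * cycPolyZ 2 * cycPolyZ 3 * cycPolyZ 4 * cycPolyZ 5)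

theorem relPoly13_eq (j e2 e3 e4 e5 e6 : ℤ) : relPoly13 j e2 e3 e4 e5 e6 =
    C (720 * j + 360 * e2 + 720 * e3 + 1080 * e4 + 1440 * e5 + 1800 * e6) + C (5400 * j + 2880 * e2 + 5880 * e3 + 9000 * e4 + 12240 * e5 + 15600 * e6) * X + C (20100 * j + 11310 * e2 + 23460 * e3 + 36450 * e4 + 50280 * e5 + 64950 * e6) * X ^ 2 + C (48750 * j + 28770 * e2 + 60430 * e3 + 94920 * e4 + 132156 * e5 + 172030 * e6) * X ^ 3 + C (85514 * j + 52747 * e2 + 111914 * e3 + 177141 * e4 + 247924 * e5 + 323615 * e6) * X ^ 4 + C (114257 * j + 73512 * e2 + 157223 * e3 + 250078 * e4 + 350660 * e5 + 457250 * e6) * X ^ 5 + C (119573 * j + 80159 * e2 + 172483 * e3 + 274997 * e4 + 385236 * e5 + 500545 * e6) * X ^ 6 + C (99426 * j + 69420 * e2 + 149995 * e3 + 239128 * e4 + 333895 * e5 + 431656 * e6) * X ^ 7 + C (66014 * j + 48010 * e2 + 103950 * e3 + 165322 * e4 + 229676 * e5 + 295254 * e6) * X ^ 8 + C (34900 * j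 + 26452 * e2 + 57259 * e3 + 90640 * e4 + 125139 * e5 + 159970 * e6) * X ^ 9 + C (14536 * j + 11492 * e2 + 24803 * e3 + 38998 * e4 + 53475 * e5 + 68006 * e6) * X ^ 10 + C (4674 * j + 3859 * e2 + 8278 * e3 + 12905 * e4 + 17575 * e5 + 22249 * e6) * X ^ 11 + C (1121 * j + 968 * e2 + 2056 * e3 + 3174 * e4 + 4295 * e5 + 5416 * e6) * X ^ 12 + C (189 * j + 171 * e2 + 358 * e3 + 547 * e4 + 736 * e5 + 925 * e6) * X ^ 13 + C (20 * j + 19 * e2 + 39 * e3 + 59 * e4 + 79 * e5 + 99 * e6) * X ^ 14 + C (j + e2 + 2 * e3 + 3 * e4 + 4 * e5 + 5 * e6) * X ^ 15 := by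
  unfold relPoly13
  rw [derivative_cycPolyZ_2, derivative_cycPolyZ_3, derivative_cycPolyZ_4, derivative_cycPolyZ_5, derivative_cycPolyZ_6, cycPolyZ_2, cycPolyZ_3, cycPolyZ_4, cycPolyZ_5, cycPolyZ_6]
  simp only [map_add, map_mul, map_ofNat, map_one, map_zero, ← Polynomial.C_eq_intCast, Int.cast_id]
  ring

theorem relPoly13_coeff_0 (j e2 e3 e4 e5 e6 : ℤ) : (relPoly13 j e2 e3 e4 e5 e6).coeff 0 = 720 * j + 360 * e2 + 720 * e3 + 1080 * e4 + 1440 * e5 + 1800 * e6 := by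
  rw [relPoly13_eq]
  simp only [coeff_add, coeff_C_mul_X_pow, coeff_C_mul_X, coeff_C]
  norm_num

theorem relPoly13_coeff_1 (j e2 e3 e4 e5 e6 : ℤ) : (relPoly13 j e2 e3 e4 e5 e6).coeff 1 = 5400 * j + 2880 * e2 + 5880 * e3 + 9000 * e4 + 12240 * e5 + 15600 * e6 := by
  rw [relPoly13_eq]
  simp only [coeff_add, coeff_C_mul_X_pow, coeff_C_mul_X, coeff_C]
  norm_num

theorem relPoly13_coeff_2 (j e2 e3 e4 e5 e6 : ℤ) : (relPoly13 j e2 e3 e4 e5 e6).coeff 2 = 20100 * j + 11310 * e2 + 23460 * e3 + 36450 * e4 + 50280 * e5 + 64950 * e6 := by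
  rw [relPoly13_eq]
  simp only [coeff_add, coeff_C_mul_X_pow, coeff_C_mul_X, coeff_C]
  norm_num

theorem relPoly13_coeff_3 (j e2 e3 e4 e5 e6 : ℤ) : (relPoly13 j e2 e3 e4 e5 e6).coeff 3 = 48750 * j + 28770 * e2 + 60430 * e3 + 94920 * e4 + 132156 * e5 + 172030 * e6 := by
  rw [relPoly13_eq]
  simp only [coeff_add, coeff_C_mul_X_pow, coeff_C_mul_X, coeff_C]
  norm_num

theorem relPoly13_coeff_4 (j e2 e3 e4 e5 e6 : ℤ) : (relPoly13 j e2 e3 e4 e5 e6).coeff 4 = 85514 * j + 52747 * e2 + 111914 * e3 + 177141 * e4 + 247924 * e5 + 323615 * e6 := by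
  rw [relPoly13_eq]
  simp only [coeff_add, coeff_C_mul_X_pow, coeff_C_mul_X, coeff_C]
  norm_num

theorem relPoly13_coeff_5 (j e2 e3 e4 e5 e6 : ℤ) : (relPoly13 j e2 e3 e4 e5 e6).coeff 5 = 114257 * j + 73512 * e2 + 157223 * e3 + 250078 * e4 + 350660 * e5 + 457250 * e6 := by
  rw [relPoly13_eq]
  simp only [coeff_add, coeff_C_mul_X_pow, coeff_C_mul_X, coeff_C]
  norm_num

theorem relPoly13_coeff_6 (j e2 e3 e4 e5 e6 : ℤ) : (relPoly13 j e2 e3 e4 e5 e6).coeff 6 = 119573 * j + 80159 * e2 + 172483 * e3 + 274997 * e4 + 385236 * e5 + 500545 * e6 := by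
  rw [relPoly13_eq]
  simp only [coeff_add, coeff_C_mul_X_pow, coeff_C_mul_X, coeff_C]
  norm_num

theorem relPoly13_coeff_7 (j e2 e3 e4 e5 e6 : ℤ) : (relPoly13 j e2 e3 e4 e5 e6).coeff 7 = 99426 * j + 69420 * e2 + 149995 * e3 + 239128 * e4 + 333895 * e5 + 431656 * e6 := by
  rw [relPoly13_eq]
  simp only [coeff_add, coeff_C_mul_X_pow, coeff_C_mul_X, coeff_C]
  norm_num

theorem relPoly13_coeff_8 (j e2 e3 e4 e5 e6 : ℤ) : (relPoly13 j e2 e3 e4 e5 e6).coeff 8 = 66014 * j + 48010 * e2 + 103950 * e3 + 165322 * e4 + 229676 * e5 + 295254 * e6 := by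
  rw [relPoly13_eq]
  simp only [coeff_add, coeff_C_mul_X_pow, coeff_C_mul_X, coeff_C]
  norm_num

theorem relPoly13_coeff_9 (j e2 e3 e4 e5 e6 : ℤ) : (relPoly13 j e2 e3 e4 e5 e6).coeff 9 = 34900 * j + 26452 * e2 + 57259 * e3 + 90640 * e4 + 125139 * e5 + 159970 * e6 := by
  rw [relPoly13_eq]
  simp only [coeff_add, coeff_C_mul_X_pow, coeff_C_mul_X, coeff_C]
  norm_num

theorem relPoly13_coeff_10 (j e2 e3 e4 e5 e6 : ℤ) : (relPoly13 j e2 e3 e4 e5 e6).coeff 10 = 14536 * j + 11492 * e2 + 24803 * e3 + 38998 * e4 + 53475 * e5 + 68006 * e6 := by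
  rw [relPoly13_eq]
  simp only [coeff_add, coeff_C_mul_X_pow, coeff_C_mul_X, coeff_C]
  norm_num

end P13

end

end Fermat.Agent.FLTK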