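import Fermat.Agent.FLTK.Indep

set_option autoImplicit false

/-!
# Plan K, chunk B2 (continued): the independence statement `psiK_indep`.  (Generated by a script.)
-/

namespace Fermat.Agent.FLTK

open Polynomial NumberField

noncomputable section

section P5

variable (K : Type) [Field K] [NumberField K] [hp : Fact (Nat.Prime 5)]
  [IsCyclotomicExtension {5} ℚ K]

theorem indep5 (j e2 : ℤ)
    (hrel : psiK 5 K (zetaUnit 5 K ^ j * (cycUnit 5 K 2 ^ e2)) = 1) :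
    (5:ℤ) ∣ j ∧ (5:ℤ) ∣ e2 := by
  have hz1 := psiK_zetaUnit 5 K
  rw [map_add, map_one] at hz1
  have hw2 := psiK_cycUnit 5 K (a := 2) (by decide)
  have hsum : (j : Trunc 5 (5 - 2)) * Multiplicative.toAdd (psiK 5 K (zetaUnit 5 K)) + (e2 : Trunc 5 (5 - 2)) * Multiplicative.toAdd (psiK 5 K (cycUnit 5 K 2)) = 0 := by
    have := congrArg Multiplicative.toAdd hrel
    simpa [map_mul, map_zpow, toAdd_mul, toAdd_zpow, zsmul_eq_mul, add_assoc] using this
  have hQ : (truncMk 5 (5 - 2)) ((relPoly5 j e2).map (Int.castRingHom (ZMod 5))) = 0 := by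
    unfold relPoly5
    simp only [Polynomial.map_add, Polynomial.map_mul, Polynomial.map_intCast, map_cycPolyZ,
      Polynomial.map_one, Polynomial.map_X, ← Polynomial.derivative_map]
    simp only [map_add, map_mul, map_intCast, map_one]
    set z := Multiplicative.toAdd (psiK 5 K (zetaUnit 5 K))
    set w2 := Multiplicative.toAdd (psiK 5 K (cycUnit 5 K 2))
    linear_combination ((1 + (truncMk 5 (5 - 2)) X) * ((truncMk 5 (5 - 2)) (cycPoly 5 2))) * hsum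
      - ((j : Trunc 5 (5 - 2)) * ((truncMk 5 (5 - 2)) (cycPoly 5 2))) * hz1
      - ((e2 : Trunc 5 (5 - 2)) * (1 + (truncMk 5 (5 - 2)) X)) * hw2
  have hdvd := (truncMk_eq_zero_iff 5 _ _).mp hQ
  have hc : ∀ k < 5 - 2, (Int.castRingHom (ZMod 5)) ((relPoly5 j e2).coeff k) = 0 := by
    intro k hk
    rw [← Polynomial.coeff_map]
    exact Polynomial.X_pow_dvd_iff.mp hdvd k hk
  have key : ∀ a : ℤ, (Int.castRingHom (ZMod 5)) a = 0 → (5:ℤ) ∣ a := by
    intro a ha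
    have := (ZMod.intCast_zmod_eq_zero_iff_dvd a 5).mp (by simpa using ha)
    exact_mod_cast this
  have h0 := key _ (hc 0 (by norm_num))
  rw [relPoly5_coeff_0] at h0
  have h1 := key _ (hc 1 (by norm_num))
  rw [relPoly5_coeff_1] at h1
  have d_j : (5:ℤ) ∣ j := by
    obtain ⟨t, ht⟩ := (dvd_add (h0.mul_left 1) (h1.mul_left 4))
    exact ⟨t - (1 * j + 1 * e2), by linarith⟩
  have d_e2 : (5:ℤ) ∣ e2 := by
    obtain ⟨t, ht⟩ := (dvd_add (h0.mul_left 4) (h1.mul_left 2))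
    exact ⟨t - (2 * j + 1 * e2), by linarith⟩
  exact ⟨d_j, d_e2⟩

end P5

section P7

variable (K : Type) [Field K] [NumberField K] [hp : Fact (Nat.Prime 7)]
  [IsCyclotomicExtension {7} ℚ K]

theorem indep7 (j e2 e3 : ℤ)
    (hrel : psiK 7 K (zetaUnit 7 K ^ j * (cycUnit 7 K 2 ^ e2 * (cycUnit 7 K 3 ^ e3))) = 1) :
    (7:ℤ) ∣ j ∧ (7:ℤ) ∣ e2 ∧ (7:ℤ) ∣ e3 := by
  have hz1 := psiK_zetaUnit 7 K
  rw [map_add, map_one] at hz1
  have hw2 := psiK_cycUnit 7 K (a := 2) (by decide)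
  have hw3 := psiK_cycUnit 7 K (a := 3) (by decide)
  have hsum : (j : Trunc 7 (7 - 2)) * Multiplicative.toAdd (psiK 7 K (zetaUnit 7 K)) + (e2 : Trunc 7 (7 - 2)) * Multiplicative.toAdd (psiK 7 K (cycUnit 7 K 2)) + (e3 : Trunc 7 (7 - 2)) * Multiplicative.toAdd (psiK 7 K (cycUnit 7 K 3)) = 0 := by
    have := congrArg Multiplicative.toAdd hrel
    simpa [map_mul, map_zpow, toAdd_mul, toAdd_zpow, zsmul_eq_mul, add_assoc] using this
  have hQ : (truncMk 7 (7 - 2)) ((relPoly7 j e2 e3).map (Int.castRingHom (ZMod 7))) = 0 := by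
    unfold relPoly7
    simp only [Polynomial.map_add, Polynomial.map_mul, Polynomial.map_intCast, map_cycPolyZ,
      Polynomial.map_one, Polynomial.map_X, ← Polynomial.derivative_map]
    simp only [map_add, map_mul, map_intCast, map_one]
    set z := Multiplicative.toAdd (psiK 7 K (zetaUnit 7 K))
    set w2 := Multiplicative.toAdd (psiK 7 K (cycUnit 7 K 2))
    set w3 := Multiplicative.toAdd (psiK 7 K (cycUnit 7 K 3))
    linear_combination ((1 + (truncMk 7 (7 - 2)) X) * ((truncMk 7 (7 - 2)) (cycPoly 7 2) * (truncMk 7 (7 - 2)) (cycPoly 7 3))) * hsum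
      - ((j : Trunc 7 (7 - 2)) * ((truncMk 7 (7 - 2)) (cycPoly 7 2) * (truncMk 7 (7 - 2)) (cycPoly 7 3))) * hz1
      - ((e2 : Trunc 7 (7 - 2)) * (1 + (truncMk 7 (7 - 2)) X) * (truncMk 7 (7 - 2)) (cycPoly 7 3)) * hw2
      - ((e3 : Trunc 7 (7 - 2)) * (1 + (truncMk 7 (7 - 2)) X) * (truncMk 7 (7 - 2)) (cycPoly 7 2)) * hw3
  have hdvd := (truncMk_eq_zero_iff 7 _ _).mp hQ
  have hc : ∀ k < 7 - 2, (Int.castRingHom (ZMod 7)) ((relPoly7 j e2 e3).coeff k) = 0 := by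
    intro k hk
    rw [← Polynomial.coeff_map]
    exact Polynomial.X_pow_dvd_iff.mp hdvd k hk
  have key : ∀ a : ℤ, (Int.castRingHom (ZMod 7)) a = 0 → (7:ℤ) ∣ a := by
    intro a ha
    have := (ZMod.intCast_zmod_eq_zero_iff_dvd a 7).mp (by simpa using ha)
    exact_mod_cast this
  have h0 := key _ (hc 0 (by norm_num))
  rw [relPoly7_coeff_0] at h0
  have h1 := key _ (hc 1 (by norm_num))
  rw [relPoly7_coeff_1] at h1
  have h3 := key _ (hc 3 (by norm_num))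
  rw [relPoly7_coeff_3] at h3
  have d_j : (7:ℤ) ∣ j := by
    obtain ⟨t, ht⟩ := (dvd_add (h0.mul_left 5) (h3.mul_left 6))
    exact ⟨t - (5 * j + 3 * e2 + 6 * e3), by linarith⟩
  have d_e2 : (7:ℤ) ∣ e2 := by
    obtain ⟨t, ht⟩ := (dvd_add (h0.mul_left 4) (dvd_add (h1.mul_left 5) (h3.mul_left 1)))
    exact ⟨t - (10 * j + 6 * e2 + 13 * e3), by linarith⟩
  have d_e3 : (7:ℤ) ∣ e3 := by
    obtain ⟨t, ht⟩ := (dvd_add (h0.mul_left 6) (dvd_add (h1.mul_left 1) (h3.mul_left 4)))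
    exact ⟨t - (7 * j + 4 * e2 + 8 * e3), by linarith⟩
  exact ⟨d_j, d_e2, d_e3⟩

end P7

section P11

variable (K : Type) [Field K] [NumberField K] [hp : Fact (Nat.Prime 11)]
  [IsCyclotomicExtension {11} ℚ K]

theorem indep11 (j e2 e3 e4 e5 : ℤ)
    (hrel : psiK 11 K (zetaUnit 11 K ^ j * (cycUnit 11 K 2 ^ e2 * (cycUnit 11 K 3 ^ e3 * (cycUnit 11 K 4 ^ e4 * (cycUnit 11 K 5 ^ e5))))) = 1) :
    (11:ℤ) ∣ j ∧ (11:ℤ) ∣ e2 ∧ (11:ℤ) ∣ e3 ∧ (11:ℤ) ∣ e4 ∧ (11:ℤ) ∣ e5 := by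
  have hz1 := psiK_zetaUnit 11 K
  rw [map_add, map_one] at hz1
  have hw2 := psiK_cycUnit 11 K (a := 2) (by decide)
  have hw3 := psiK_cycUnit 11 K (a := 3) (by decide)
  have hw4 := psiK_cycUnit 11 K (a := 4) (by decide)
  have hw5 := psiK_cycUnit 11 K (a := 5) (by decide)
  have hsum : (j : Trunc 11 (11 - 2)) * Multiplicative.toAdd (psiK 11 K (zetaUnit 11 K)) + (e2 : Trunc 11 (11 - 2)) * Multiplicative.toAdd (psiK 11 K (cycUnit 11 K 2)) + (e3 : Trunc 11 (11 - 2)) * Multiplicative.toAdd (psiK 11 K (cycUnit 11 K 3)) + (e4 : Trunc 11 (11 - 2)) * Multiplicative.toAdd (psiK 11 K (cycUnit 11 K 4)) + (e5 : Trunc 11 (11 - 2)) * Multiplicative.toAdd (psiK 11 K (cycUnit 11 K 5)) = 0 := by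
    have := congrArg Multiplicative.toAdd hrel
    simpa [map_mul, map_zpow, toAdd_mul, toAdd_zpow, zsmul_eq_mul, add_assoc] using this
  have hQ : (truncMk 11 (11 - 2)) ((relPoly11 j e2 e3 e4 e5).map (Int.castRingHom (ZMod 11))) = 0 := by
    unfold relPoly11
    simp only [Polynomial.map_add, Polynomial.map_mul, Polynomial.map_intCast, map_cycPolyZ,
      Polynomial.map_one, Polynomial.map_X, ← Polynomial.derivative_map]
    simp only [map_add, map_mul, map_intCast, map_one]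
    set z := Multiplicative.toAdd (psiK 11 K (zetaUnit 11 K))
    set w2 := Multiplicative.toAdd (psiK 11 K (cycUnit 11 K 2))
    set w3 := Multiplicative.toAdd (psiK 11 K (cycUnit 11 K 3))
    set w4 := Multiplicative.toAdd (psiK 11 K (cycUnit 11 K 4))
    set w5 := Multiplicative.toAdd (psiK 11 K (cycUnit 11 K 5))
    linear_combination ((1 + (truncMk 11 (11 - 2)) X) * ((truncMk 11 (11 - 2)) (cycPoly 11 2) * (truncMk 11 (11 - 2)) (cycPoly 11 3) * (truncMk 11 (11 - 2)) (cycPoly 11 4) * (truncMk 11 (11 - 2)) (cycPoly 11 5))) * hsum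
      - ((j : Trunc 11 (11 - 2)) * ((truncMk 11 (11 - 2)) (cycPoly 11 2) * (truncMk 11 (11 - 2)) (cycPoly 11 3) * (truncMk 11 (11 - 2)) (cycPoly 11 4) * (truncMk 11 (11 - 2)) (cycPoly 11 5))) * hz1
      - ((e2 : Trunc 11 (11 - 2)) * (1 + (truncMk 11 (11 - 2)) X) * (truncMk 11 (11 - 2)) (cycPoly 11 3) * (truncMk 11 (11 - 2)) (cycPoly 11 4) * (truncMk 11 (11 - 2)) (cycPoly 11 5)) * hw2
      - ((e3 : Trunc 11 (11 - 2)) * (1 + (truncMk 11 (11 - 2)) X) * (truncMk 11 (11 - 2)) (cycPoly 11 2) * (truncMk 11 (11 - 2)) (cycPoly 11 4) * (truncMk 11 (11 - 2)) (cycPoly 11 5)) * hw3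
      - ((e4 : Trunc 11 (11 - 2)) * (1 + (truncMk 11 (11 - 2)) X) * (truncMk 11 (11 - 2)) (cycPoly 11 2) * (truncMk 11 (11 - 2)) (cycPoly 11 3) * (truncMk 11 (11 - 2)) (cycPoly 11 5)) * hw4
      - ((e5 : Trunc 11 (11 - 2)) * (1 + (truncMk 11 (11 - 2)) X) * (truncMk 11 (11 - 2)) (cycPoly 11 2) * (truncMk 11 (11 - 2)) (cycPoly 11 3) * (truncMk 11 (11 - 2)) (cycPoly 11 4)) * hw5
  have hdvd := (truncMk_eq_zero_iff 11 _ _).mp hQ
  have hc : ∀ k < 11 - 2, (Int.castRingHom (ZMod 11)) ((relPoly11 j e2 e3 e4 e5).coeff k) = 0 := by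
    intro k hk
    rw [← Polynomial.coeff_map]
    exact Polynomial.X_pow_dvd_iff.mp hdvd k hk
  have key : ∀ a : ℤ, (Int.castRingHom (ZMod 11)) a = 0 → (11:ℤ) ∣ a := by
    intro a ha
    have := (ZMod.intCast_zmod_eq_zero_iff_dvd a 11).mp (by simpa using ha)
    exact_mod_cast this
  have h0 := key _ (hc 0 (by norm_num))
  rw [relPoly11_coeff_0] at h0
  have h1 := key _ (hc 1 (by norm_num))
  rw [relPoly11_coeff_1] at h1
  have h3 := key _ (hc 3 (by norm_num))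
  rw [relPoly11_coeff_3] at h3
  have h5 := key _ (hc 5 (by norm_num))
  rw [relPoly11_coeff_5] at h5
  have h7 := key _ (hc 7 (by norm_num))
  rw [relPoly11_coeff_7] at h7
  have d_j : (11:ℤ) ∣ j := by
    obtain ⟨t, ht⟩ := (dvd_add (h1.mul_left 5) (dvd_add (h3.mul_left 10) (dvd_add (h5.mul_left 6) (h7.mul_left 2))))
    exact ⟨t - (3273 * j + 2142 * e2 + 4588 * e3 + 7294 * e4 + 10208 * e5), by linarith⟩
  have d_e2 : (11:ℤ) ∣ e2 := by
    obtain ⟨t, ht⟩ := (dvd_add (h0.mul_left 8) (dvd_add (h1.mul_left 3) (dvd_add (h3.mul_left 9) (h7.mul_left 10))))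
    exact ⟨t - (2370 * j + 1534 * e2 + 3270 * e3 + 5175 * e4 + 7224 * e5), by linarith⟩
  have d_e3 : (11:ℤ) ∣ e3 := by
    obtain ⟨t, ht⟩ := (dvd_add (h0.mul_left 1) (dvd_add (h1.mul_left 10) (dvd_add (h3.mul_left 5) (dvd_add (h5.mul_left 2) (h7.mul_left 6)))))
    exact ⟨t - (2060 * j + 1319 * e2 + 2805 * e3 + 4429 * e4 + 6164 * e5), by linarith⟩
  have d_e4 : (11:ℤ) ∣ e4 := by
    obtain ⟨t, ht⟩ := (dvd_add (h0.mul_left 7) (dvd_add (h1.mul_left 8) (dvd_add (h3.mul_left 3) (dvd_add (h5.mul_left 10) (h7.mul_left 7)))))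
    exact ⟨t - (2897 * j + 1960 * e2 + 4205 * e3 + 6665 * e4 + 9266 * e5), by linarith⟩
  have d_e5 : (11:ℤ) ∣ e5 := by
    obtain ⟨t, ht⟩ := (dvd_add (h1.mul_left 5) (dvd_add (h3.mul_left 10) (dvd_add (h5.mul_left 5) (h7.mul_left 2))))
    exact ⟨t - (3117 * j + 2030 * e2 + 4345 * e3 + 6906 * e4 + 9667 * e5), by linarith⟩
  exact ⟨d_j, d_e2, d_e3, d_e4, d_e5⟩

end P11

section P13

variable (K : Type) [Field K] [NumberField K] [hp : Fact (Nat.Prime 13)]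
  [IsCyclotomicExtension {13} ℚ K]

theorem indep13 (j e2 e3 e4 e5 e6 : ℤ)
    (hrel : psiK 13 K (zetaUnit 13 K ^ j * (cycUnit 13 K 2 ^ e2 * (cycUnit 13 K 3 ^ e3 * (cycUnit 13 K 4 ^ e4 * (cycUnit 13 K 5 ^ e5 * (cycUnit 13 K 6 ^ e6)))))) = 1) :
    (13:ℤ) ∣ j ∧ (13:ℤ) ∣ e2 ∧ (13:ℤ) ∣ e3 ∧ (13:ℤ) ∣ e4 ∧ (13:ℤ) ∣ e5 ∧ (13:ℤ) ∣ e6 := by
  have hz1 := psiK_zetaUnit 13 K
  rw [map_add, map_one] at hz1
  have hw2 := psiK_cycUnit 13 K (a := 2) (by decide)
  have hw3 := psiK_cycUnit 13 K (a := 3) (by decide)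
  have hw4 := psiK_cycUnit 13 K (a := 4) (by decide)
  have hw5 := psiK_cycUnit 13 K (a := 5) (by decide)
  have hw6 := psiK_cycUnit 13 K (a := 6) (by decide)
  have hsum : (j : Trunc 13 (13 - 2)) * Multiplicative.toAdd (psiK 13 K (zetaUnit 13 K)) + (e2 : Trunc 13 (13 - 2)) * Multiplicative.toAdd (psiK 13 K (cycUnit 13 K 2)) + (e3 : Trunc 13 (13 - 2)) * Multiplicative.toAdd (psiK 13 K (cycUnit 13 K 3)) + (e4 : Trunc 13 (13 - 2)) * Multiplicative.toAdd (psiK 13 K (cycUnit 13 K 4)) + (e5 : Trunc 13 (13 - 2)) * Multiplicative.toAdd (psiK 13 K (cycUnit 13 K 5)) + (e6 : Trunc 13 (13 - 2)) * Multiplicative.toAdd (psiK 13 K (cycUnit 13 K 6)) = 0 := by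
    have := congrArg Multiplicative.toAdd hrel
    simpa [map_mul, map_zpow, toAdd_mul, toAdd_zpow, zsmul_eq_mul, add_assoc] using this
  have hQ : (truncMk 13 (13 - 2)) ((relPoly13 j e2 e3 e4 e5 e6).map (Int.castRingHom (ZMod 13))) = 0 := by
    unfold relPoly13
    simp only [Polynomial.map_add, Polynomial.map_mul, Polynomial.map_intCast, map_cycPolyZ,
      Polynomial.map_one, Polynomial.map_X, ← Polynomial.derivative_map]
    simp only [map_add, map_mul, map_intCast, map_one]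
    set z := Multiplicative.toAdd (psiK 13 K (zetaUnit 13 K))
    set w2 := Multiplicative.toAdd (psiK 13 K (cycUnit 13 K 2))
    set w3 := Multiplicative.toAdd (psiK 13 K (cycUnit 13 K 3))
    set w4 := Multiplicative.toAdd (psiK 13 K (cycUnit 13 K 4))
    set w5 := Multiplicative.toAdd (psiK 13 K (cycUnit 13 K 5))
    set w6 := Multiplicative.toAdd (psiK 13 K (cycUnit 13 K 6))
    linear_combination ((1 + (truncMk 13 (13 - 2)) X) * ((truncMk 13 (13 - 2)) (cycPoly 13 2) * (truncMk 13 (13 - 2)) (cycPoly 13 3) * (truncMk 13 (13 - 2)) (cycPoly 13 4) * (truncMk 13 (13 - 2)) (cycPoly 13 5) * (truncMk 13 (13 - 2)) (cycPoly 13 6))) * hsum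
      - ((j : Trunc 13 (13 - 2)) * ((truncMk 13 (13 - 2)) (cycPoly 13 2) * (truncMk 13 (13 - 2)) (cycPoly 13 3) * (truncMk 13 (13 - 2)) (cycPoly 13 4) * (truncMk 13 (13 - 2)) (cycPoly 13 5) * (truncMk 13 (13 - 2)) (cycPoly 13 6))) * hz1
      - ((e2 : Trunc 13 (13 - 2)) * (1 + (truncMk 13 (13 - 2)) X) * (truncMk 13 (13 - 2)) (cycPoly 13 3) * (truncMk 13 (13 - 2)) (cycPoly 13 4) * (truncMk 13 (13 - 2)) (cycPoly 13 5) * (truncMk 13 (13 - 2)) (cycPoly 13 6)) * hw2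
      - ((e3 : Trunc 13 (13 - 2)) * (1 + (truncMk 13 (13 - 2)) X) * (truncMk 13 (13 - 2)) (cycPoly 13 2) * (truncMk 13 (13 - 2)) (cycPoly 13 4) * (truncMk 13 (13 - 2)) (cycPoly 13 5) * (truncMk 13 (13 - 2)) (cycPoly 13 6)) * hw3
      - ((e4 : Trunc 13 (13 - 2)) * (1 + (truncMk 13 (13 - 2)) X) * (truncMk 13 (13 - 2)) (cycPoly 13 2) * (truncMk 13 (13 - 2)) (cycPoly 13 3) * (truncMk 13 (13 - 2)) (cycPoly 13 5) * (truncMk 13 (13 - 2)) (cycPoly 13 6)) * hw4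
      - ((e5 : Trunc 13 (13 - 2)) * (1 + (truncMk 13 (13 - 2)) X) * (truncMk 13 (13 - 2)) (cycPoly 13 2) * (truncMk 13 (13 - 2)) (cycPoly 13 3) * (truncMk 13 (13 - 2)) (cycPoly 13 4) * (truncMk 13 (13 - 2)) (cycPoly 13 6)) * hw5
      - ((e6 : Trunc 13 (13 - 2)) * (1 + (truncMk 13 (13 - 2)) X) * (truncMk 13 (13 - 2)) (cycPoly 13 2) * (truncMk 13 (13 - 2)) (cycPoly 13 3) * (truncMk 13 (13 - 2)) (cycPoly 13 4) * (truncMk 13 (13 - 2)) (cycPoly 13 5)) * hw6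
  have hdvd := (truncMk_eq_zero_iff 13 _ _).mp hQ
  have hc : ∀ k < 13 - 2, (Int.castRingHom (ZMod 13)) ((relPoly13 j e2 e3 e4 e5 e6).coeff k) = 0 := by
    intro k hk
    rw [← Polynomial.coeff_map]
    exact Polynomial.X_pow_dvd_iff.mp hdvd k hk
  have key : ∀ a : ℤ, (Int.castRingHom (ZMod 13)) a = 0 → (13:ℤ) ∣ a := by
    intro a ha
    have := (ZMod.intCast_zmod_eq_zero_iff_dvd a 13).mp (by simpa using ha)
    exact_mod_cast this
  have h0 := key _ (hc 0 (by norm_num))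
  rw [relPoly13_coeff_0] at h0
  have h1 := key _ (hc 1 (by norm_num))
  rw [relPoly13_coeff_1] at h1
  have h3 := key _ (hc 3 (by norm_num))
  rw [relPoly13_coeff_3] at h3
  have h5 := key _ (hc 5 (by norm_num))
  rw [relPoly13_coeff_5] at h5
  have h7 := key _ (hc 7 (by norm_num))
  rw [relPoly13_coeff_7] at h7
  have h9 := key _ (hc 9 (by norm_num))
  rw [relPoly13_coeff_9] at h9
  have d_j : (13:ℤ) ∣ j := by
    obtain ⟨t, ht⟩ := (dvd_add (h0.mul_left 10) (dvd_add (h1.mul_left 6) (dvd_add (h3.mul_left 10) (dvd_add (h5.mul_left 11) (dvd_add (h7.mul_left 8) (h9.mul_left 6))))))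
    exact ⟨t - (214518 * j + 140868 * e2 + 301519 * e3 + 478594 * e4 + 668358 * e5 + 867286 * e6), by linarith⟩
  have d_e2 : (13:ℤ) ∣ e2 := by
    obtain ⟨t, ht⟩ := (dvd_add (h0.mul_left 12) (dvd_add (h1.mul_left 1) (dvd_add (h3.mul_left 5) (dvd_add (h5.mul_left 9) (dvd_add (h7.mul_left 3) (h9.mul_left 9))))))
    exact ⟨t - (146037 * j + 96845 * e2 + 207461 * e3 + 329262 * e4 + 459552 * e5 + 595946 * e6), by linarith⟩
  have d_e3 : (13:ℤ) ∣ e3 := by
    obtain ⟨t, ht⟩ := (dvd_add (h0.mul_left 12) (dvd_add (h1.mul_left 10) (dvd_add (h3.mul_left 5) (dvd_add (h5.mul_left 5) (dvd_add (h7.mul_left 7) (h9.mul_left 4))))))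
    exact ⟨t - (131789 * j + 87406 * e2 + 187285 * e3 + 297262 * e4 + 414737 * e5 + 537344 * e6), by linarith⟩
  have d_e4 : (13:ℤ) ∣ e4 := by
    obtain ⟨t, ht⟩ := (dvd_add (h0.mul_left 10) (dvd_add (h1.mul_left 5) (dvd_add (h3.mul_left 6) (dvd_add (h5.mul_left 12) (dvd_add (h7.mul_left 7) (h9.mul_left 10))))))
    exact ⟨t - (210982 * j + 140248 * e2 + 300647 * e3 + 477427 * e4 + 666547 * e5 + 864344 * e6), by linarith⟩
  have d_e5 : (13:ℤ) ∣ e5 := by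
    obtain ⟨t, ht⟩ := (dvd_add (h0.mul_left 11) (dvd_add (h1.mul_left 3) (dvd_add (h3.mul_left 2) (dvd_add (h5.mul_left 5) (h9.mul_left 1)))))
    exact ⟨t - (55985 * j + 35704 * e2 + 76138 * e3 + 120750 * e4 + 168870 * e5 + 219760 * e6), by linarith⟩
  have d_e6 : (13:ℤ) ∣ e6 := by
    obtain ⟨t, ht⟩ := (dvd_add (h0.mul_left 11) (dvd_add (h1.mul_left 1) (dvd_add (h3.mul_left 6) (dvd_add (h5.mul_left 4) (dvd_add (h7.mul_left 10) (h9.mul_left 3))))))
    exact ⟨t - (143216 * j + 95928 * e2 + 205923 * e3 + 327224 * e4 + 456771 * e5 + 591773 * e6), by linarith⟩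
  exact ⟨d_j, d_e2, d_e3, d_e4, d_e5, d_e6⟩

end P13

variable (p : ℕ) [hp : Fact p.Prime] (K : Type) [Field K] [NumberField K]
  [IsCyclotomicExtension {p} ℚ K]

/-- Independence modulo `p` of the logarithmic derivatives of `ζ` and the cyclotomic units. -/
theorem psiK_indep (h : p = 5 ∨ p = 7 ∨ p = 11 ∨ p = 13) (j : ℤ) (e : ℕ → ℤ)
    (hrel : psiK p K (zetaUnit p K ^ j *
      ∏ a ∈ Finset.Icc 2 ((p - 1) / 2), cycUnit p K a ^ e a) = 1) :
    (p : ℤ) ∣ j ∧ ∀ a ∈ Finset.Icc 2 ((p - 1) / 2), (p : ℤ) ∣ e a := by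
  rcases h with rfl | rfl | rfl | rfl
  · have hI : Finset.Icc 2 ((5 - 1) / 2) = ({2} : Finset ℕ) := by decide
    rw [hI] at hrel ⊢
    rw [Finset.prod_singleton] at hrel
    obtain ⟨hj, h2⟩ := indep5 K j (e 2) hrel
    refine ⟨hj, fun a ha => ?_⟩
    simp only [Finset.mem_insert, Finset.mem_singleton] at ha
    rcases ha with rfl
    · exact h2
  · have hI : Finset.Icc 2 ((7 - 1) / 2) = ({2, 3} : Finset ℕ) := by decide
    rw [hI] at hrel ⊢
    rw [Finset.prod_insert (by decide), Finset.prod_singleton] at hrel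
    obtain ⟨hj, h2, h3⟩ := indep7 K j (e 2) (e 3) hrel
    refine ⟨hj, fun a ha => ?_⟩
    simp only [Finset.mem_insert, Finset.mem_singleton] at ha
    rcases ha with rfl | rfl
    · exact h2
    · exact h3
  · have hI : Finset.Icc 2 ((11 - 1) / 2) = ({2, 3, 4, 5} : Finset ℕ) := by decide
    rw [hI] at hrel ⊢
    rw [Finset.prod_insert (by decide), Finset.prod_insert (by decide), Finset.prod_insert (by decide), Finset.prod_singleton] at hrel
    obtain ⟨hj, h2, h3, h4, h5⟩ := indep11 K j (e 2) (e 3) (e 4) (e 5) hrel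
    refine ⟨hj, fun a ha => ?_⟩
    simp only [Finset.mem_insert, Finset.mem_singleton] at ha
    rcases ha with rfl | rfl | rfl | rfl
    · exact h2
    · exact h3
    · exact h4
    · exact h5
  · have hI : Finset.Icc 2 ((13 - 1) / 2) = ({2, 3, 4, 5, 6} : Finset ℕ) := by decide
    rw [hI] at hrel ⊢
    rw [Finset.prod_insert (by decide), Finset.prod_insert (by decide), Finset.prod_insert (by decide), Finset.prod_insert (by decide), Finset.prod_singleton] at hrel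
    obtain ⟨hj, h2, h3, h4, h5, h6⟩ := indep13 K j (e 2) (e 3) (e 4) (e 5) (e 6) hrel
    refine ⟨hj, fun a ha => ?_⟩
    simp only [Finset.mem_insert, Finset.mem_singleton] at ha
    rcases ha with rfl | rfl | rfl | rfl | rfl
    · exact h2
    · exact h3
    · exact h4
    · exact h5
    · exact h6

end

end Fermat.Agent.FLTK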