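import Fermat.Agent.FLTK.UnitSpan

set_option autoImplicit false
set_option linter.unusedSectionVars false

/-!
# Plan K: Kummer's lemma from a detecting family of units

If `η : Fin (rank K) → (𝓞 K)ˣ` is such that `ζ ^ e₀ * ∏ η k ^ e k ≡ integer (mod p)` forces
`p ∣ e₀` and `p ∣ e k` for all `k`, then every unit congruent to an integer modulo `p` is a
`p`-th power (Kummer's lemma).
-/

namespace Fermat.Agent.FLTK

open NumberField IsCyclotomicExtension NumberField.Units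

noncomputable section

variable (p : ℕ) [hp : Fact p.Prime] (K : Type) [Field K] [NumberField K]
  [IsCyclotomicExtension {p} ℚ K]

/-- The unit rank of the `p`-th cyclotomic field. -/
theorem rank_eq (hp2 : p ≠ 2) : rank K = (p - 3) / 2 := by
  have h2 : 2 < p := lt_of_le_of_ne hp.out.two_le (Ne.symm hp2)
  rw [rank, InfinitePlace.card_eq_nrRealPlaces_add_nrComplexPlaces,
    IsCyclotomicExtension.Rat.nrRealPlaces_eq_zero K h2,
    IsCyclotomicExtension.Rat.nrComplexPlaces_eq_totient_div_two p K, Nat.totient_prime hp.out]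
  omega

/-- Being congruent to a rational integer modulo `p`. -/
def IntModP (a : 𝓞 K) : Prop := ∃ n : ℤ, (p : 𝓞 K) ∣ a - (n : 𝓞 K)

theorem intModP_int (n : ℤ) : IntModP p K (n : 𝓞 K) := ⟨n, by simp⟩

theorem intModP_one : IntModP p K (1 : 𝓞 K) := ⟨1, by simp⟩

theorem IntModP.add {a b : 𝓞 K} (ha : IntModP p K a) (hb : IntModP p K b) :
    IntModP p K (a + b) := by
  obtain ⟨n, x, hx⟩ := ha
  obtain ⟨m, y, hy⟩ := hb
  refine ⟨n + m, x + y, ?_⟩
  push_cast
  linear_combination hx + hy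

theorem IntModP.mul {a b : 𝓞 K} (ha : IntModP p K a) (hb : IntModP p K b) :
    IntModP p K (a * b) := by
  obtain ⟨n, x, hx⟩ := ha
  obtain ⟨m, y, hy⟩ := hb
  refine ⟨n * m, x * b + (n : 𝓞 K) * y, ?_⟩
  push_cast
  linear_combination b * hx + (n : 𝓞 K) * hy

theorem IntModP.of_dvd_sub {a b : 𝓞 K} (ha : IntModP p K a) (h : (p : 𝓞 K) ∣ b - a) :
    IntModP p K b := by
  obtain ⟨n, x, hx⟩ := ha
  obtain ⟨y, hy⟩ := h
  exact ⟨n, x + y, by linear_combination hx + hy⟩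

/-- A `p`-th power in `𝓞 K` is congruent to a rational integer modulo `p`. -/
theorem intModP_pow (a : 𝓞 K) : IntModP p K (a ^ p) := by
  have htop : Algebra.adjoin ℤ {zetaInt p K} = ⊤ := by
    have h := (zetaK_spec p K).integralPowerBasis.adjoin_gen_eq_top
    rwa [(zetaK_spec p K).integralPowerBasis_gen] at h
  have ha : a ∈ Algebra.adjoin ℤ {zetaInt p K} := by rw [htop]; trivial
  induction ha using Algebra.adjoin_induction with
  | mem x hx =>
    rw [Set.mem_singleton_iff] at hx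
    rw [hx]
    have : zetaInt p K ^ p = 1 := (zetaK_spec p K).toInteger_isPrimitiveRoot.pow_eq_one
    rw [this]
    exact intModP_one p K
  | algebraMap r =>
    refine ⟨r ^ p, 0, ?_⟩
    simp
  | add x y _ _ hx hy =>
    obtain ⟨r, hr⟩ := exists_add_pow_prime_eq hp.out x y
    refine (hx.add p K hy).of_dvd_sub p K ⟨x * y * r, ?_⟩
    rw [hr]
    ring
  | mul x y _ _ hx hy =>
    rw [mul_pow]
    exact hx.mul p K hy

/-- **Kummer's lemma from a detecting family.** -/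
theorem kummer_of_detect (hp2 : p ≠ 2) (η : Fin (rank K) → (𝓞 K)ˣ)
    (hdet : ∀ (e₀ : ℤ) (e : Fin (rank K) → ℤ),
      IntModP p K ((zetaU p K ^ e₀ * ∏ k, η k ^ e k : (𝓞 K)ˣ) : 𝓞 K) →
        (p : ℤ) ∣ e₀ ∧ ∀ k, (p : ℤ) ∣ e k)
    (u : (𝓞 K)ˣ) (hu : ∃ n : ℤ, (p : 𝓞 K) ∣ (u : 𝓞 K) - (n : 𝓞 K)) :
    ∃ v : (𝓞 K)ˣ, u = v ^ p := by
  have hind : ∀ (e₀ : ℤ) (e : Fin (rank K) → ℤ) (v : (𝓞 K)ˣ),
      zetaU p K ^ e₀ * ∏ k, η k ^ e k = v ^ p → ∀ k, (p : ℤ) ∣ e k := by
    intro e₀ e v hv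
    refine (hdet e₀ e ?_).2
    rw [hv, Units.val_pow_eq_pow_val]
    exact intModP_pow p K _
  obtain ⟨e₀, e, v, hv⟩ := unit_span p K hp2 η hind u
  have h1 : zetaU p K ^ e₀ * ∏ k, η k ^ e k = u * (v⁻¹) ^ p := by
    rw [hv, inv_pow, mul_inv_cancel_right]
  obtain ⟨⟨a, ha⟩, hk⟩ := hdet e₀ e (by
    rw [h1, Units.val_mul, Units.val_pow_eq_pow_val]
    exact IntModP.mul p K hu (intModP_pow p K _))
  choose f hf using hk
  refine ⟨zetaU p K ^ a * (∏ k, η k ^ f k) * v, ?_⟩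
  rw [mul_pow, mul_pow, ← zpow_natCast, ← zpow_mul, ← Finset.prod_pow, hv]
  congr 2
  · rw [ha, mul_comm]
  · refine Finset.prod_congr rfl fun k _ => ?_
    rw [← zpow_natCast, ← zpow_mul, hf k, mul_comm]

end

end Fermat.Agent.FLTK
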