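import Fermat.Agent.FLTK.LogDer
import Fermat.Agent.FLTK.KummerOfDetect

set_option autoImplicit false
set_option linter.unusedSectionVars false

/-!
# Plan K, chunk (C): Kummer's lemma from a "logarithmic derivative" homomorphism

Let `K` be the `p`-th cyclotomic field, `p` odd.  Suppose `ψ` is a homomorphism from the units of
`𝓞 K` to some commutative group which
* kills every unit congruent to a rational integer modulo `p` (`h1`), and
* detects `ζ` and the units `η a`, `2 ≤ a ≤ (p - 1) / 2`: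
  `ψ (ζ ^ j * ∏ a, η a ^ e a) = 1` forces `p ∣ j` and `p ∣ e a` for all `a` (`h2`).
Then every unit congruent to a rational integer modulo `p` is a `p`-th power
(`kummer_of_indep`).  This is `kummer_of_detect` (Dirichlet's unit theorem) after reindexing the
family `η` by `Fin (rank K)`, `rank K = (p - 3) / 2`.
-/

namespace Fermat.Agent.FLTK

open NumberField NumberField.Units

section

variable (p : ℕ) [hp : Fact p.Prime] (K : Type) [Field K] [NumberField K]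
  [IsCyclotomicExtension {p} ℚ K]

theorem zetaU_eq_zetaUnit : zetaU p K = zetaUnit p K := rfl

/-- Reindexing a product over `Fin r` as a product over `Finset.Icc 2 (r + 1)`. -/
theorem kum_prod_reindex {M : Type*} [CommGroup M] (r : ℕ) (η : ℕ → M) (e : Fin r → ℤ) :
    ∏ k : Fin r, η (k.val + 2) ^ e k =
      ∏ a ∈ Finset.Icc 2 (r + 1),
        η a ^ (if h : a - 2 < r then e ⟨a - 2, h⟩ else 0 : ℤ) := by
  have hIcc : Finset.Icc 2 (r + 1) = Finset.Ico 2 (r + 2) := by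
    ext a
    simp only [Finset.mem_Icc, Finset.mem_Ico]
    omega
  rw [hIcc, Finset.prod_Ico_eq_prod_range, show r + 2 - 2 = r by omega, Finset.prod_range]
  refine Finset.prod_congr rfl fun k _ => ?_
  have hk : 2 + k.val - 2 < r := by have := k.isLt; omega
  rw [dif_pos hk, add_comm]
  congr 2
  apply Fin.ext
  show k.val = 2 + k.val - 2
  omega

/-- **Kummer's lemma** from a detecting homomorphism `ψ`. -/
theorem kummer_of_indep (hp2 : p ≠ 2) {V : Type} [AddCommGroup V]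
    (ψ : (𝓞 K)ˣ →* Multiplicative V) (η : ℕ → (𝓞 K)ˣ)
    (h1 : ∀ u : (𝓞 K)ˣ, (∃ n : ℤ, (p : 𝓞 K) ∣ (u : 𝓞 K) - (n : 𝓞 K)) → ψ u = 1)
    (h2 : ∀ (j : ℤ) (e : ℕ → ℤ),
      ψ (zetaUnit p K ^ j * ∏ a ∈ Finset.Icc 2 ((p - 1) / 2), η a ^ e a) = 1 →
        (p : ℤ) ∣ j ∧ ∀ a ∈ Finset.Icc 2 ((p - 1) / 2), (p : ℤ) ∣ e a)
    (u : (𝓞 K)ˣ) (hu : ∃ n : ℤ, (p : 𝓞 K) ∣ (u : 𝓞 K) - (n : 𝓞 K)) :
    ∃ v : (𝓞 K)ˣ, u = v ^ p := by
  have hodd : Odd p := hp.out.odd_of_ne_two hp2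
  have h3 : 3 ≤ p := by
    have := hp.out.two_le
    omega
  have hr : rank K = (p - 3) / 2 := rank_eq p K hp2
  have hN : (p - 1) / 2 = rank K + 1 := by
    obtain ⟨t, ht⟩ := hodd
    omega
  refine kummer_of_detect p K hp2 (fun k => η (k.val + 2)) ?_ u hu
  intro e₀ e hint
  have hψ := h1 _ hint
  rw [zetaU_eq_zetaUnit, kum_prod_reindex (rank K) η e, ← hN] at hψ
  obtain ⟨hj, he⟩ := h2 e₀ _ hψ
  refine ⟨hj, fun k => ?_⟩
  have hk := k.isLt
  have hmem : k.val + 2 ∈ Finset.Icc 2 ((p - 1) / 2) := by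
    rw [Finset.mem_Icc]
    omega
  have := he _ hmem
  have hk' : k.val + 2 - 2 < rank K := by omega
  rw [dif_pos hk'] at this
  have hfin : (⟨k.val + 2 - 2, hk'⟩ : Fin (rank K)) = k := Fin.ext (by simp)
  rwa [hfin] at this

/-- Kummer's lemma from the independence of `ψ (ζ)`, `ψ (cycUnit a)` for the log-derivative
homomorphism `psiK` of `FLTK/LogDer.lean`. -/
theorem kummer_of_psiK_indep (hp2 : p ≠ 2)
    (hind : ∀ (j : ℤ) (e : ℕ → ℤ),
      psiK p K (zetaUnit p K ^ j *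
        ∏ a ∈ Finset.Icc 2 ((p - 1) / 2), cycUnit p K a ^ e a) = 1 →
        (p : ℤ) ∣ j ∧ ∀ a ∈ Finset.Icc 2 ((p - 1) / 2), (p : ℤ) ∣ e a)
    (u : (𝓞 K)ˣ) (hu : ∃ n : ℤ, (p : 𝓞 K) ∣ (u : 𝓞 K) - (n : 𝓞 K)) :
    ∃ v : (𝓞 K)ˣ, u = v ^ p :=
  kummer_of_indep p K hp2 (psiK p K) (cycUnit p K) (psiK_of_congr p K) hind u hu

end

end Fermat.Agent.FLTK
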