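import Fermat.Agent.FLTK.Defs

set_option autoImplicit false

/-!
# Plan K, chunk B: the logarithmic derivative on `(𝓞 K)ˣ` modulo `p`
-/

namespace Fermat.Agent.FLTK

open Polynomial NumberField

noncomputable section

section DualNumberLog

variable {R : Type} [CommRing R]

/-- Logarithmic derivative on the units of the dual numbers: `a + b ε ↦ b / a`. -/
def dualLog (u : (DualNumber R)ˣ) : R :=
  TrivSqZeroExt.snd (u : DualNumber R) *
    ((Units.map (TrivSqZeroExt.fstHom R R R).toMonoidHom u)⁻¹ : Rˣ)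

theorem dualLog_mul (u v : (DualNumber R)ˣ) : dualLog (u * v) = dualLog u + dualLog v := by
  unfold dualLog
  rw [map_mul, mul_inv]
  set a : Rˣ := Units.map (TrivSqZeroExt.fstHom R R R).toMonoidHom u with ha
  set c : Rˣ := Units.map (TrivSqZeroExt.fstHom R R R).toMonoidHom v with hc
  have hav : (a : R) = TrivSqZeroExt.fst (u : DualNumber R) := rfl
  have hcv : (c : R) = TrivSqZeroExt.fst (v : DualNumber R) := rfl
  rw [Units.val_mul, TrivSqZeroExt.snd_mul, ← hav, ← hcv]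
  simp only [smul_eq_mul, MulOpposite.smul_eq_mul_unop, MulOpposite.unop_op, Units.val_mul]
  have h1 : (a : R) * (a⁻¹ : Rˣ) = 1 := by simp
  have h2 : (c : R) * (c⁻¹ : Rˣ) = 1 := by simp
  linear_combination (TrivSqZeroExt.snd (v : DualNumber R) * (c⁻¹ : Rˣ)) * h1 +
    (TrivSqZeroExt.snd (u : DualNumber R) * (a⁻¹ : Rˣ)) * h2

theorem dualLog_one : dualLog (1 : (DualNumber R)ˣ) = 0 := by
  simp [dualLog]

/-- `dualLog` as a monoid hom. -/
def dualLogHom : (DualNumber R)ˣ →* Multiplicative R where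
  toFun u := Multiplicative.ofAdd (dualLog u)
  map_one' := by rw [dualLog_one]; rfl
  map_mul' u v := by rw [dualLog_mul]; rfl

end DualNumberLog

section Trunc

variable (p : ℕ) [hp : Fact p.Prime]

/-- The truncated polynomial ring `𝔽_p[X] / (X^n)`. -/
abbrev Trunc (n : ℕ) : Type := (ZMod p)[X] ⧸ Ideal.span {(X : (ZMod p)[X]) ^ n}

/-- The quotient map. -/
abbrev truncMk (n : ℕ) : (ZMod p)[X] →+* Trunc p n := Ideal.Quotient.mk _

theorem truncMk_X_pow (n : ℕ) : truncMk p n (X ^ n) = 0 :=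
  Ideal.Quotient.eq_zero_iff_mem.mpr (Ideal.subset_span rfl)

theorem truncMk_eq_zero_iff (n : ℕ) (f : (ZMod p)[X]) : truncMk p n f = 0 ↔ X ^ n ∣ f := by
  rw [Ideal.Quotient.eq_zero_iff_mem, Ideal.mem_span_singleton]

/-- `f ↦ f(x) + f'(x) ε` as a ring hom `𝔽_p[X] → (𝔽_p[X]/(X^n))[ε]`. -/
def thetaPoly (n : ℕ) : (ZMod p)[X] →+* DualNumber (Trunc p n) :=
  (Polynomial.aeval ((TrivSqZeroExt.inl (truncMk p n X) + TrivSqZeroExt.inr 1 :
    DualNumber (Trunc p n)))).toRingHom

theorem thetaPoly_apply (n : ℕ) (f : (ZMod p)[X]) :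
    thetaPoly p n f = TrivSqZeroExt.inl (truncMk p n f) +
      TrivSqZeroExt.inr (truncMk p n (derivative f)) := by
  unfold thetaPoly
  have hsq : (TrivSqZeroExt.inr 1 : DualNumber (Trunc p n)) ^ 2 = 0 := by
    rw [pow_two, TrivSqZeroExt.inr_mul_inr]
  show Polynomial.aeval _ f = _
  have h1 := Polynomial.aeval_add_of_sq_eq_zero f (TrivSqZeroExt.inl (truncMk p n X))
    (TrivSqZeroExt.inr 1 : DualNumber (Trunc p n)) hsq
  rw [h1]
  have h2 : ∀ g : (ZMod p)[X], Polynomial.aeval (TrivSqZeroExt.inl (truncMk p n X) :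
      DualNumber (Trunc p n)) g = TrivSqZeroExt.inl (truncMk p n g) := by
    intro g
    induction g using Polynomial.induction_on' with
    | add f g hf hg => rw [map_add, map_add, hf, hg, TrivSqZeroExt.inl_add]
    | monomial k a =>
      rw [Polynomial.aeval_monomial, ← Polynomial.C_mul_X_pow_eq_monomial, map_mul, map_pow,
        TrivSqZeroExt.inl_mul, TrivSqZeroExt.inl_pow]
      rfl
  rw [h2, h2, TrivSqZeroExt.inl_mul_inr, smul_eq_mul, mul_one]

theorem thetaPoly_X_pow (n : ℕ) : thetaPoly p n (X ^ (n + 1)) = 0 := by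
  rw [thetaPoly_apply, derivative_X_pow, map_pow, pow_succ, map_mul]
  have h0 : (truncMk p n X) ^ n = 0 := by rw [← map_pow]; exact truncMk_X_pow p n
  rw [h0, zero_mul]
  have h1 : truncMk p n (X ^ (n + 1 - 1)) = 0 := by
    rw [Nat.add_sub_cancel]; exact truncMk_X_pow p n
  rw [h1, mul_zero, TrivSqZeroExt.inl_zero, TrivSqZeroExt.inr_zero, add_zero]

/-- `thetaPoly` descends to `𝔽_p[X]/(X^(n+1))`. -/
def thetaBar (n : ℕ) : Trunc p (n + 1) →+* DualNumber (Trunc p n) :=
  Ideal.Quotient.lift _ (thetaPoly p n) (by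
    intro a ha
    rw [Ideal.mem_span_singleton] at ha
    obtain ⟨b, rfl⟩ := ha
    rw [map_mul, thetaPoly_X_pow, zero_mul])

theorem thetaBar_mk (n : ℕ) (f : (ZMod p)[X]) :
    thetaBar p n (truncMk p (n + 1) f) = TrivSqZeroExt.inl (truncMk p n f) +
      TrivSqZeroExt.inr (truncMk p n (derivative f)) := by
  unfold thetaBar
  rw [Ideal.Quotient.lift_mk, thetaPoly_apply]

/-- The logarithmic derivative `(𝔽_p[X]/(X^(n+1)))ˣ → 𝔽_p[X]/(X^n)`. -/
def truncLog (n : ℕ) : (Trunc p (n + 1))ˣ →* Multiplicative (Trunc p n) :=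
  dualLogHom.comp (Units.map (thetaBar p n).toMonoidHom)

theorem truncLog_spec (n : ℕ) (u : (Trunc p (n + 1))ˣ) (f : (ZMod p)[X])
    (hf : truncMk p (n + 1) f = u) :
    Multiplicative.toAdd (truncLog p n u) * truncMk p n f = truncMk p n (derivative f) := by
  unfold truncLog dualLogHom
  simp only [MonoidHom.coe_comp, MonoidHom.coe_mk, OneHom.coe_mk, Function.comp_apply,
    toAdd_ofAdd]
  unfold dualLog
  set w : (DualNumber (Trunc p n))ˣ := Units.map (thetaBar p n).toMonoidHom u with hw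
  have hwv : (w : DualNumber (Trunc p n)) = TrivSqZeroExt.inl (truncMk p n f) +
      TrivSqZeroExt.inr (truncMk p n (derivative f)) := by
    rw [hw, Units.coe_map, ← hf]
    exact thetaBar_mk p n f
  set a : (Trunc p n)ˣ := Units.map (TrivSqZeroExt.fstHom (Trunc p n) (Trunc p n)
    (Trunc p n)).toMonoidHom w with ha
  have hav : (a : Trunc p n) = truncMk p n f := by
    rw [ha, Units.coe_map]
    show TrivSqZeroExt.fst (w : DualNumber (Trunc p n)) = _
    rw [hwv]
    simp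
  have hsnd : TrivSqZeroExt.snd (w : DualNumber (Trunc p n)) = truncMk p n (derivative f) := by
    rw [hwv]
    simp
  rw [hsnd, ← hav, mul_assoc, Units.inv_mul, mul_one]

theorem geom_sum_one_add_X : (∑ i ∈ Finset.range p, ((1 : (ZMod p)[X]) + X) ^ i) = X ^ (p - 1) := by
  have h1 : (∑ i ∈ Finset.range p, ((1 : (ZMod p)[X]) + X) ^ i) * X = X ^ (p - 1) * X := by
    have h2 := geom_sum_mul ((1 : (ZMod p)[X]) + X) p
    rw [add_sub_cancel_left] at h2
    rw [h2, add_pow_char, one_pow, add_sub_cancel_left, ← pow_succ,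
      Nat.sub_add_cancel hp.out.one_le]
  exact mul_right_cancel₀ X_ne_zero h1

end Trunc

section Phi

variable (p : ℕ) [hp : Fact p.Prime] (K : Type) [Field K] [NumberField K]
  [IsCyclotomicExtension {p} ℚ K]

theorem minpoly_zetaInt : minpoly ℤ (zetaInt p K) = cyclotomic p ℤ := by
  rw [← RingOfIntegers.minpoly_coe]
  exact (cyclotomic_eq_minpoly (zetaK_spec p K) hp.out.pos).symm

theorem two_le_p : 2 ≤ p := hp.out.two_le

/-- The reduction map `𝓞 K → 𝔽_p[X]/(X^(p-1))`, `ζ ↦ 1 + X` (we write `p - 1 = (p - 2) + 1`). -/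
def phiK : 𝓞 K →+* Trunc p (p - 2 + 1) :=
  ((zetaK_spec p K).integralPowerBasis.lift (truncMk p (p - 2 + 1) (1 + X)) (by
    rw [IsPrimitiveRoot.integralPowerBasis_gen]
    show aeval _ (minpoly ℤ (zetaInt p K)) = 0
    rw [minpoly_zetaInt, cyclotomic_prime, map_sum]
    simp only [map_pow, aeval_X]
    simp only [← map_pow, ← map_sum]
    rw [geom_sum_one_add_X]
    have h2 := two_le_p p
    rw [show p - 1 = p - 2 + 1 by omega]
    exact truncMk_X_pow p (p - 2 + 1))).toRingHom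

theorem phiK_zetaInt : phiK p K (zetaInt p K) = truncMk p (p - 2 + 1) (1 + X) := by
  unfold phiK zetaInt
  have h := (zetaK_spec p K).integralPowerBasis_gen
  show ((zetaK_spec p K).integralPowerBasis.lift _ _) _ = _
  rw [← h]
  exact PowerBasis.lift_gen _ _ _

theorem phiK_natCast_p : phiK p K (p : 𝓞 K) = 0 := by
  rw [map_natCast]
  have : ((p : ℕ) : (ZMod p)[X]) = 0 := by
    rw [← map_natCast (C : ZMod p →+* (ZMod p)[X]), ZMod.natCast_self, map_zero]
  rw [← map_natCast (truncMk p (p - 2 + 1)), this, map_zero]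

theorem phiK_of_dvd {x : 𝓞 K} (h : (p : 𝓞 K) ∣ x) : phiK p K x = 0 := by
  obtain ⟨y, rfl⟩ := h
  rw [map_mul, phiK_natCast_p, zero_mul]

theorem phiK_of_congr {x : 𝓞 K} {n : ℤ} (h : (p : 𝓞 K) ∣ x - (n : 𝓞 K)) :
    phiK p K x = truncMk p (p - 2 + 1) (C (n : ZMod p)) := by
  have h1 := phiK_of_dvd p K h
  rw [map_sub, sub_eq_zero, map_intCast] at h1
  rw [h1, ← map_intCast (truncMk p (p - 2 + 1)), ← map_intCast (C : ZMod p →+* (ZMod p)[X])]

/-- The logarithmic derivative modulo `p` on the units of `𝓞 K`. -/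
def psiK : (𝓞 K)ˣ →* Multiplicative (Trunc p (p - 2)) :=
  (truncLog p (p - 2)).comp (Units.map (phiK p K).toMonoidHom)

theorem psiK_spec (u : (𝓞 K)ˣ) (f : (ZMod p)[X])
    (hf : truncMk p (p - 2 + 1) f = phiK p K (u : 𝓞 K)) :
    Multiplicative.toAdd (psiK p K u) * truncMk p (p - 2) f =
      truncMk p (p - 2) (derivative f) :=
  truncLog_spec p (p - 2) (Units.map (phiK p K).toMonoidHom u) f hf

/-- Units congruent to an integer modulo `p` have trivial logarithmic derivative. -/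
theorem psiK_of_congr (u : (𝓞 K)ˣ) (hu : ∃ n : ℤ, (p : 𝓞 K) ∣ (u : 𝓞 K) - (n : 𝓞 K)) :
    psiK p K u = 1 := by
  obtain ⟨n, hn⟩ := hu
  have h1 := psiK_spec p K u (C (n : ZMod p)) (phiK_of_congr p K hn).symm
  rw [derivative_C, map_zero] at h1
  -- `truncMk (C n)` is a unit since it is the image of `u`
  have hunit : IsUnit (truncMk p (p - 2) (C (n : ZMod p))) := by
    have h2 : IsUnit (phiK p K (u : 𝓞 K)) := u.isUnit.map (phiK p K)
    rw [phiK_of_congr p K hn] at h2
    have hle : Ideal.span {(X : (ZMod p)[X]) ^ (p - 2 + 1)} ≤ Ideal.span {(X : (ZMod p)[X]) ^ (p - 2)} := by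
      rw [Ideal.span_singleton_le_span_singleton]
      exact pow_dvd_pow X (Nat.le_succ _)
    have h3 := h2.map (Ideal.Quotient.factor hle)
    rwa [Ideal.Quotient.factor_mk] at h3
  have h4 := hunit.mul_left_eq_zero.mp h1
  exact h4

/-- `ζ` as a unit of `𝓞 K`. -/
def zetaUnit : (𝓞 K)ˣ :=
  ((zetaK_spec p K).toInteger_isPrimitiveRoot.isUnit hp.out.ne_zero).unit

theorem zetaUnit_val : ((zetaUnit p K : (𝓞 K)ˣ) : 𝓞 K) = zetaInt p K := rfl

theorem zetaInt_isPrimitiveRoot : IsPrimitiveRoot (zetaInt p K) p :=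
  (zetaK_spec p K).toInteger_isPrimitiveRoot

/-- The polynomial `∑_{i<a} (1+X)^i` over `ℤ`. -/
def cycPolyZ (a : ℕ) : ℤ[X] := ∑ i ∈ Finset.range a, (1 + X) ^ i

/-- The polynomial `∑_{i<a} (1+X)^i` over `𝔽_p`. -/
def cycPoly (a : ℕ) : (ZMod p)[X] := ∑ i ∈ Finset.range a, (1 + X) ^ i

theorem map_cycPolyZ (a : ℕ) : (cycPolyZ a).map (Int.castRingHom (ZMod p)) = cycPoly p a := by
  simp [cycPolyZ, cycPoly, Polynomial.map_sum]

/-- The cyclotomic unit `1 + ζ + ... + ζ^(a-1)` (and `1` if `a` is not prime to `p`). -/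
def cycUnit (a : ℕ) : (𝓞 K)ˣ :=
  if h : a.Coprime p then
    ((zetaInt_isPrimitiveRoot p K).geom_sum_isUnit (two_le_p p) h).unit
  else 1

theorem cycUnit_val {a : ℕ} (h : a.Coprime p) :
    ((cycUnit p K a : (𝓞 K)ˣ) : 𝓞 K) = ∑ i ∈ Finset.range a, zetaInt p K ^ i := by
  unfold cycUnit
  rw [dif_pos h]
  rfl

theorem phiK_cycUnit {a : ℕ} (h : a.Coprime p) :
    phiK p K (cycUnit p K a : (𝓞 K)ˣ) = truncMk p (p - 2 + 1) (cycPoly p a) := by
  rw [cycUnit_val p K h, map_sum, cycPoly, map_sum]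
  refine Finset.sum_congr rfl fun i _ => ?_
  rw [map_pow, phiK_zetaInt, map_pow]

theorem psiK_zetaUnit :
    Multiplicative.toAdd (psiK p K (zetaUnit p K)) * truncMk p (p - 2) (1 + X) = 1 := by
  have h := psiK_spec p K (zetaUnit p K) (1 + X) (by rw [zetaUnit_val, phiK_zetaInt])
  rw [h]
  simp

theorem psiK_cycUnit {a : ℕ} (h : a.Coprime p) :
    Multiplicative.toAdd (psiK p K (cycUnit p K a)) * truncMk p (p - 2) (cycPoly p a) =
      truncMk p (p - 2) (derivative (cycPoly p a)) :=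
  psiK_spec p K (cycUnit p K a) (cycPoly p a) (phiK_cycUnit p K h).symm

end Phi

end

end Fermat.Agent.FLTK
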