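import Fermat.Agent.FLTK.Reduction
import Fermat.Agent.FLTK.CaseII
import Fermat.Agent.FLTp.SophieGermain

set_option autoImplicit false

/-!
# Plan K, chunk (G): Fermat's Last Theorem for an exponent `p ∈ {5, 7, 11, 13}` from `KummerData`

Case I is Sophie Germain's theorem (`Fermat.Agent.FLTp`), Case II is Kummer's descent
(`Fermat.Agent.FLTK.caseII`), and `flt_of_caseI_caseII` glues them.
-/

namespace Fermat.Agent.FLTK

open NumberField IsCyclotomicExtension

/-- Case I for the four exponents (Sophie Germain). -/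
theorem caseI_small (p : ℕ) (h4 : p = 5 ∨ p = 7 ∨ p = 11 ∨ p = 13) (a b c : ℤ)
    (hab : IsCoprime a b) (h : ¬ (p : ℤ) ∣ a * b * c) : a ^ p + b ^ p ≠ c ^ p := by
  intro hF
  apply h
  rcases h4 with rfl | rfl | rfl | rfl
  · exact_mod_cast Fermat.Agent.FLTp.caseI_five hab hF
  · exact_mod_cast Fermat.Agent.FLTp.caseI_seven hab hF
  · exact_mod_cast Fermat.Agent.FLTp.caseI_eleven hab hF
  · exact_mod_cast Fermat.Agent.FLTp.caseI_thirteen hab hF

section

variable (p : ℕ) [hp : Fact p.Prime] (K : Type) [Field K] [NumberField K]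
  [IsCyclotomicExtension {p} ℚ K]

/-- Fermat's Last Theorem for `p ∈ {5, 7, 11, 13}`, given that the `p`-th cyclotomic ring is a PID
and satisfies Kummer's lemma. -/
theorem flt_of_kummerData (h4 : p = 5 ∨ p = 7 ∨ p = 11 ∨ p = 13) (h : KummerData p K) :
    FermatLastTheoremFor p := by
  have hp5 : 5 ≤ p := by rcases h4 with rfl | rfl | rfl | rfl <;> norm_num
  have hp2 : p ≠ 2 := by omega
  exact flt_of_caseI_caseII hp.out hp2 (caseI_small p h4)
    (fun a b c hc ha hb hpc hab => caseII p K hp5 h hc ha hb hpc hab)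

end

/-- The same with `K := CyclotomicField p ℚ`: it is enough to provide the PID property and Kummer's
lemma for the standard model of the cyclotomic field. -/
theorem flt_of_pid_of_kummer (p : ℕ) (h4 : p = 5 ∨ p = 7 ∨ p = 11 ∨ p = 13)
    (hpid : ∀ (K : Type) [Field K] [NumberField K] [IsCyclotomicExtension {p} ℚ K],
      IsPrincipalIdealRing (𝓞 K))
    (hkum : ∀ (K : Type) [Field K] [NumberField K] [IsCyclotomicExtension {p} ℚ K]
      (u : (𝓞 K)ˣ), (∃ n : ℤ, (p : 𝓞 K) ∣ (u : 𝓞 K) - (n : 𝓞 K)) → ∃ v : (𝓞 K)ˣ, u = v ^ p) :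
    FermatLastTheoremFor p := by
  have hpp : p.Prime := by rcases h4 with rfl | rfl | rfl | rfl <;> norm_num
  have : Fact p.Prime := ⟨hpp⟩
  have : IsCyclotomicExtension {p} ℚ (CyclotomicField p ℚ) :=
    CyclotomicField.isCyclotomicExtension p ℚ
  exact flt_of_kummerData p (CyclotomicField p ℚ) h4
    ⟨hpid (CyclotomicField p ℚ), fun u hu => hkum (CyclotomicField p ℚ) u hu⟩

end Fermat.Agent.FLTK
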