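import Mathlib

set_option autoImplicit false
set_option linter.style.haveILetI false

namespace Fermat.Agent.FLTK

theorem modN_smul_mkQ {M : Type*} [AddCommGroup M] (p : ℕ) [NeZero p] (c : ZMod p) (x : M) :
    c • (ModN.mkQ p x : ModN M p) = ModN.mkQ p (c.val • x) := by
  rw [map_nsmul]
  conv_lhs => rw [← ZMod.natCast_zmod_val c]
  rw [Nat.cast_smul_eq_nsmul]

theorem modN_mkQ_eq_zero_iff {M : Type*} [AddCommGroup M] (p : ℕ) (x : M) :
    (ModN.mkQ p x : ModN M p) = 0 ↔ ∃ m : M, x = (p : ℤ) • m := by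
  show (Submodule.Quotient.mk x : ModN M p) = 0 ↔ _
  rw [Submodule.Quotient.mk_eq_zero, LinearMap.mem_range]
  constructor
  · rintro ⟨m, hm⟩
    exact ⟨m, by rw [← hm]; simp⟩
  · rintro ⟨m, hm⟩
    exact ⟨m, by rw [hm]; simp⟩

/-- In a free `ℤ`-module of rank `r`, a family of `r` elements independent modulo `p` spans
modulo `p`. -/
theorem modN_span {M : Type*} [AddCommGroup M] [Module.Free ℤ M] [Module.Finite ℤ M] (p : ℕ)
    [Fact p.Prime] {r : ℕ} (hr : Module.finrank ℤ M = r) (x : Fin r → M)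
    (hind : ∀ (e : Fin r → ℤ) (m : M), ∑ k, e k • x k = (p : ℤ) • m → ∀ k, (p : ℤ) ∣ e k)
    (y : M) : ∃ (e : Fin r → ℤ) (m : M), y = ∑ k, e k • x k + (p : ℤ) • m := by
  classical
  haveI : NeZero p := ⟨(Fact.out : p.Prime).ne_zero⟩
  have hsum : ∀ g : Fin r → ZMod p, ∑ i, g i • (ModN.mkQ p (x i) : ModN M p) =
      ModN.mkQ p (∑ i, (((g i).val : ℕ) : ℤ) • x i) := by
    intro g
    rw [map_sum]
    refine Finset.sum_congr rfl fun i _ => ?_
    rw [modN_smul_mkQ, natCast_zsmul]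
  have hli : LinearIndependent (ZMod p) (fun k => (ModN.mkQ p (x k) : ModN M p)) := by
    rw [Fintype.linearIndependent_iff]
    intro g hg k
    rw [hsum, modN_mkQ_eq_zero_iff] at hg
    obtain ⟨m, hm⟩ := hg
    have h2 := hind _ m hm k
    have h3 : (p : ℕ) ∣ (g k).val := by exact_mod_cast h2
    have h4 : (g k).val = 0 := Nat.eq_zero_of_dvd_of_lt h3 (ZMod.val_lt (g k))
    exact (ZMod.val_eq_zero (g k)).mp h4
  have hspan := hli.span_eq_top_of_card_eq_finrank' (by
    rw [Fintype.card_fin, Module.finrank_eq_card_basis (ModN.basis (Module.Free.chooseBasis ℤ M)),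
      ← Module.finrank_eq_card_chooseBasisIndex, hr])
  have hy : (ModN.mkQ p y : ModN M p) ∈
      Submodule.span (ZMod p) (Set.range fun k => (ModN.mkQ p (x k) : ModN M p)) := by
    rw [hspan]
    trivial
  obtain ⟨c, hc⟩ := (Submodule.mem_span_range_iff_exists_fun _).mp hy
  rw [hsum] at hc
  have h2 : (ModN.mkQ p (y - ∑ i, (((c i).val : ℕ) : ℤ) • x i) : ModN M p) = 0 := by
    rw [map_sub, hc, sub_self]
  obtain ⟨m, hm⟩ := (modN_mkQ_eq_zero_iff p _).mp h2
  exact ⟨_, m, by rw [← hm]; abel⟩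

end Fermat.Agent.FLTK
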