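import Mathlib

set_option autoImplicit false

/-!
# Plan K, chunk D (common part): primes of degree one in a prime cyclotomic field

Let `K = ℚ(ζ_p)` and let `l` be a prime number, `t` an integer of order `p` modulo `l`
(`l ∣ t ^ p - 1`, `l ∤ t - 1`).  Every prime `P` of `𝓞 K` above `l` contains `ζ - t` for a suitable
primitive `p`-th root of unity `ζ`; if `a ζ` is an element (given by a universal formula in `ζ`) with
`a ζ ∣ l`, `a ζ ∣ ζ - t` and `a ζ ∈ (l, ζ - t)`, then `P = (a ζ)` is principal.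
-/

namespace Fermat.Agent.FLTK.PIDDeg1

open NumberField Ideal Polynomial

variable (p : ℕ) [hp : Fact p.Prime] (K : Type) [Field K] [NumberField K]
  [IsCyclotomicExtension {p} ℚ K]

omit [NumberField K] in
/-- An integer lies in a prime above `l` iff it is divisible by `l`. -/
theorem intCast_mem_iff (l : ℕ) (P : Ideal (𝓞 K)) [hPl : P.LiesOver (span {(l : ℤ)})] (n : ℤ) :
    (n : 𝓞 K) ∈ P ↔ (l : ℤ) ∣ n := by
  rw [← Ideal.mem_span_singleton, Ideal.mem_of_liesOver P (span {(l : ℤ)}) n]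
  simp

/-- A prime above `l` contains `ζ - t` for some primitive `p`-th root of unity `ζ`, when `t` has
order `p` modulo `l`. -/
theorem exists_primitiveRoot_sub_mem (l : ℕ) (t : ℤ) (hl : (l : ℤ) ∣ t ^ p - 1)
    (hl1 : ¬ (l : ℤ) ∣ t - 1) (P : Ideal (𝓞 K)) [hP : P.IsPrime]
    [hPl : P.LiesOver (span {(l : ℤ)})] :
    ∃ ζ : 𝓞 K, IsPrimitiveRoot ζ p ∧ ζ - (t : 𝓞 K) ∈ P := by
  have hζ₀ : IsPrimitiveRoot (IsCyclotomicExtension.zeta_spec p ℚ K).toInteger p :=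
    (IsCyclotomicExtension.zeta_spec p ℚ K).toInteger_isPrimitiveRoot
  have hprod := X_pow_sub_one_eq_prod hp.out.pos hζ₀
  have heval := congrArg (Polynomial.eval (t : 𝓞 K)) hprod
  simp only [eval_sub, eval_pow, eval_X, eval_one, eval_prod, eval_C] at heval
  have hmem : ((t : 𝓞 K) ^ p - 1) ∈ P := by
    have := (intCast_mem_iff K l P (t ^ p - 1)).mpr hl
    simpa using this
  rw [heval, hP.prod_mem_iff] at hmem
  obtain ⟨η, hη, hηP⟩ := hmem
  have hη1 : η ≠ 1 := by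
    rintro rfl
    apply hl1
    rw [← intCast_mem_iff K l P]
    simpa using hηP
  refine ⟨η, isPrimitiveRoot_of_mem_nthRootsFinset hp.out hη hη1, ?_⟩
  have : η - (t : 𝓞 K) = -((t : 𝓞 K) - η) := by ring
  rw [this]
  exact P.neg_mem hηP

/-- Every element of `𝓞 K` is a polynomial with integer coefficients in a primitive root. -/
theorem exists_aeval_eq (ζ : 𝓞 K) (hζ : IsPrimitiveRoot ζ p) (x : 𝓞 K) :
    ∃ f : ℤ[X], aeval ζ f = x := by
  have hζK : IsPrimitiveRoot (ζ : K) p :=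
    hζ.map_of_injective (f := algebraMap (𝓞 K) K) (RingOfIntegers.coe_injective)
  have htop := IsCyclotomicExtension.Rat.adjoin_singleton_eq_top hζK
  have hζeq : hζK.toInteger = ζ := by
    ext
    simp
  rw [hζeq] at htop
  have hx : x ∈ Algebra.adjoin ℤ {ζ} := by
    rw [htop]; exact Algebra.mem_top
  rw [Algebra.adjoin_singleton_eq_range_aeval] at hx
  exact hx

/-- The criterion: primes of degree one above `l` are principal. -/
theorem isPrincipal_of_deg_one (l : ℕ) (t : ℤ) (hl : (l : ℤ) ∣ t ^ p - 1)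
    (hl1 : ¬ (l : ℤ) ∣ t - 1) (a b c : 𝓞 K → 𝓞 K)
    (hab : ∀ ζ : 𝓞 K, IsPrimitiveRoot ζ p → a ζ * b ζ = (l : 𝓞 K))
    (hac : ∀ ζ : 𝓞 K, IsPrimitiveRoot ζ p → a ζ * c ζ = ζ - (t : 𝓞 K))
    (hmem : ∀ ζ : 𝓞 K, IsPrimitiveRoot ζ p →
      ∃ m y : 𝓞 K, a ζ = (l : 𝓞 K) * m + (ζ - (t : 𝓞 K)) * y)
    (P : Ideal (𝓞 K)) [hP : P.IsPrime] [hPl : P.LiesOver (span {(l : ℤ)})] :
    Submodule.IsPrincipal P := by
  obtain ⟨ζ, hζ, hζP⟩ := exists_primitiveRoot_sub_mem p K l t hl hl1 P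
  have hlP : (l : 𝓞 K) ∈ P := by
    have := (intCast_mem_iff K l P (l : ℤ)).mpr dvd_rfl
    simpa using this
  refine ⟨⟨a ζ, le_antisymm ?_ ?_⟩⟩
  · -- `P ≤ span {a ζ}`
    intro x hx
    obtain ⟨f, rfl⟩ := exists_aeval_eq p K ζ hζ x
    have hdvd : ζ - (t : 𝓞 K) ∣ aeval ζ f - ((f.eval t : ℤ) : 𝓞 K) := by
      have h := sub_dvd_eval_sub ζ (t : 𝓞 K) (f.map (algebraMap ℤ (𝓞 K)))
      rw [eval_map_algebraMap, eval_map_algebraMap] at h
      have h2 : aeval (t : 𝓞 K) f = ((f.eval t : ℤ) : 𝓞 K) := by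
        rw [← Polynomial.eval_map_algebraMap]
        simp [Polynomial.eval_intCast_map]
      rwa [h2] at h
    obtain ⟨g, hg⟩ := hdvd
    have hn : ((f.eval t : ℤ) : 𝓞 K) ∈ P := by
      have : ((f.eval t : ℤ) : 𝓞 K) = aeval ζ f - (ζ - (t : 𝓞 K)) * g := by
        rw [← hg]; ring
      rw [this]
      exact P.sub_mem hx (P.mul_mem_right _ hζP)
    rw [intCast_mem_iff K l P] at hn
    obtain ⟨k, hk⟩ := hn
    rw [Submodule.mem_span_singleton]
    refine ⟨b ζ * (k : 𝓞 K) + c ζ * g, ?_⟩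
    have hx' : aeval ζ f = ((f.eval t : ℤ) : 𝓞 K) + (ζ - (t : 𝓞 K)) * g := by
      rw [← hg]; ring
    rw [hx', hk, smul_eq_mul]
    push_cast
    rw [← hab ζ hζ, ← hac ζ hζ]
    ring
  · -- `span {a ζ} ≤ P`
    rw [Submodule.span_singleton_le_iff_mem]
    obtain ⟨m, y, hmy⟩ := hmem ζ hζ
    rw [hmy]
    exact P.add_mem (P.mul_mem_right _ hlP) (P.mul_mem_right _ hζP)

end Fermat.Agent.FLTK.PIDDeg1
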