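import Mathlib
import Fermat.Agent.FLTK.PIDDeg1

set_option autoImplicit false

/-!
# Plan K, chunk D11: the ring of integers of `ℚ(ζ₁₁)` is a PID.

Minkowski bound `< 60`; every prime `≤ 59` other than `11` and `23` has `p ^ f > 59`; the prime above
`11` is `(ζ - 1)`; the primes above `23` are generated by the conjugates of `1 - ζ ^ 3 - ζ ^ 4`.
-/

namespace Fermat.Agent.FLTK

open NumberField Ideal IsCyclotomicExtension Polynomial Nat Real Module InfinitePlace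

/-- The Minkowski bound of `ℚ(ζ₁₁)` is smaller than `60`. -/
theorem pid11_bound (K : Type) [Field K] [NumberField K] [IsCyclotomicExtension {11} ℚ K] :
    (4 / π) ^ nrComplexPlaces K *
      ((finrank ℚ K)! / (finrank ℚ K) ^ (finrank ℚ K) * √|discr K|) < 60 := by
  have h11 : Fact (Nat.Prime 11) := ⟨by norm_num⟩
  rw [IsCyclotomicExtension.Rat.discr_prime 11 K, IsCyclotomicExtension.finrank (n := 11) K
    (cyclotomic.irreducible_rat (by simp)),
    IsCyclotomicExtension.Rat.nrComplexPlaces_eq_totient_div_two 11,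
    totient_prime (by norm_num : Nat.Prime 11)]
  have hsq : √|((((-1) ^ ((11 - 1) / 2) * (11:ℤ) ^ (11 - 2) : ℤ)) : ℝ)| < 48559 := by
    rw [Real.sqrt_lt' (by norm_num)]; norm_num
  have hpi : (4 / π) ^ ((11 - 1) / 2) < (4 / 3.14) ^ 5 := by
    have h3 : 4 / π < 4 / 3.14 := by
      apply div_lt_div_of_pos_left (by norm_num) (by norm_num) pi_gt_d2
    have : (11 - 1) / 2 = 5 := by norm_num
    rw [this]
    gcongr
  have hfac : (((11 - 1)! : ℕ) : ℝ) / ((11 - 1 : ℕ) : ℝ) ^ (11 - 1) = 567 / 1562500 := by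
    norm_num [Nat.factorial]
  rw [hfac]
  calc (4 / π) ^ ((11 - 1) / 2) *
        (567 / 1562500 * √|((((-1) ^ ((11 - 1) / 2) * (11:ℤ) ^ (11 - 2) : ℤ)) : ℝ)|)
      < (4 / 3.14) ^ 5 * (567 / 1562500 * 48559) := by gcongr
    _ < 60 := by norm_num

theorem pid11_order_two : orderOf ((2 : ℕ) : ZMod 11) = 10 := by
  rw [orderOf_eq_iff (by norm_num)]
  refine ⟨by decide, fun m hm hm0 ↦ ?_⟩
  interval_cases m <;> decide

theorem pid11_order_three : orderOf ((3 : ℕ) : ZMod 11) = 5 := by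
  rw [orderOf_eq_iff (by norm_num)]
  refine ⟨by decide, fun m hm hm0 ↦ ?_⟩
  interval_cases m <;> decide

theorem pid11_order_five : orderOf ((5 : ℕ) : ZMod 11) = 5 := by
  rw [orderOf_eq_iff (by norm_num)]
  refine ⟨by decide, fun m hm hm0 ↦ ?_⟩
  interval_cases m <;> decide

theorem pid11_order_seven : orderOf ((7 : ℕ) : ZMod 11) = 10 := by
  rw [orderOf_eq_iff (by norm_num)]
  refine ⟨by decide, fun m hm hm0 ↦ ?_⟩
  interval_cases m <;> decide

theorem pid11_two_le_order (n : ℕ) (h0 : (n : ZMod 11) ≠ 0) (h : (n : ZMod 11) ≠ 1) :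
    2 ≤ orderOf (n : ZMod 11) := by
  have h11 : Fact (Nat.Prime 11) := ⟨by norm_num⟩
  have h1 : orderOf (n : ZMod 11) ≠ 1 := by
    rw [Ne, orderOf_eq_one_iff]; exact h
  have hpow : (n : ZMod 11) ^ 10 = 1 := ZMod.pow_card_sub_one_eq_one h0
  have hdvd : orderOf (n : ZMod 11) ∣ 10 := orderOf_dvd_of_pow_eq_one hpow
  have hpos : 0 < orderOf (n : ZMod 11) := Nat.pos_of_dvd_of_pos hdvd (by norm_num)
  omega

theorem pid11_cases (p : ℕ) (hprime : p.Prime) (hp59 : p ≤ 59) (h23 : p ≠ 23) (hp11 : p ≠ 11) :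
    p = 2 ∨ p = 3 ∨ p = 5 ∨ p = 7 ∨
      (13 ≤ p ∧ (p : ZMod 11) ≠ 0 ∧ (p : ZMod 11) ≠ 1) := by
  interval_cases p <;> first
    | (norm_num at hprime; done)
    | omega
    | (right; right; right; right; refine ⟨by norm_num, by decide, by decide⟩)

/-- Primes above `23` in `ℚ(ζ₁₁)` are principal. -/
theorem pid11_principal_23 (K : Type) [Field K] [NumberField K] [IsCyclotomicExtension {11} ℚ K]
    (P : Ideal (𝓞 K)) [hP : P.IsPrime] [hPl : P.LiesOver (span {((23 : ℕ) : ℤ)})] :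
    Submodule.IsPrincipal P := by
  have h11 : Fact (Nat.Prime 11) := ⟨by norm_num⟩
  have hgeom : ∀ ζ : 𝓞 K, IsPrimitiveRoot ζ 11 →
      1 + ζ + ζ ^ 2 + ζ ^ 3 + ζ ^ 4 + ζ ^ 5 + ζ ^ 6 + ζ ^ 7 + ζ ^ 8 + ζ ^ 9 + ζ ^ 10 = 0 := by
    intro ζ hζ
    have h := hζ.geom_sum_eq_zero (by norm_num)
    simpa [Finset.sum_range_succ] using h
  refine PIDDeg1.isPrincipal_of_deg_one 11 K 23 2 (by norm_num) (by norm_num)
    (fun ζ ↦ 1 - ζ ^ 3 - ζ ^ 4)
    (fun ζ ↦ -1 - 13 * ζ + 4 * ζ ^ 2 + ζ ^ 3 - 12 * ζ ^ 4 - 7 * ζ ^ 5 + 7 * ζ ^ 6 - 9 * ζ ^ 7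
      - 17 * ζ ^ 8 + 2 * ζ ^ 9)
    (fun ζ ↦ ζ - ζ ^ 2 + ζ ^ 4 - ζ ^ 6 + ζ ^ 7 + ζ ^ 8 - ζ ^ 9)
    ?_ ?_ ?_ P
  · intro ζ hζ
    have h := hgeom ζ hζ
    push_cast
    linear_combination (-24 + 11 * ζ + 17 * ζ ^ 2 - 2 * ζ ^ 3) * h
  · intro ζ hζ
    have h := hgeom ζ hζ
    push_cast
    linear_combination (2 - 2 * ζ - ζ ^ 2 + ζ ^ 3) * h
  · intro ζ _
    refine ⟨-1, -(ζ ^ 3 + 3 * ζ ^ 2 + 6 * ζ + 12), ?_⟩
    push_cast
    ring

theorem pid_eleven (K : Type) [Field K] [NumberField K] [IsCyclotomicExtension {11} ℚ K] :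
    IsPrincipalIdealRing (𝓞 K) := by
  have h11 : Fact (Nat.Prime 11) := ⟨by norm_num⟩
  have : IsGalois ℚ K := IsCyclotomicExtension.isGalois {11} ℚ K
  have hfl : ⌊(4 / π) ^ nrComplexPlaces K *
      ((finrank ℚ K)! / (finrank ℚ K) ^ (finrank ℚ K) * √|discr K|)⌋₊ ≤ 59 := by
    have h := pid11_bound K
    have : ⌊(4 / π) ^ nrComplexPlaces K *
      ((finrank ℚ K)! / (finrank ℚ K) ^ (finrank ℚ K) * √|discr K|)⌋₊ < 60 := by
      rw [Nat.floor_lt (by positivity)]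
      exact_mod_cast h
    omega
  refine RingOfIntegers.isPrincipalIdealRing_of_isPrincipal_of_lt_or_isPrincipal_of_mem_primesOver_of_mem_Icc
    (fun p hp hprime ↦ ?_)
  have hp59 : p ≤ 59 := (Finset.mem_Icc.mp hp).2.trans hfl
  have hF : Fact p.Prime := ⟨hprime⟩
  obtain ⟨⟨P, hP1, hP2⟩⟩ := (span {(p : ℤ)}).nonempty_primesOver (S := 𝓞 K)
  refine ⟨P, ⟨hP1, hP2⟩, ?_⟩
  by_cases h23 : p = 23
  · subst h23
    exact Or.inr (pid11_principal_23 K P)
  by_cases hp11 : p = 11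
  · subst hp11
    right
    rw [IsCyclotomicExtension.Rat.eq_span_zeta_sub_one_of_liesOver' 11 K
      (IsCyclotomicExtension.zeta_spec 11 ℚ K) P]
    exact ⟨⟨_, rfl⟩⟩
  left
  have hdeg := IsCyclotomicExtension.Rat.inertiaDeg_eq_of_not_dvd (m := 11) p K P
  have hbig : ∀ n : ℕ, 13 ≤ n → (n : ZMod 11) ≠ 0 → (n : ZMod 11) ≠ 1 →
      59 < n ^ orderOf (n : ZMod 11) := by
    intro n hn h0 h1
    calc 59 < n ^ 2 := by nlinarith
      _ ≤ n ^ orderOf (n : ZMod 11) :=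
        Nat.pow_le_pow_right (by omega) (pid11_two_le_order n h0 h1)
  have hnd : ¬ p ∣ 11 := by
    intro h
    exact hp11 ((Nat.prime_dvd_prime_iff_eq hprime (by norm_num)).mp h)
  rw [hdeg hnd]
  refine lt_of_le_of_lt hfl ?_
  have hcases := pid11_cases p hprime hp59 h23 hp11
  rcases hcases with rfl | rfl | rfl | rfl | ⟨h13, h0, h1⟩
  · rw [pid11_order_two]; norm_num
  · rw [pid11_order_three]; norm_num
  · rw [pid11_order_five]; norm_num
  · rw [pid11_order_seven]; norm_num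
  · exact hbig p h13 h0 h1

end Fermat.Agent.FLTK
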