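import Fermat.Agent.FLTK.PIDCommon

set_option autoImplicit false

/-!
# Plan K, chunk D13: `ℤ[ζ₁₃]` is a principal ideal domain
-/

namespace Fermat.Agent.FLTK

open NumberField IsCyclotomicExtension Polynomial Module Ideal Nat Real InfinitePlace

set_option maxRecDepth 1000000 in
theorem pid13_arith : ∀ q ∈ Finset.Icc 1 307, q.Prime → ∀ f ∈ Finset.Icc 1 12, q ^ f ≤ 307 →
    q ^ f % 13 = 1 → q = 3 ∨ q = 53 ∨ q = 79 ∨ q = 131 ∨ q = 157 := by
  decide

instance pid13_fact : Fact (Nat.Prime 13) := ⟨by norm_num⟩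

variable (K : Type) [Field K] [NumberField K] [IsCyclotomicExtension {13} ℚ K]

theorem pid13_minkowski :
    ⌊(4 / π) ^ nrComplexPlaces K *
      ((finrank ℚ K)! / (finrank ℚ K) ^ (finrank ℚ K) * √|discr K|)⌋₊ ≤ 307 := by
  have h13 : Nat.Prime 13 := by norm_num
  rw [IsCyclotomicExtension.Rat.discr_prime 13 K, IsCyclotomicExtension.finrank (n := 13) K
    (cyclotomic.irreducible_rat (by norm_num)),
    IsCyclotomicExtension.Rat.nrComplexPlaces_eq_totient_div_two 13, totient_prime h13]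
  norm_num [Nat.factorial]
  have hpi : (3.14 : ℝ) < π := Real.pi_gt_d2
  have hs : √(1792160394037 : ℝ) ≤ 1340368 := by
    rw [Real.sqrt_le_left (by norm_num)]; norm_num
  have h4 : (4 / π) ^ 6 ≤ (4 / 3.14 : ℝ) ^ 6 := by gcongr
  have hlt : (4 / π) ^ 6 * (1925 / 35831808 * √1792160394037) < ((307 + 1 : ℕ) : ℝ) := by
    calc (4 / π) ^ 6 * (1925 / 35831808 * √1792160394037)
        ≤ (4 / 3.14 : ℝ) ^ 6 * (1925 / 35831808 * 1340368) := by gcongr
      _ < ((307 + 1 : ℕ) : ℝ) := by norm_num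
  exact Nat.lt_succ_iff.mp ((Nat.floor_lt (by positivity)).mpr hlt)

/-- coefficient vectors of generators of the small primes -/
def pid13_v13 : ZMod 13 → ℤ := ![1, -1, 0, 0, 0, 0, 0, 0, 0, 0, 0, 0, 0]
def pid13_v53 : ZMod 13 → ℤ := ![1, 1, 0, 1, 0, 0, 0, 0, 0, 0, 0, 0, 0]
def pid13_v27 : ZMod 13 → ℤ := ![1, 1, 0, -1, 0, 0, 0, 0, 0, 0, 0, 0, 0]
def pid13_v131 : ZMod 13 → ℤ := ![1, -1, 0, -1, 0, 0, 0, 0, 0, 0, 0, 0, 0]
def pid13_v79 : ZMod 13 → ℤ := ![1, 1, 0, 0, -1, 0, 0, 0, 0, 0, 0, 0, 0]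
def pid13_v157 : ZMod 13 → ℤ := ![1, -1, 1, 0, 1, 0, 0, 0, 0, 0, 0, 0, 0]

set_option maxRecDepth 100000 in
theorem pid13_n13 : ∀ k : ZMod 13, cycNormAux pid13_v13 (13 - 1) k =
    (if k = 0 then 13 else 0) + cycNormAux pid13_v13 12 1 := by decide

set_option maxRecDepth 100000 in
theorem pid13_n53 : ∀ k : ZMod 13, cycNormAux pid13_v53 (13 - 1) k =
    (if k = 0 then 53 else 0) + cycNormAux pid13_v53 12 1 := by decide

set_option maxRecDepth 100000 in
theorem pid13_n27 : ∀ k : ZMod 13, cycNormAux pid13_v27 (13 - 1) k =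
    (if k = 0 then 27 else 0) + cycNormAux pid13_v27 12 1 := by decide

set_option maxRecDepth 100000 in
theorem pid13_n131 : ∀ k : ZMod 13, cycNormAux pid13_v131 (13 - 1) k =
    (if k = 0 then 131 else 0) + cycNormAux pid13_v131 12 1 := by decide

set_option maxRecDepth 100000 in
theorem pid13_n79 : ∀ k : ZMod 13, cycNormAux pid13_v79 (13 - 1) k =
    (if k = 0 then 79 else 0) + cycNormAux pid13_v79 12 1 := by decide

set_option maxRecDepth 100000 in
theorem pid13_n157 : ∀ k : ZMod 13, cycNormAux pid13_v157 (13 - 1) k =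
    (if k = 0 then 157 else 0) + cycNormAux pid13_v157 12 1 := by decide

/-- A prime `q ≠ 13` not among the exceptional ones has a prime above it of norm `> 307`. -/
theorem pid13_large (q : ℕ) (hq : q.Prime) (hq307 : q ≤ 307) (hq13 : q ≠ 13)
    (hex : ¬ (q = 3 ∨ q = 53 ∨ q = 79 ∨ q = 131 ∨ q = 157))
    (P : Ideal (𝓞 K)) (hP : P ∈ primesOver (span {(q : ℤ)}) (𝓞 K)) :
    307 < q ^ P.inertiaDeg ℤ := by
  have : Fact q.Prime := ⟨hq⟩
  have : P.IsPrime := hP.1
  have : P.LiesOver (span {(q : ℤ)}) := hP.2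
  have hndvd : ¬ q ∣ 13 := by
    intro h
    exact hq13 ((Nat.prime_dvd_prime_iff_eq hq (by norm_num)).mp h)
  have hf := IsCyclotomicExtension.Rat.inertiaDeg_eq_of_not_dvd (m := 13) q K P hndvd
  rw [hf]
  set f := orderOf (q : ZMod 13) with hfdef
  by_contra hle
  rw [not_lt] at hle
  have hq0 : (q : ZMod 13) ≠ 0 := by
    rw [Ne, ZMod.natCast_eq_zero_iff]
    intro h
    exact hq13 ((Nat.prime_dvd_prime_iff_eq (by norm_num) hq).mp h).symm
  have hpow : (q : ZMod 13) ^ 12 = 1 := ZMod.pow_card_sub_one_eq_one hq0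
  have hfdvd : f ∣ 12 := orderOf_dvd_of_pow_eq_one hpow
  have hfpos : 0 < f := Nat.pos_of_dvd_of_pos hfdvd (by norm_num)
  have hf12 : f ≤ 12 := Nat.le_of_dvd (by norm_num) hfdvd
  have h1 : (q : ZMod 13) ^ f = 1 := pow_orderOf_eq_one _
  have h2 : q ^ f % 13 = 1 := by
    have h3 : ((q ^ f : ℕ) : ZMod 13) = ((1 : ℕ) : ZMod 13) := by
      push_cast; exact h1
    rw [ZMod.natCast_eq_natCast_iff'] at h3
    simpa using h3
  exact hex (pid13_arith q (Finset.mem_Icc.mpr ⟨hq.one_le, hq307⟩) hq f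
    (Finset.mem_Icc.mpr ⟨hfpos, hf12⟩) hle h2)

theorem pid_thirteen : IsPrincipalIdealRing (𝓞 K) := by
  have := IsCyclotomicExtension.isGalois {13} ℚ K
  apply RingOfIntegers.isPrincipalIdealRing_of_isPrincipal_of_lt_or_isPrincipal_of_mem_primesOver_of_mem_Icc
  intro q hqmem hq
  have hM := pid13_minkowski K
  have hq307 : q ≤ 307 := (Finset.mem_Icc.mp hqmem).2.trans hM
  have key : ∀ (v : ZMod 13 → ℤ) (N m : ℤ),
      (∀ k : ZMod 13, cycNormAux v (13 - 1) k = (if k = 0 then N else 0) + m) →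
      N.natAbs = q →
      ∃ P ∈ primesOver (span {(q : ℤ)}) (𝓞 K),
        ⌊(4 / π) ^ nrComplexPlaces K * ((finrank ℚ K)! / (finrank ℚ K) ^ (finrank ℚ K) *
          √|discr K|)⌋₊ < q ^ P.inertiaDeg ℤ ∨ Submodule.IsPrincipal P := by
    intro v N m h hN
    obtain ⟨P, hP, hprin⟩ := exists_principal_prime_of_norm
      (cycEval (zeta_spec 13 ℚ K).toInteger v) q hq (by rw [norm_int_cycEval 13 K v N m h, hN])
    exact ⟨P, hP, Or.inr hprin⟩
  by_cases h13 : q = 13
  · exact key pid13_v13 13 _ pid13_n13 (by rw [h13]; rfl)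
  by_cases hex : q = 3 ∨ q = 53 ∨ q = 79 ∨ q = 131 ∨ q = 157
  · rcases hex with h | h | h | h | h
    · -- q = 3, inertia degree 3
      subst h
      have hdeg : ∀ P : Ideal (𝓞 K), P.IsMaximal → P.under ℤ = Ideal.span {((3 : ℕ) : ℤ)} →
          Ideal.absNorm P = 3 ^ 3 := by
        intro P hPmax hPunder
        have : P.IsPrime := hPmax.isPrime
        have : P.LiesOver (span {((3 : ℕ) : ℤ)}) := ⟨hPunder.symm⟩
        have : Fact (Nat.Prime 3) := ⟨Nat.prime_three⟩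
        have hf := IsCyclotomicExtension.Rat.inertiaDeg_eq_of_not_dvd (m := 13) 3 K P (by norm_num)
        have ho : orderOf ((3 : ℕ) : ZMod 13) = 3 :=
          orderOf_eq_prime (by decide) (by decide)
        rw [← Ideal.pow_inertiaDeg 3 P, hf, ho]
      obtain ⟨P, hP, hprin⟩ := exists_principal_prime_of_norm_pow
        (cycEval (zeta_spec 13 ℚ K).toInteger pid13_v27) 3 3 Nat.prime_three (by norm_num)
        (by rw [norm_int_cycEval 13 K pid13_v27 27 _ pid13_n27]; rfl) hdeg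
      exact ⟨P, hP, Or.inr hprin⟩
    · exact key pid13_v53 53 _ pid13_n53 (by rw [h]; rfl)
    · exact key pid13_v79 79 _ pid13_n79 (by rw [h]; rfl)
    · exact key pid13_v131 131 _ pid13_n131 (by rw [h]; rfl)
    · exact key pid13_v157 157 _ pid13_n157 (by rw [h]; rfl)
  · have : (span {(q : ℤ)}).IsPrime :=
      (span_singleton_prime (by exact_mod_cast hq.ne_zero)).mpr (Nat.prime_iff_prime_int.mp hq)
    obtain ⟨⟨P, hP⟩⟩ := (inferInstance : Nonempty (primesOver (span {(q : ℤ)}) (𝓞 K)))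
    exact ⟨P, hP, Or.inl (lt_of_le_of_lt hM (pid13_large K q hq hq307 h13 hex P hP))⟩

end Fermat.Agent.FLTK
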