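import Mathlib
import Fermat.Agent.FLTK.PIDDeg1

set_option autoImplicit false

/-!
# Plan K, chunk D (common part): primes of higher degree in a prime cyclotomic field

Let `K = ℚ(ζ_p)`, `l` a prime number and `g : ℤ[X]` a monic polynomial whose reduction modulo `l` is
irreducible.  If a prime `P` of `𝓞 K` contains `l` and `g ζ` for a primitive `p`-th root of unity
`ζ`, and `a` is an element with `a ∣ l`, `a ∣ g ζ` and `a ∈ (l, g ζ)`, then `P = (a)`.
-/

namespace Fermat.Agent.FLTK.PIDDegF

open NumberField Ideal Polynomial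

/-- An integer polynomial which vanishes modulo `l` is a multiple of `l`. -/
theorem exists_eq_C_mul_of_map_eq_zero (l : ℕ) (r : ℤ[X])
    (h : r.map (Int.castRingHom (ZMod l)) = 0) : ∃ r' : ℤ[X], r = C (l : ℤ) * r' := by
  have hdvd : C (l : ℤ) ∣ r := by
    rw [C_dvd_iff_dvd_coeff]
    intro i
    have hi := congrArg (fun q => q.coeff i) h
    simp only [coeff_map, coeff_zero, eq_intCast] at hi
    exact (ZMod.intCast_zmod_eq_zero_iff_dvd _ _).mp hi
  exact hdvd

variable (p : ℕ) [hp : Fact p.Prime] (K : Type) [Field K] [NumberField K]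
  [IsCyclotomicExtension {p} ℚ K]

/-- The criterion: a prime containing `l` and `g ζ` with `g` irreducible modulo `l` is generated by
any `a` with `a ∣ l`, `a ∣ g ζ`, `a ∈ (l, g ζ)`. -/
theorem eq_span_of_irreducible_factor (l : ℕ) [hl : Fact l.Prime] (g : ℤ[X]) (hg : g.Monic)
    (hirr : Irreducible (g.map (Int.castRingHom (ZMod l))))
    (ζ : 𝓞 K) (hζ : IsPrimitiveRoot ζ p) (a b c : 𝓞 K)
    (hab : a * b = (l : 𝓞 K)) (hac : a * c = aeval ζ g)
    (hmem : ∃ m y : 𝓞 K, a = (l : 𝓞 K) * m + aeval ζ g * y)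
    (P : Ideal (𝓞 K)) [hP : P.IsPrime] (hlP : (l : 𝓞 K) ∈ P) (hgP : aeval ζ g ∈ P) :
    P = span {a} := by
  set φ : ℤ →+* ZMod l := Int.castRingHom (ZMod l) with hφ
  have hφsurj : Function.Surjective φ := ZMod.intCast_surjective
  refine le_antisymm ?_ ?_
  · intro x hx
    obtain ⟨f, rfl⟩ := PIDDeg1.exists_aeval_eq p K ζ hζ x
    have hfr : f %ₘ g + g * (f /ₘ g) = f := modByMonic_add_div f g
    have hrP : aeval ζ (f %ₘ g) ∈ P := by
      have h1 : aeval ζ (f %ₘ g) = aeval ζ f - aeval ζ g * aeval ζ (f /ₘ g) := by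
        have h0 := congrArg (aeval ζ) hfr
        simp only [map_add, map_mul] at h0
        linear_combination h0
      rw [h1]
      exact P.sub_mem hx (P.mul_mem_right _ hgP)
    have hr0 : (f %ₘ g).map φ = 0 := by
      by_contra hne
      have hdeg : ((f %ₘ g).map φ).degree < (g.map φ).degree := by
        calc ((f %ₘ g).map φ).degree ≤ (f %ₘ g).degree := degree_map_le
          _ < g.degree := degree_modByMonic_lt f hg
          _ = (g.map φ).degree := (hg.degree_map φ).symm
      have hndvd : ¬ g.map φ ∣ (f %ₘ g).map φ := fun h =>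
        hne (eq_zero_of_dvd_of_degree_lt h hdeg)
      obtain ⟨u', v', huv⟩ := (hirr.coprime_iff_not_dvd).2 hndvd
      obtain ⟨u, rfl⟩ := map_surjective φ hφsurj u'
      obtain ⟨v, rfl⟩ := map_surjective φ hφsurj v'
      have hz : (u * g + v * (f %ₘ g) - 1).map φ = 0 := by
        simp only [Polynomial.map_sub, Polynomial.map_add, Polynomial.map_mul,
          Polynomial.map_one]
        rw [huv, sub_self]
      obtain ⟨w, hw⟩ := exists_eq_C_mul_of_map_eq_zero l _ hz
      have h1 : (1 : 𝓞 K) ∈ P := by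
        have h2 := congrArg (aeval ζ) hw
        simp only [map_sub, map_add, map_mul, map_one, map_natCast] at h2
        have h3 : (1 : 𝓞 K) = aeval ζ u * aeval ζ g + aeval ζ v * aeval ζ (f %ₘ g)
            - (l : 𝓞 K) * aeval ζ w := by
          linear_combination (-1 : 𝓞 K) * h2
        rw [h3]
        exact P.sub_mem (P.add_mem (P.mul_mem_left _ hgP) (P.mul_mem_left _ hrP))
          (P.mul_mem_right _ hlP)
      exact hP.ne_top ((Ideal.eq_top_iff_one _).2 h1)
    obtain ⟨r', hr'⟩ := exists_eq_C_mul_of_map_eq_zero l _ hr0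
    rw [Ideal.mem_span_singleton]
    refine ⟨b * aeval ζ r' + c * aeval ζ (f /ₘ g), ?_⟩
    have h4 : aeval ζ f = (l : 𝓞 K) * aeval ζ r' + aeval ζ g * aeval ζ (f /ₘ g) := by
      have h0 := congrArg (aeval ζ) hfr
      have h5 := congrArg (aeval ζ) hr'
      simp only [map_add, map_mul, map_natCast] at h0 h5
      linear_combination (-1 : 𝓞 K) * h0 + h5
    rw [h4, ← hab, ← hac]
    ring
  · rw [Ideal.span_singleton_le_iff_mem]
    obtain ⟨m, y, hmy⟩ := hmem
    rw [hmy]
    exact P.add_mem (P.mul_mem_right _ hlP) (P.mul_mem_right _ hgP)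

end Fermat.Agent.FLTK.PIDDegF
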