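import Mathlib
import Fermat.Agent.FLTK.PIDDegF

set_option autoImplicit false

/-!
# Plan K, chunk D13 (part): the primes above `3` in `ℚ(ζ₁₃)` are principal

`3` has order `3` modulo `13`; the four primes above `3` are generated by the conjugates of
`ζ ^ 3 - ζ - 1` (an element of norm `27`).
-/

namespace Fermat.Agent.FLTK

open NumberField Ideal Polynomial

/-- The cubic `X ^ 3 - X - 1`, a factor of the `13`-th cyclotomic polynomial modulo `3`. -/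
noncomputable def pid13ThreePoly : ℤ[X] := X ^ 3 - X - 1

theorem pid13ThreePoly_monic : pid13ThreePoly.Monic := by
  unfold pid13ThreePoly
  monicity!

theorem pid13ThreePoly_map :
    pid13ThreePoly.map (Int.castRingHom (ZMod 3)) = X ^ 3 - X - 1 := by
  simp [pid13ThreePoly]

theorem pid13Three_no_root : ∀ x : ZMod 3, ¬ x ^ 3 - x - 1 = 0 := by decide

theorem pid13ThreePoly_irreducible :
    Irreducible (pid13ThreePoly.map (Int.castRingHom (ZMod 3))) := by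
  have : Fact (Nat.Prime 3) := ⟨by norm_num⟩
  rw [pid13ThreePoly_map]
  have hdeg : (X ^ 3 - X - 1 : (ZMod 3)[X]).natDegree = 3 := by
    compute_degree!
  apply irreducible_of_degree_le_three_of_not_isRoot
  · rw [hdeg]; decide
  · intro x
    simp only [IsRoot, eval_sub, eval_pow, eval_X, eval_one]
    exact pid13Three_no_root x

theorem pid13ThreePoly_aeval {R : Type*} [CommRing R] (z : R) :
    aeval z pid13ThreePoly = z ^ 3 - z - 1 := by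
  simp [pid13ThreePoly]

theorem isPrincipal_of_liesOver_three (K : Type) [Field K] [NumberField K]
    [IsCyclotomicExtension {13} ℚ K] (P : Ideal (𝓞 K)) [hP : P.IsPrime]
    [hPl : P.LiesOver (Ideal.span {(3 : ℤ)})] : Submodule.IsPrincipal P := by
  have h13 : Fact (Nat.Prime 13) := ⟨by norm_num⟩
  have h3 : Fact (Nat.Prime 3) := ⟨by norm_num⟩
  have hζ : IsPrimitiveRoot (IsCyclotomicExtension.zeta_spec 13 ℚ K).toInteger 13 :=
    (IsCyclotomicExtension.zeta_spec 13 ℚ K).toInteger_isPrimitiveRoot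
  set ζ : 𝓞 K := (IsCyclotomicExtension.zeta_spec 13 ℚ K).toInteger with hζdef
  have h3P : (3 : 𝓞 K) ∈ P := by
    have hPl' : P.LiesOver (Ideal.span {((3 : ℕ) : ℤ)}) := by simpa using hPl
    have := (PIDDeg1.intCast_mem_iff K 3 P ((3 : ℕ) : ℤ)).mpr dvd_rfl
    simpa using this
  -- every primitive root satisfies the cyclotomic equation
  have hgeomAll : ∀ z : 𝓞 K, IsPrimitiveRoot z 13 →
      1 + z + z ^ 2 + z ^ 3 + z ^ 4 + z ^ 5 + z ^ 6 + z ^ 7 + z ^ 8 + z ^ 9 + z ^ 10 + z ^ 11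
        + z ^ 12 = 0 := by
    intro z hz
    have := hz.geom_sum_eq_zero (by norm_num)
    simpa [Finset.sum_range_succ] using this
  have hgeom := hgeomAll ζ hζ
  -- the product of the four conjugates is divisible by `3`
  have hprod : (ζ ^ 3 - ζ - 1) * ((ζ ^ 2) ^ 3 - ζ ^ 2 - 1) * ((ζ ^ 4) ^ 3 - ζ ^ 4 - 1) *
      ((ζ ^ 7) ^ 3 - ζ ^ 7 - 1) =
      3 * (1 + ζ ^ 2 + ζ ^ 3 + ζ ^ 4 + ζ ^ 5 + ζ ^ 6 + ζ ^ 7 + ζ ^ 9 + ζ ^ 11) := by
    linear_combination (-2 + 3 * ζ - 3 * ζ ^ 2 - ζ ^ 3 + ζ ^ 4 - ζ ^ 5 + 4 * ζ ^ 8 - 3 * ζ ^ 9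
      + ζ ^ 10 - 2 * ζ ^ 11 + 2 * ζ ^ 12 - ζ ^ 13 + ζ ^ 14 - ζ ^ 15 - ζ ^ 16 + ζ ^ 17 - ζ ^ 18
      + ζ ^ 21 - ζ ^ 22 + ζ ^ 23 + ζ ^ 25 - ζ ^ 28 - ζ ^ 29 + ζ ^ 30) * hgeom
  have hmemP : (ζ ^ 3 - ζ - 1) * ((ζ ^ 2) ^ 3 - ζ ^ 2 - 1) * ((ζ ^ 4) ^ 3 - ζ ^ 4 - 1) *
      ((ζ ^ 7) ^ 3 - ζ ^ 7 - 1) ∈ P := by
    rw [hprod]
    exact P.mul_mem_right _ h3P
  -- so `P` contains `z ^ 3 - z - 1` for some primitive root `z`
  have hex : ∃ z : 𝓞 K, IsPrimitiveRoot z 13 ∧ z ^ 3 - z - 1 ∈ P := by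
    rcases hP.mem_or_mem hmemP with h | h
    · rcases hP.mem_or_mem h with h | h
      · rcases hP.mem_or_mem h with h | h
        · exact ⟨ζ, hζ, h⟩
        · exact ⟨ζ ^ 2, hζ.pow_of_coprime 2 (by norm_num), h⟩
      · exact ⟨ζ ^ 4, hζ.pow_of_coprime 4 (by norm_num), h⟩
    · exact ⟨ζ ^ 7, hζ.pow_of_coprime 7 (by norm_num), h⟩
  obtain ⟨z, hz, hzP⟩ := hex
  have hgz := hgeomAll z hz
  have hab : (z ^ 3 - z - 1) *
      (1 + z ^ 2 + z ^ 3 + 2 * z ^ 5 + z ^ 7 + 2 * z ^ 8 - z ^ 9 + 3 * z ^ 10) =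
      ((3 : ℕ) : 𝓞 K) := by
    push_cast
    linear_combination (-4 + 3 * z) * hgz
  have hEq := PIDDegF.eq_span_of_irreducible_factor 13 K 3 pid13ThreePoly pid13ThreePoly_monic
    pid13ThreePoly_irreducible z hz (z ^ 3 - z - 1)
    (1 + z ^ 2 + z ^ 3 + 2 * z ^ 5 + z ^ 7 + 2 * z ^ 8 - z ^ 9 + 3 * z ^ 10) 1 hab
    (by rw [pid13ThreePoly_aeval, mul_one])
    ⟨0, 1, by rw [pid13ThreePoly_aeval]; ring⟩ P (by simpa using h3P)
    (by rw [pid13ThreePoly_aeval]; exact hzP)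
  exact ⟨⟨z ^ 3 - z - 1, hEq⟩⟩

end Fermat.Agent.FLTK
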