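import Mathlib
import Fermat.Agent.FLTK.PIDDeg1

set_option autoImplicit false

/-!
# Plan K, chunk D13 (part a): the primes above `53` and `79` in `ℚ(ζ₁₃)` are principal.

Certificates for `PIDDeg1.isPrincipal_of_deg_one`: `N(1 - ζ + ζ³) = 53` (with `t = 16`) and
`N(1 - ζ - ζ⁴) = 79` (with `t = -17`); cofactors computed offline, all identities are polynomial
identities modulo `1 + ζ + ⋯ + ζ¹² = 0`.
-/

namespace Fermat.Agent.FLTK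

open NumberField Ideal IsCyclotomicExtension Polynomial

theorem pid13a_geom (K : Type) [Field K] [NumberField K] (ζ : 𝓞 K) (hζ : IsPrimitiveRoot ζ 13) :
    1 + ζ + ζ ^ 2 + ζ ^ 3 + ζ ^ 4 + ζ ^ 5 + ζ ^ 6 + ζ ^ 7 + ζ ^ 8 + ζ ^ 9 + ζ ^ 10 + ζ ^ 11
      + ζ ^ 12 = 0 := by
  have h := hζ.geom_sum_eq_zero (by norm_num)
  simpa [Finset.sum_range_succ] using h

/-- Primes above `53` in `ℚ(ζ₁₃)` are principal. -/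
theorem isPrincipal_of_liesOver_53 (K : Type) [Field K] [NumberField K]
    [IsCyclotomicExtension {13} ℚ K] (P : Ideal (𝓞 K)) [hP : P.IsPrime]
    [hPl : P.LiesOver (span {(53 : ℤ)})] : Submodule.IsPrincipal P := by
  have h13 : Fact (Nat.Prime 13) := ⟨by norm_num⟩
  have hPl' : P.LiesOver (span {((53 : ℕ) : ℤ)}) := by simpa using hPl
  refine PIDDeg1.isPrincipal_of_deg_one 13 K 53 16 (by norm_num) (by norm_num)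
    (fun ζ ↦ 1 - ζ + ζ ^ 3)
    (fun ζ ↦ 25 + 10 * ζ + 19 * ζ ^ 2 + 3 * ζ ^ 3 + 2 * ζ ^ 4 - 8 * ζ ^ 5 - 2 * ζ ^ 6 + 5 * ζ ^ 7 + 22 * ζ ^ 8 + 33 * ζ ^ 9 + 37 * ζ ^ 10 + 24 * ζ ^ 11)
    (fun ζ ↦ -8 - 3 * ζ - 6 * ζ ^ 2 - ζ ^ 3 - ζ ^ 4 + 2 * ζ ^ 5 - 2 * ζ ^ 7 - 7 * ζ ^ 8 - 10 * ζ ^ 9 - 11 * ζ ^ 10 - 7 * ζ ^ 11)
    ?_ ?_ ?_ P
  · intro ζ hζ
    have h := pid13a_geom K ζ hζ
    push_cast
    linear_combination (-28 + 13 * ζ + 24 * ζ ^ 2) * h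
  · intro ζ hζ
    have h := pid13a_geom K ζ hζ
    push_cast
    linear_combination (8 - 4 * ζ - 7 * ζ ^ 2) * h
  · intro ζ _
    refine ⟨77, 255 + 16 * ζ + ζ ^ 2, ?_⟩
    push_cast
    ring

/-- Primes above `79` in `ℚ(ζ₁₃)` are principal. -/
theorem isPrincipal_of_liesOver_79 (K : Type) [Field K] [NumberField K]
    [IsCyclotomicExtension {13} ℚ K] (P : Ideal (𝓞 K)) [hP : P.IsPrime]
    [hPl : P.LiesOver (span {(79 : ℤ)})] : Submodule.IsPrincipal P := by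
  have h13 : Fact (Nat.Prime 13) := ⟨by norm_num⟩
  have hPl' : P.LiesOver (span {((79 : ℕ) : ℤ)}) := by simpa using hPl
  refine PIDDeg1.isPrincipal_of_deg_one 13 K 79 (-17) (by norm_num) (by norm_num)
    (fun ζ ↦ 1 - ζ - ζ ^ 4)
    (fun ζ ↦ 62 + 63 * ζ + 49 * ζ ^ 2 + 8 * ζ ^ 3 + 29 * ζ ^ 4 + 51 * ζ ^ 5 + 59 * ζ ^ 6 + 26 * ζ ^ 7 + 14 * ζ ^ 8 + 24 * ζ ^ 9 + 42 * ζ ^ 10 + 27 * ζ ^ 11)
    (fun ζ ↦ 13 + 14 * ζ + 11 * ζ ^ 2 + 2 * ζ ^ 3 + 6 * ζ ^ 4 + 11 * ζ ^ 5 + 13 * ζ ^ 6 + 6 * ζ ^ 7 + 3 * ζ ^ 8 + 5 * ζ ^ 9 + 9 * ζ ^ 10 + 6 * ζ ^ 11)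
    ?_ ?_ ?_ P
  · intro ζ hζ
    have h := pid13a_geom K ζ hζ
    push_cast
    linear_combination (-17 + 18 * ζ - 15 * ζ ^ 2 - 27 * ζ ^ 3) * h
  · intro ζ hζ
    have h := pid13a_geom K ζ hζ
    push_cast
    linear_combination (-4 + 4 * ζ - 3 * ζ ^ 2 - 6 * ζ ^ 3) * h
  · intro ζ _
    refine ⟨(-1057), 4912 - 289 * ζ + 17 * ζ ^ 2 - ζ ^ 3, ?_⟩
    push_cast
    ring

end Fermat.Agent.FLTK
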