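import Mathlib
import Fermat.Agent.FLTK.PIDDeg1

set_option autoImplicit false

/-!
# Plan K, chunk D13 (part c): the primes above `131` and `157` in `ℚ(ζ₁₃)` are principal.

Certificates for `PIDDeg1.isPrincipal_of_deg_one`: `N(1 - ζ - ζ³) = 131` (with `t = -51`) and
`N(1 - ζ + ζ² + ζ⁴) = 157` (with `t = 75`).
-/

namespace Fermat.Agent.FLTK

open NumberField Ideal IsCyclotomicExtension Polynomial

theorem pid13c_geom (K : Type) [Field K] [NumberField K] (ζ : 𝓞 K) (hζ : IsPrimitiveRoot ζ 13) :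
    1 + ζ + ζ ^ 2 + ζ ^ 3 + ζ ^ 4 + ζ ^ 5 + ζ ^ 6 + ζ ^ 7 + ζ ^ 8 + ζ ^ 9 + ζ ^ 10 + ζ ^ 11
      + ζ ^ 12 = 0 := by
  have h := hζ.geom_sum_eq_zero (by norm_num)
  simpa [Finset.sum_range_succ] using h

/-- Primes above `131` in `ℚ(ζ₁₃)` are principal. -/
theorem pid13c_isPrincipal_of_liesOver_131 (K : Type) [Field K] [NumberField K]
    [IsCyclotomicExtension {13} ℚ K] (P : Ideal (𝓞 K)) [hP : P.IsPrime]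
    [hPl : P.LiesOver (span {(131 : ℤ)})] : Submodule.IsPrincipal P := by
  have h13 : Fact (Nat.Prime 13) := ⟨by norm_num⟩
  have hPl' : P.LiesOver (span {((131 : ℕ) : ℤ)}) := by simpa using hPl
  refine PIDDeg1.isPrincipal_of_deg_one 13 K 131 (-51) (by norm_num) (by norm_num)
    (fun ζ ↦ 1 - ζ - ζ ^ 3)
    (fun ζ ↦ 111 + 78 * ζ + 17 * ζ ^ 2 + 67 * ζ ^ 3 + 84 * ζ ^ 4 + 40 * ζ ^ 5 + 46 * ζ ^ 6 + 69 * ζ ^ 7 + 48 * ζ ^ 8 + 33 * ζ ^ 9 + 41 * ζ ^ 10 + 28 * ζ ^ 11)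
    (fun ζ ↦ 43 + 31 * ζ + 7 * ζ ^ 2 + 26 * ζ ^ 3 + 33 * ζ ^ 4 + 16 * ζ ^ 5 + 18 * ζ ^ 6 + 27 * ζ ^ 7 + 19 * ζ ^ 8 + 13 * ζ ^ 9 + 16 * ζ ^ 10 + 11 * ζ ^ 11)
    ?_ ?_ ?_ P
  · intro ζ hζ
    have h := pid13c_geom K ζ hζ
    push_cast
    linear_combination (-20 - 13 * ζ - 28 * ζ ^ 2) * h
  · intro ζ hζ
    have h := pid13c_geom K ζ hζ
    push_cast
    linear_combination (-8 - 5 * ζ - 11 * ζ ^ 2) * h
  · intro ζ _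
    refine ⟨1013, -2602 + 51 * ζ - ζ ^ 2, ?_⟩
    push_cast
    ring

/-- Primes above `157` in `ℚ(ζ₁₃)` are principal. -/
theorem pid13c_isPrincipal_of_liesOver_157 (K : Type) [Field K] [NumberField K]
    [IsCyclotomicExtension {13} ℚ K] (P : Ideal (𝓞 K)) [hP : P.IsPrime]
    [hPl : P.LiesOver (span {(157 : ℤ)})] : Submodule.IsPrincipal P := by
  have h13 : Fact (Nat.Prime 13) := ⟨by norm_num⟩
  have hPl' : P.LiesOver (span {((157 : ℕ) : ℤ)}) := by simpa using hPl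
  refine PIDDeg1.isPrincipal_of_deg_one 13 K 157 75 (by norm_num) (by norm_num)
    (fun ζ ↦ 1 - ζ + ζ ^ 2 + ζ ^ 4)
    (fun ζ ↦ 89 + 86 * ζ + 42 * ζ ^ 2 + 77 * ζ ^ 3 + 67 * ζ ^ 4 + 25 * ζ ^ 5 + 37 * ζ ^ 6 + 56 * ζ ^ 7 + 73 * ζ ^ 8 + 113 * ζ ^ 9 + 124 * ζ ^ 10 + 76 * ζ ^ 11)
    (fun ζ ↦ -43 - 41 * ζ - 20 * ζ ^ 2 - 37 * ζ ^ 3 - 32 * ζ ^ 4 - 12 * ζ ^ 5 - 18 * ζ ^ 6 - 27 * ζ ^ 7 - 35 * ζ ^ 8 - 54 * ζ ^ 9 - 59 * ζ ^ 10 - 36 * ζ ^ 11)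
    ?_ ?_ ?_ P
  · intro ζ hζ
    have h := pid13c_geom K ζ hζ
    push_cast
    linear_combination (-68 + 65 * ζ + 48 * ζ ^ 2 + 76 * ζ ^ 3) * h
  · intro ζ hζ
    have h := pid13c_geom K ζ hζ
    push_cast
    linear_combination (32 - 31 * ζ - 23 * ζ ^ 2 - 36 * ζ ^ 3) * h
  · intro ζ _
    refine ⟨201568, 421949 + 5626 * ζ + 75 * ζ ^ 2 + ζ ^ 3, ?_⟩
    push_cast
    ring

end Fermat.Agent.FLTK
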