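import Mathlib

set_option autoImplicit false

/-!
# Plan K, chunk D7: the ring of integers of `ℚ(ζ₇)` is a PID.
-/

namespace Fermat.Agent.FLTK

open NumberField Ideal IsCyclotomicExtension Polynomial Nat Real Module InfinitePlace

/-- The Minkowski bound of `ℚ(ζ₇)` is smaller than `5`. -/
theorem pid7_bound (K : Type) [Field K] [NumberField K] [IsCyclotomicExtension {7} ℚ K] :
    (4 / π) ^ nrComplexPlaces K *
      ((finrank ℚ K)! / (finrank ℚ K) ^ (finrank ℚ K) * √|discr K|) < 5 := by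
  have h7 : Fact (Nat.Prime 7) := ⟨by norm_num⟩
  rw [IsCyclotomicExtension.Rat.discr_prime 7 K, IsCyclotomicExtension.finrank (n := 7) K
    (cyclotomic.irreducible_rat (by simp)),
    IsCyclotomicExtension.Rat.nrComplexPlaces_eq_totient_div_two 7,
    totient_prime (by norm_num : Nat.Prime 7)]
  have hsq : √|((((-1) ^ ((7 - 1) / 2) * (7:ℤ) ^ (7 - 2) : ℤ)) : ℝ)| < 130 := by
    rw [Real.sqrt_lt' (by norm_num)]; norm_num
  have hpi : (4 / π) ^ ((7 - 1) / 2) < (4 / 3) ^ 3 := by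
    have h3 : 4 / π < 4 / 3 := by
      apply div_lt_div_of_pos_left (by norm_num) (by norm_num) pi_gt_three
    have : (7 - 1) / 2 = 3 := by norm_num
    rw [this]
    gcongr
  have hfac : (((7 - 1)! : ℕ) : ℝ) / ((7 - 1 : ℕ) : ℝ) ^ (7 - 1) = 5 / 324 := by
    norm_num [Nat.factorial]
  rw [hfac]
  calc (4 / π) ^ ((7 - 1) / 2) *
        (5 / 324 * √|((((-1) ^ ((7 - 1) / 2) * (7:ℤ) ^ (7 - 2) : ℤ)) : ℝ)|)
      < (4 / 3) ^ 3 * (5 / 324 * 130) := by gcongr
    _ < 5 := by norm_num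

theorem pid7_order_two : orderOf ((2 : ℕ) : ZMod 7) = 3 := by
  rw [orderOf_eq_iff (by norm_num)]
  refine ⟨by decide, fun m hm hm0 ↦ ?_⟩
  interval_cases m <;> decide

theorem pid7_order_three : orderOf ((3 : ℕ) : ZMod 7) = 6 := by
  rw [orderOf_eq_iff (by norm_num)]
  refine ⟨by decide, fun m hm hm0 ↦ ?_⟩
  interval_cases m <;> decide

theorem pid_seven (K : Type) [Field K] [NumberField K] [IsCyclotomicExtension {7} ℚ K] :
    IsPrincipalIdealRing (𝓞 K) := by
  have h7 : Fact (Nat.Prime 7) := ⟨by norm_num⟩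
  have : IsGalois ℚ K := IsCyclotomicExtension.isGalois {7} ℚ K
  have hfl : ⌊(4 / π) ^ nrComplexPlaces K *
      ((finrank ℚ K)! / (finrank ℚ K) ^ (finrank ℚ K) * √|discr K|)⌋₊ ≤ 4 := by
    have h := pid7_bound K
    have : ⌊(4 / π) ^ nrComplexPlaces K *
      ((finrank ℚ K)! / (finrank ℚ K) ^ (finrank ℚ K) * √|discr K|)⌋₊ < 5 := by
      rw [Nat.floor_lt (by positivity)]
      exact_mod_cast h
    omega
  refine RingOfIntegers.isPrincipalIdealRing_of_isPrincipal_of_lt_or_isPrincipal_of_mem_primesOver_of_mem_Icc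
    (fun p hp hprime ↦ ?_)
  have hp4 : p ≤ 4 := (Finset.mem_Icc.mp hp).2.trans hfl
  have hF : Fact p.Prime := ⟨hprime⟩
  obtain ⟨⟨P, hP1, hP2⟩⟩ := (span {(p : ℤ)}).nonempty_primesOver (S := 𝓞 K)
  refine ⟨P, ⟨hP1, hP2⟩, Or.inl ?_⟩
  have hdeg := IsCyclotomicExtension.Rat.inertiaDeg_eq_of_not_dvd (m := 7) p K P
  interval_cases p
  · exact absurd hprime (by norm_num)
  · exact absurd hprime (by norm_num)
  · -- p = 2, order 3
    rw [hdeg (by norm_num), pid7_order_two]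
    exact lt_of_le_of_lt hfl (by norm_num)
  · -- p = 3, order 6
    rw [hdeg (by norm_num), pid7_order_three]
    exact lt_of_le_of_lt hfl (by norm_num)
  · exact absurd hprime (by norm_num)

end Fermat.Agent.FLTK
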