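import Mathlib

set_option autoImplicit false

/-!
# Plan K, chunk D: common tools for proving that `ℤ[ζ_p]` is a PID

* cyclic-convolution arithmetic on coefficient vectors `ZMod p → ℤ` (decidable, so that norms of
  explicit elements can be computed by `decide`);
* the norm of an element of a `p`-th cyclotomic field as the product of its `p - 1` conjugates;
* an element of prime norm `ℓ` generates a prime ideal over `ℓ`.
-/

namespace Fermat.Agent.FLTK

open Finset

section Cyc

variable {p : ℕ} [NeZero p] {R : Type*} [CommRing R]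

/-- Evaluation of a coefficient vector at `ζ`: `∑ i, v i * ζ ^ i`. -/
def cycEval (ζ : R) (v : ZMod p → ℤ) : R := ∑ i : ZMod p, (v i : R) * ζ ^ i.val

/-- Cyclic convolution. -/
def cycMul (v w : ZMod p → ℤ) : ZMod p → ℤ := fun k => ∑ i : ZMod p, v i * w (k - i)

/-- Coefficient vector of `v(ζ ^ u)`. -/
def cycConj (u : ZMod p) (v : ZMod p → ℤ) : ZMod p → ℤ :=
  fun k => ∑ i : ZMod p, if u * i = k then v i else 0

/-- The unit vector. -/
def cycOne : ZMod p → ℤ := fun k => if k = 0 then 1 else 0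

omit [NeZero p] in
theorem cyc_pow_mod {ζ : R} (hζ : ζ ^ p = 1) (m : ℕ) : ζ ^ (m % p) = ζ ^ m := by
  conv_rhs => rw [← Nat.div_add_mod m p, pow_add, pow_mul, hζ, one_pow, one_mul]

theorem cyc_pow_val_add {ζ : R} (hζ : ζ ^ p = 1) (i j : ZMod p) :
    ζ ^ (i + j).val = ζ ^ i.val * ζ ^ j.val := by
  rw [ZMod.val_add, cyc_pow_mod hζ, pow_add]

omit [NeZero p] in
theorem cyc_pow_val_mul {ζ : R} (hζ : ζ ^ p = 1) (i j : ZMod p) :
    ζ ^ (i * j).val = (ζ ^ i.val) ^ j.val := by
  rw [ZMod.val_mul, cyc_pow_mod hζ, pow_mul]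

theorem cycEval_one (ζ : R) : cycEval ζ (cycOne : ZMod p → ℤ) = 1 := by
  unfold cycEval cycOne
  rw [Finset.sum_eq_single (0 : ZMod p)]
  · simp
  · intro b _ hb; simp [hb]
  · intro h; exact absurd (Finset.mem_univ _) h

theorem cycEval_mul {ζ : R} (hζ : ζ ^ p = 1) (v w : ZMod p → ℤ) :
    cycEval ζ (cycMul v w) = cycEval ζ v * cycEval ζ w := by
  unfold cycEval cycMul
  rw [Finset.sum_mul_sum]
  simp only [Int.cast_sum, Int.cast_mul, Finset.sum_mul]
  rw [Finset.sum_comm]
  refine Finset.sum_congr rfl fun i _ => ?_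
  rw [← Equiv.sum_comp (Equiv.addRight i)]
  refine Finset.sum_congr rfl fun j _ => ?_
  simp only [Equiv.coe_addRight, add_sub_cancel_right]
  rw [cyc_pow_val_add hζ]
  ring

theorem cycEval_conj {ζ : R} (hζ : ζ ^ p = 1) (u : ZMod p) (v : ZMod p → ℤ) :
    cycEval ζ (cycConj u v) = cycEval (ζ ^ u.val) v := by
  unfold cycEval cycConj
  simp only [Int.cast_sum, Finset.sum_mul]
  rw [Finset.sum_comm]
  refine Finset.sum_congr rfl fun i _ => ?_
  rw [Finset.sum_eq_single (u * i)]
  · simp [cyc_pow_val_mul hζ]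
  · intro b _ hb
    rw [if_neg (Ne.symm hb)]; simp
  · intro h; exact absurd (Finset.mem_univ _) h

/-- Coefficient vector of the product of the conjugates `v(ζ^(k+1))`, `k < n`. -/
def cycNormAux (v : ZMod p → ℤ) : ℕ → (ZMod p → ℤ)
  | 0 => cycOne
  | n + 1 => cycMul (cycNormAux v n) (cycConj ((n + 1 : ℕ) : ZMod p) v)

theorem cycEval_normAux {ζ : R} (hζ : ζ ^ p = 1) (v : ZMod p → ℤ) (n : ℕ) (hn : n < p) :
    cycEval ζ (cycNormAux v n) = ∏ k ∈ Finset.range n, cycEval (ζ ^ (k + 1)) v := by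
  induction n with
  | zero => simp [cycNormAux, cycEval_one]
  | succ n ih =>
    rw [cycNormAux, cycEval_mul hζ, ih (by omega), Finset.prod_range_succ, cycEval_conj hζ,
      ZMod.val_cast_of_lt hn]

end Cyc

section Norm

open NumberField IsCyclotomicExtension Polynomial

variable (p : ℕ) [hp : Fact p.Prime]

instance pidCommon_neZero : NeZero p := ⟨hp.out.ne_zero⟩

theorem prod_units_zmod {M : Type*} [CommMonoid M] (f : ℕ → M) :
    ∏ t : (ZMod p)ˣ, f ((t : ZMod p).val) = ∏ k ∈ Finset.range (p - 1), f (k + 1) := by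
  have hp1 : 1 < p := hp.out.one_lt
  refine Finset.prod_bij (fun t _ => (t : ZMod p).val - 1) ?_ ?_ ?_ ?_
  · intro t _
    have h1 : (t : ZMod p).val < p := ZMod.val_lt _
    have h2 : (t : ZMod p).val ≠ 0 := by
      rw [Ne, ZMod.val_eq_zero]; exact t.ne_zero
    rw [Finset.mem_range]; omega
  · intro t _ t' _ h
    have h2 : (t : ZMod p).val ≠ 0 := by
      rw [Ne, ZMod.val_eq_zero]; exact t.ne_zero
    have h2' : (t' : ZMod p).val ≠ 0 := by
      rw [Ne, ZMod.val_eq_zero]; exact t'.ne_zero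
    apply Units.ext
    apply ZMod.val_injective
    omega
  · intro k hk
    rw [Finset.mem_range] at hk
    have hk1 : k + 1 < p := by omega
    have hne : ((k + 1 : ℕ) : ZMod p) ≠ 0 := by
      rw [Ne, ZMod.natCast_eq_zero_iff]
      intro hd
      have := Nat.le_of_dvd (by omega) hd
      omega
    refine ⟨Units.mk0 _ hne, Finset.mem_univ _, ?_⟩
    simp only [Units.val_mk0]
    rw [ZMod.val_cast_of_lt hk1]
    omega
  · intro t _
    have h2 : (t : ZMod p).val ≠ 0 := by
      rw [Ne, ZMod.val_eq_zero]; exact t.ne_zero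
    congr 1
    omega

theorem sum_zmod_val {M : Type*} [AddCommMonoid M] (g : ℕ → M) :
    ∑ k : ZMod p, g k.val = ∑ i ∈ Finset.range p, g i := by
  refine Finset.sum_bij (fun k _ => k.val) ?_ ?_ ?_ ?_
  · intro k _; exact Finset.mem_range.mpr (ZMod.val_lt k)
  · intro k _ k' _ h; exact ZMod.val_injective p h
  · intro i hi
    exact ⟨(i : ZMod p), Finset.mem_univ _, ZMod.val_cast_of_lt (Finset.mem_range.mp hi)⟩
  · intro k _; rfl

variable (K : Type*) [Field K] [NumberField K] [IsCyclotomicExtension {p} ℚ K]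

/-- The norm of an element of the `p`-th cyclotomic field is the product of its conjugates. -/
theorem norm_cycEval (v : ZMod p → ℤ) :
    algebraMap ℚ K (Algebra.norm ℚ (cycEval (zeta p ℚ K) v)) =
      ∏ k ∈ Finset.range (p - 1), cycEval ((zeta p ℚ K) ^ (k + 1)) v := by
  have hG := IsCyclotomicExtension.isGalois {p} ℚ K
  have hirr : Irreducible (cyclotomic p ℚ) := cyclotomic.irreducible_rat hp.out.pos
  rw [Algebra.norm_eq_prod_automorphisms]
  rw [← prod_units_zmod p (fun k => cycEval ((zeta p ℚ K) ^ k) v)]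
  refine Fintype.prod_equiv (autEquivPow K hirr).toEquiv _ _ fun σ => ?_
  have hσ : σ (zeta p ℚ K) = zeta p ℚ K ^ ((autEquivPow K hirr σ : (ZMod p)ˣ) : ZMod p).val := by
    rw [autEquivPow_apply]
    exact ((zeta_spec p ℚ K).autToPow_spec ℚ σ).symm
  simp only [MulEquiv.toEquiv_eq_coe, EquivLike.coe_coe]
  unfold cycEval
  rw [map_sum]
  refine Finset.sum_congr rfl fun i _ => ?_
  rw [map_mul, map_intCast, map_pow, hσ]

/-- If the coefficient vector of the product of the conjugates of `v(ζ)` is `N` at `0` plus a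
constant vector, then the norm of `v(ζ)` is `N`. -/
theorem norm_rat_cycEval (v : ZMod p → ℤ) (N m : ℤ)
    (h : ∀ k : ZMod p, cycNormAux v (p - 1) k = (if k = 0 then N else 0) + m) :
    Algebra.norm ℚ (cycEval (zeta p ℚ K) v) = (N : ℚ) := by
  have hp1 : 1 < p := hp.out.one_lt
  have hζ : IsPrimitiveRoot (zeta p ℚ K) p := zeta_spec p ℚ K
  have hζp : zeta p ℚ K ^ p = 1 := hζ.pow_eq_one
  apply (algebraMap ℚ K).injective
  rw [norm_cycEval, ← cycEval_normAux hζp v (p - 1) (by omega)]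
  unfold cycEval
  simp only [h]
  have h0 : ∑ k : ZMod p, (zeta p ℚ K) ^ k.val = 0 := by
    rw [sum_zmod_val p (fun i => (zeta p ℚ K) ^ i)]
    exact hζ.geom_sum_eq_zero hp1
  calc ∑ i : ZMod p, (((if i = 0 then N else 0) + m : ℤ) : K) * zeta p ℚ K ^ i.val
      = ∑ i : ZMod p, (((if i = 0 then N else 0 : ℤ) : K) * zeta p ℚ K ^ i.val
          + (m : K) * zeta p ℚ K ^ i.val) := by
        refine Finset.sum_congr rfl fun i _ => ?_
        push_cast; ring
    _ = (N : K) := by
        rw [Finset.sum_add_distrib, ← Finset.mul_sum, h0, mul_zero, add_zero,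
          Finset.sum_eq_single (0 : ZMod p)]
        · simp
        · intro b _ hb; simp [hb]
        · intro hh; exact absurd (Finset.mem_univ _) hh
    _ = algebraMap ℚ K (N : ℚ) := by simp

/-- Integral version. -/
theorem norm_int_cycEval (v : ZMod p → ℤ) (N m : ℤ)
    (h : ∀ k : ZMod p, cycNormAux v (p - 1) k = (if k = 0 then N else 0) + m) :
    Algebra.norm ℤ (cycEval (zeta_spec p ℚ K).toInteger v) = N := by
  have hc : ((cycEval (zeta_spec p ℚ K).toInteger v : 𝓞 K) : K) = cycEval (zeta p ℚ K) v := by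
    unfold cycEval
    push_cast [IsPrimitiveRoot.coe_toInteger]
    rfl
  have h1 := Algebra.coe_norm_int (K := K) (cycEval (zeta_spec p ℚ K).toInteger v)
  rw [hc, norm_rat_cycEval p K v N m h] at h1
  exact_mod_cast h1

end Norm

section Principal

open NumberField

variable {K : Type*} [Field K] [NumberField K]

/-- An element of prime norm generates a prime ideal lying over that prime. -/
theorem exists_principal_prime_of_norm (α : 𝓞 K) (ℓ : ℕ) (hℓ : ℓ.Prime)
    (hN : (Algebra.norm ℤ α).natAbs = ℓ) :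
    ∃ P ∈ Ideal.primesOver (Ideal.span {(ℓ : ℤ)}) (𝓞 K), Submodule.IsPrincipal P := by
  have habs : Ideal.absNorm (Ideal.span ({α} : Set (𝓞 K))) = ℓ := by
    rw [Ideal.absNorm_span_singleton, hN]
  refine ⟨Ideal.span {α}, ⟨?_, ⟨?_⟩⟩, ⟨α, rfl⟩⟩
  · apply Ideal.isPrime_of_irreducible_absNorm
    rw [habs]
    exact hℓ
  · have := Ideal.span_singleton_absNorm (I := Ideal.span ({α} : Set (𝓞 K))) (by rw [habs]; exact hℓ)
    rw [habs] at this
    exact this

/-- An element of norm `± ℓ ^ f`, where every prime above `ℓ` has norm `ℓ ^ f`, generates a prime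
ideal lying over `ℓ`. -/
theorem exists_principal_prime_of_norm_pow (α : 𝓞 K) (ℓ f : ℕ) (hℓ : ℓ.Prime) (hf : f ≠ 0)
    (hN : (Algebra.norm ℤ α).natAbs = ℓ ^ f)
    (hdeg : ∀ P : Ideal (𝓞 K), P.IsMaximal → P.under ℤ = Ideal.span {(ℓ : ℤ)} →
      Ideal.absNorm P = ℓ ^ f) :
    ∃ P ∈ Ideal.primesOver (Ideal.span {(ℓ : ℤ)}) (𝓞 K), Submodule.IsPrincipal P := by
  have habs : Ideal.absNorm (Ideal.span ({α} : Set (𝓞 K))) = ℓ ^ f := by
    rw [Ideal.absNorm_span_singleton, hN]
  obtain ⟨P, hPmax, hPunder, hPdvd⟩ :=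
    Ideal.exists_isMaximal_dvd_of_dvd_absNorm' hℓ (Ideal.span ({α} : Set (𝓞 K)))
      (by rw [habs]; exact dvd_pow_self ℓ hf)
  obtain ⟨J, hJ⟩ := hPdvd
  have h1 : Ideal.absNorm P * Ideal.absNorm J = ℓ ^ f := by
    rw [← map_mul, ← hJ, habs]
  rw [hdeg P hPmax hPunder] at h1
  have hpos : 0 < ℓ ^ f := pow_pos hℓ.pos f
  have hJ1 : Ideal.absNorm J = 1 := by
    have := Nat.eq_of_mul_eq_mul_left hpos (h1.trans (mul_one _).symm)
    exact this
  rw [Ideal.absNorm_eq_one_iff] at hJ1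
  rw [hJ1, Ideal.mul_top] at hJ
  refine ⟨P, ⟨hPmax.isPrime, ⟨hPunder.symm⟩⟩, ⟨α, ?_⟩⟩
  rw [← hJ]

end Principal

end Fermat.Agent.FLTK
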