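import Fermat.Agent.FLTK.Main
import Fermat.Agent.FLTK.Kummer
import Fermat.Agent.FLTK.Indep2
import Fermat.Agent.FLTK.PID7
import Fermat.Agent.FLTK.PID11
import Fermat.Agent.FLTK.PID13

set_option autoImplicit false

/-!
# Plan K, chunk (G3): Fermat's Last Theorem for the exponents 5, 7, 11, 13
-/

namespace Fermat.Agent.FLTK

open NumberField IsCyclotomicExtension

/-- Kummer's lemma for `p ∈ {5, 7, 11, 13}`: a unit of the `p`-th cyclotomic ring congruent to a
rational integer modulo `p` is a `p`-th power. -/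
theorem kummer_lemma (p : ℕ) [hp : Fact p.Prime] (K : Type) [Field K] [NumberField K]
    [IsCyclotomicExtension {p} ℚ K] (h : p = 5 ∨ p = 7 ∨ p = 11 ∨ p = 13) (u : (𝓞 K)ˣ)
    (hu : ∃ n : ℤ, (p : 𝓞 K) ∣ (u : 𝓞 K) - (n : 𝓞 K)) : ∃ v : (𝓞 K)ˣ, u = v ^ p := by
  have hp2 : p ≠ 2 := by rcases h with rfl | rfl | rfl | rfl <;> norm_num
  exact kummer_of_psiK_indep p K hp2 (fun j e hrel => psiK_indep p K h j e hrel) u hu

/-- The `p`-th cyclotomic ring is a principal ideal domain for `p ∈ {5, 7, 11, 13}`. -/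
theorem pid_small (p : ℕ) (h : p = 5 ∨ p = 7 ∨ p = 11 ∨ p = 13) (K : Type) [Field K]
    [NumberField K] [IsCyclotomicExtension {p} ℚ K] : IsPrincipalIdealRing (𝓞 K) := by
  rcases h with rfl | rfl | rfl | rfl
  · exact IsCyclotomicExtension.Rat.five_pid K
  · exact pid_seven K
  · exact pid_eleven K
  · exact pid_thirteen K

/-- **Fermat's Last Theorem for the exponents `5`, `7`, `11` and `13`.** -/
theorem flt_small (p : ℕ) (h : p = 5 ∨ p = 7 ∨ p = 11 ∨ p = 13) : FermatLastTheoremFor p := by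
  have hpp : p.Prime := by rcases h with rfl | rfl | rfl | rfl <;> norm_num
  have : Fact p.Prime := ⟨hpp⟩
  exact flt_of_pid_of_kummer p h (fun K _ _ _ => pid_small p h K)
    (fun K _ _ _ u hu => kummer_lemma p K h u hu)

end Fermat.Agent.FLTK
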