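import Fermat.Agent.FLTK.Defs

set_option autoImplicit false

/-!
# Plan K, chunk A: complex conjugation on a prime cyclotomic field and the unit lemma

`conjK` is the automorphism `ζ ↦ ζ⁻¹` of `K`, `conjInt` its restriction to `𝓞 K`.
Main result `unit_lemma`: every unit `u` satisfies `u = ζ ^ (2 k) * conj u`.
-/

namespace Fermat.Agent.FLTK

open NumberField IsCyclotomicExtension

noncomputable section

variable (p : ℕ) [hp : Fact p.Prime] (K : Type) [Field K] [NumberField K]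
  [IsCyclotomicExtension {p} ℚ K]

/-- Complex conjugation on `K`: the automorphism with `ζ ↦ ζ⁻¹`. -/
def conjK : K ≃ₐ[ℚ] K :=
  IsCyclotomicExtension.fromZetaAut (zetaK_spec p K).inv
    (Polynomial.cyclotomic.irreducible_rat hp.out.pos)

/-- Complex conjugation on `𝓞 K`. -/
def conjInt : 𝓞 K ≃+* 𝓞 K := RingOfIntegers.mapRingEquiv (conjK p K).toRingEquiv

theorem conjK_zetaK : conjK p K (zetaK p K) = (zetaK p K)⁻¹ := by
  unfold conjK zetaK
  exact IsCyclotomicExtension.fromZetaAut_spec _ _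

theorem coe_conjInt (x : 𝓞 K) : ((conjInt p K x : 𝓞 K) : K) = conjK p K (x : K) := by
  rfl

theorem coe_zetaInt : ((zetaInt p K : 𝓞 K) : K) = zetaK p K := rfl

theorem zetaK_ne_zero : zetaK p K ≠ 0 := (zetaK_spec p K).ne_zero hp.out.ne_zero

theorem ul_coe_mul (a b : 𝓞 K) : ((a * b : 𝓞 K) : K) = (a : K) * (b : K) :=
  map_mul (algebraMap (𝓞 K) K) a b

theorem ul_coe_pow (a : 𝓞 K) (n : ℕ) : ((a ^ n : 𝓞 K) : K) = (a : K) ^ n :=
  map_pow (algebraMap (𝓞 K) K) a n

theorem ul_coe_one : ((1 : 𝓞 K) : K) = 1 := map_one (algebraMap (𝓞 K) K)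

theorem ul_coe_neg (a : 𝓞 K) : ((-a : 𝓞 K) : K) = -(a : K) := map_neg (algebraMap (𝓞 K) K) a

theorem conjInt_zetaInt : conjInt p K (zetaInt p K) * zetaInt p K = 1 := by
  apply RingOfIntegers.ext
  show ((conjInt p K (zetaInt p K) : 𝓞 K) : K) * ((zetaInt p K : 𝓞 K) : K) = 1
  rw [coe_conjInt, coe_zetaInt, conjK_zetaK]
  exact inv_mul_cancel₀ (zetaK_ne_zero p K)

/-- Two `ℚ`-algebra homs out of `K` agreeing on `ζ` are equal. -/
theorem algHom_ext_zetaK {A : Type*} [Ring A] [Algebra ℚ A] (f g : K →ₐ[ℚ] A)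
    (h : f (zetaK p K) = g (zetaK p K)) : f = g := by
  apply ((zetaK_spec p K).powerBasis ℚ).algHom_ext
  rwa [IsPrimitiveRoot.powerBasis_gen]

theorem conjK_conjK (x : K) : conjK p K (conjK p K x) = x := by
  have h : ((conjK p K : K →ₐ[ℚ] K).comp (conjK p K : K →ₐ[ℚ] K)) = AlgHom.id ℚ K := by
    apply algHom_ext_zetaK p K
    show conjK p K (conjK p K (zetaK p K)) = zetaK p K
    rw [conjK_zetaK, map_inv₀, conjK_zetaK, inv_inv]
  exact DFunLike.congr_fun h x

theorem conjInt_conjInt (x : 𝓞 K) : conjInt p K (conjInt p K x) = x := by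
  apply RingOfIntegers.ext
  rw [coe_conjInt, coe_conjInt, conjK_conjK]

/-- `conjK` is complex conjugation under every complex embedding. -/
theorem embedding_conjK (φ : K →+* ℂ) (x : K) :
    φ (conjK p K x) = (starRingEnd ℂ) (φ x) := by
  have h : (φ.toRatAlgHom).comp (conjK p K : K →ₐ[ℚ] K) =
      (ComplexEmbedding.conjugate φ).toRatAlgHom := by
    apply algHom_ext_zetaK p K
    show φ (conjK p K (zetaK p K)) = (starRingEnd ℂ) (φ (zetaK p K))
    rw [conjK_zetaK, map_inv₀]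
    apply Complex.inv_eq_conj
    apply Complex.norm_eq_one_of_pow_eq_one (n := p) _ hp.out.ne_zero
    rw [← map_pow, (zetaK_spec p K).pow_eq_one, map_one]
  exact DFunLike.congr_fun h x

theorem place_conjK (w : InfinitePlace K) (x : K) : w (conjK p K x) = w x := by
  rw [← InfinitePlace.norm_embedding_eq w, ← InfinitePlace.norm_embedding_eq w,
    embedding_conjK, RCLike.norm_conj]

theorem mem_adjoin_zetaInt (x : 𝓞 K) : x ∈ Algebra.adjoin ℤ {zetaInt p K} := by
  have h := (zetaK_spec p K).integralPowerBasis.adjoin_gen_eq_top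
  rw [IsPrimitiveRoot.integralPowerBasis_gen] at h
  have : x ∈ (⊤ : Subalgebra ℤ (𝓞 K)) := Algebra.mem_top
  rw [← h] at this
  exact this

/-- `λ` divides `ζ̄ - ζ`. -/
theorem lam_dvd_conjInt_zetaInt_sub : lam p K ∣ conjInt p K (zetaInt p K) - zetaInt p K := by
  refine ⟨-(conjInt p K (zetaInt p K) * (zetaInt p K + 1)), ?_⟩
  have h := conjInt_zetaInt p K
  unfold lam
  linear_combination (zetaInt p K) * h

/-- Every element of `𝓞 K` is congruent to its conjugate modulo `λ`. -/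
theorem lam_dvd_conjInt_sub (x : 𝓞 K) : lam p K ∣ conjInt p K x - x := by
  have hx := mem_adjoin_zetaInt p K x
  induction hx using Algebra.adjoin_induction with
  | mem y hy =>
    rw [Set.mem_singleton_iff] at hy
    subst hy
    refine ⟨-(conjInt p K (zetaInt p K)) * (1 + zetaInt p K), ?_⟩
    have h := conjInt_zetaInt p K
    unfold lam
    linear_combination (zetaInt p K) * h
  | algebraMap r =>
    rw [eq_intCast (algebraMap ℤ (𝓞 K)) r, map_intCast, sub_self]
    exact dvd_zero _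
  | add y z _ _ hy hz =>
    rw [map_add]
    have : conjInt p K y + conjInt p K z - (y + z) = (conjInt p K y - y) + (conjInt p K z - z) := by
      ring
    rw [this]
    exact dvd_add hy hz
  | mul y z _ _ hy hz =>
    rw [map_mul]
    have : conjInt p K y * conjInt p K z - y * z =
        conjInt p K y * (conjInt p K z - z) + (conjInt p K y - y) * z := by ring
    rw [this]
    exact dvd_add (Dvd.dvd.mul_left hz _) (Dvd.dvd.mul_right hy _)

theorem ul_zetaInt_isPrimitiveRoot : IsPrimitiveRoot (zetaInt p K) p :=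
  (zetaK_spec p K).toInteger_isPrimitiveRoot

theorem lam_dvd_zetaInt_pow_sub_one (j : ℕ) : lam p K ∣ zetaInt p K ^ j - 1 := by
  unfold lam
  exact sub_one_dvd_pow_sub_one _ j

theorem lam_not_dvd_two (hp2 : p ≠ 2) : ¬ lam p K ∣ 2 := by
  have : IsCyclotomicExtension {p ^ (0 + 1)} ℚ K := by simpa using ‹IsCyclotomicExtension {p} ℚ K›
  have hζ : IsPrimitiveRoot (zetaK p K) (p ^ (0 + 1)) := by simpa using zetaK_spec p K
  exact hζ.toInteger_sub_one_not_dvd_two hp2

/-- `u / ū` is a torsion unit. -/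
theorem unit_div_conj_mem_torsion (u : (𝓞 K)ˣ) :
    u * (Units.map (conjInt p K : 𝓞 K →* 𝓞 K) u)⁻¹ ∈ Units.torsion K := by
  rw [Units.mem_torsion]
  intro w
  set v := Units.map (conjInt p K : 𝓞 K →* 𝓞 K) u with hv
  have h1 : w ((v : 𝓞 K) : K) = w ((u : 𝓞 K) : K) := by
    have : ((v : 𝓞 K) : K) = conjK p K ((u : 𝓞 K) : K) := rfl
    rw [this, place_conjK]
  have h2 : w ((v : 𝓞 K) : K) ≠ 0 := by
    rw [map_ne_zero]
    exact RingOfIntegers.coe_ne_zero_iff.mpr v.ne_zero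
  have h3 : ((u * v⁻¹ : (𝓞 K)ˣ) : 𝓞 K) * (v : 𝓞 K) = (u : 𝓞 K) := by
    rw [← Units.val_mul, inv_mul_cancel_right]
  have h4 : w (((u * v⁻¹ : (𝓞 K)ˣ) : 𝓞 K) : K) * w ((v : 𝓞 K) : K) = w ((u : 𝓞 K) : K) := by
    rw [← map_mul, ← h3]
    rfl
  rw [← h1] at h4
  exact mul_right_cancel₀ h2 (by rw [h4, one_mul])

theorem torsionOrder_eq_two_mul (hp2 : p ≠ 2) : Units.torsionOrder K = 2 * p := by
  rw [IsCyclotomicExtension.Rat.torsionOrder_eq (n := p)]
  rw [if_neg]
  rw [Nat.not_even_iff_odd]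
  exact hp.out.odd_of_ne_two hp2

/-- The unit lemma: `u / ū` is a `p`-th root of unity. -/
theorem unit_lemma (hp2 : p ≠ 2) (u : (𝓞 K)ˣ) :
    ∃ k : ℕ, (u : 𝓞 K) = zetaInt p K ^ (2 * k) * conjInt p K u := by
  set v := Units.map (conjInt p K : 𝓞 K →* 𝓞 K) u with hv
  have hvc : (v : 𝓞 K) = conjInt p K u := rfl
  set y : (𝓞 K)ˣ := u * v⁻¹ with hy
  have hyv : (y : 𝓞 K) * (v : 𝓞 K) = (u : 𝓞 K) := by
    rw [← Units.val_mul, hy, inv_mul_cancel_right]
  have hytors : y ∈ Units.torsion K := unit_div_conj_mem_torsion p K u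
  have hy2p : (y : 𝓞 K) ^ (2 * p) = 1 := by
    rw [← Units.rootsOfUnity_eq_torsion, torsionOrder_eq_two_mul p K hp2, mem_rootsOfUnity] at hytors
    rw [← Units.val_pow_eq_pow_val, hytors, Units.val_one]
  have hodd : Odd p := hp.out.odd_of_ne_two hp2
  -- y ^ p = 1 or y ^ p = -1
  have hsq : ((y : 𝓞 K) ^ p - 1) * ((y : 𝓞 K) ^ p + 1) = 0 := by
    have : (y : 𝓞 K) ^ (2 * p) = ((y : 𝓞 K) ^ p) ^ 2 := by rw [← pow_mul, mul_comm]
    rw [this] at hy2p
    linear_combination hy2p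
  have hζ := ul_zetaInt_isPrimitiveRoot p K
  -- it suffices to find j with u = ζ^j * conj u
  suffices hj : ∃ j : ℕ, (u : 𝓞 K) = zetaInt p K ^ j * conjInt p K u by
    obtain ⟨j, hj⟩ := hj
    obtain ⟨m, hm⟩ := hodd
    refine ⟨j * (m + 1), ?_⟩
    have : 2 * (j * (m + 1)) = p * j + j := by rw [hm]; ring
    rw [this, pow_add, pow_mul, hζ.pow_eq_one, one_pow, one_mul]
    exact hj
  rcases mul_eq_zero.mp hsq with h | h
  · -- y ^ p = 1
    have h1 : (y : 𝓞 K) ^ p = 1 := by linear_combination h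
    obtain ⟨j, -, hj⟩ := hζ.eq_pow_of_pow_eq_one h1
    refine ⟨j, ?_⟩
    calc (u : 𝓞 K) = (y : 𝓞 K) * (v : 𝓞 K) := hyv.symm
      _ = zetaInt p K ^ j * conjInt p K u := by rw [hj, hvc]
  · -- y ^ p = -1 : impossible
    exfalso
    have h1 : (-(y : 𝓞 K)) ^ p = 1 := by
      rw [hodd.neg_pow]
      linear_combination -h
    obtain ⟨j, -, hj⟩ := hζ.eq_pow_of_pow_eq_one h1
    -- u = -ζ^j conj u
    have hu : (u : 𝓞 K) = -(zetaInt p K ^ j * conjInt p K u) := by
      calc (u : 𝓞 K) = (y : 𝓞 K) * (v : 𝓞 K) := hyv.symm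
        _ = -(zetaInt p K ^ j * conjInt p K u) := by rw [hj, hvc]; ring
    -- λ ∣ 2 u
    have hdvd : lam p K ∣ 2 * (u : 𝓞 K) := by
      obtain ⟨a, ha⟩ := lam_dvd_conjInt_sub p K (u : 𝓞 K)
      obtain ⟨b, hb⟩ := lam_dvd_zetaInt_pow_sub_one p K j
      refine ⟨-(b * conjInt p K u) - a, ?_⟩
      linear_combination hu + (- conjInt p K (u : 𝓞 K)) * hb - ha
    apply lam_not_dvd_two p K hp2
    exact (Units.isUnit u).dvd_mul_right.mp hdvd

end

end Fermat.Agent.FLTK
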