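import Fermat.Agent.FLTK.Defs
import Fermat.Agent.FLTK.ModNSpan

set_option autoImplicit false
set_option linter.unusedSectionVars false

/-!
# Plan K: the group-theoretic half of Kummer's lemma

If `η : Fin (rank K) → (𝓞 K)ˣ` is independent modulo `p`-th powers (together with `ζ`), then
every unit is `ζ ^ e₀ * ∏ η k ^ e k * v ^ p`.
-/

namespace Fermat.Agent.FLTK

open NumberField IsCyclotomicExtension NumberField.Units

noncomputable section

variable (p : ℕ) [hp : Fact p.Prime] (K : Type) [Field K] [NumberField K]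
  [IsCyclotomicExtension {p} ℚ K]

/-- The chosen primitive root of unity as a unit of `𝓞 K`. -/
def zetaU : (𝓞 K)ˣ :=
  ((zetaK_spec p K).toInteger_isPrimitiveRoot.isUnit hp.out.ne_zero).unit

theorem coe_zetaU : ((zetaU p K : (𝓞 K)ˣ) : 𝓞 K) = zetaInt p K := rfl

theorem coe_coe_zetaU : (((zetaU p K : (𝓞 K)ˣ) : 𝓞 K) : K) = zetaK p K := rfl

/-- Torsion units are `± ζ ^ b`; the sign `s` satisfies `s ^ p = s`. -/
theorem unitSpan_torsion (hp2 : p ≠ 2) (t : (𝓞 K)ˣ) (ht : t ∈ torsion K) :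
    ∃ (b : ℕ) (s : (𝓞 K)ˣ), s ^ p = s ∧ t = s * zetaU p K ^ b := by
  have hodd : Odd p := hp.out.odd_of_ne_two hp2
  have hfin : IsOfFinOrder t := (CommGroup.mem_torsion t).mp ht
  have hfinK : IsOfFinOrder (((t : (𝓞 K)ˣ) : 𝓞 K) : K) := by
    have := ((algebraMap (𝓞 K) K).toMonoidHom.comp (Units.coeHom (𝓞 K))).isOfFinOrder hfin
    exact this
  obtain ⟨r, -, hr⟩ :=
    IsPrimitiveRoot.exists_pow_or_neg_mul_pow_of_isOfFinOrder hodd (zetaK_spec p K) hfinK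
  rcases hr with hr | hr
  · refine ⟨r, 1, one_pow _, ?_⟩
    apply Units.ext
    apply RingOfIntegers.ext
    rw [one_mul, Units.val_pow_eq_pow_val]
    push_cast
    exact hr
  · refine ⟨r, -1, hodd.neg_one_pow, ?_⟩
    apply Units.ext
    apply RingOfIntegers.ext
    rw [Units.val_mul, Units.val_neg, Units.val_one, Units.val_pow_eq_pow_val]
    push_cast
    rw [neg_one_mul]
    exact hr

/-- The projection of the unit group onto its free part, written additively. -/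
def unitSpanPi (u : (𝓞 K)ˣ) : Additive ((𝓞 K)ˣ ⧸ torsion K) :=
  Additive.ofMul (QuotientGroup.mk u)

theorem unitSpanPi_mul (u v : (𝓞 K)ˣ) : unitSpanPi K (u * v) = unitSpanPi K u + unitSpanPi K v :=
  rfl

theorem unitSpanPi_inv (u : (𝓞 K)ˣ) : unitSpanPi K u⁻¹ = -unitSpanPi K u := rfl

theorem unitSpanPi_one : unitSpanPi K 1 = 0 := rfl

theorem unitSpanPi_zpow (u : (𝓞 K)ˣ) (n : ℤ) : unitSpanPi K (u ^ n) = n • unitSpanPi K u := by
  unfold unitSpanPi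
  rw [QuotientGroup.mk_zpow, ofMul_zpow]

theorem unitSpanPi_pow (u : (𝓞 K)ˣ) (n : ℕ) : unitSpanPi K (u ^ n) = (n : ℤ) • unitSpanPi K u := by
  rw [← zpow_natCast, unitSpanPi_zpow]

theorem unitSpanPi_prod {ι : Type} (s : Finset ι) (f : ι → (𝓞 K)ˣ) :
    unitSpanPi K (∏ i ∈ s, f i) = ∑ i ∈ s, unitSpanPi K (f i) := by
  unfold unitSpanPi
  rw [QuotientGroup.mk_prod, ofMul_prod]

theorem unitSpanPi_eq_zero_iff (u : (𝓞 K)ˣ) : unitSpanPi K u = 0 ↔ u ∈ torsion K := by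
  unfold unitSpanPi
  rw [ofMul_eq_zero, QuotientGroup.eq_one_iff]

theorem unitSpanPi_surjective : Function.Surjective (unitSpanPi K) := by
  intro m
  obtain ⟨v, hv⟩ := QuotientGroup.mk_surjective (Additive.toMul m)
  exact ⟨v, by unfold unitSpanPi; rw [hv]; rfl⟩

/-- From a relation in the free part to a relation between units. -/
theorem unitSpan_key (hp2 : p ≠ 2) (η : Fin (rank K) → (𝓞 K)ˣ) (w : (𝓞 K)ˣ)
    (e : Fin (rank K) → ℤ) (m : Additive ((𝓞 K)ˣ ⧸ torsion K))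
    (h : unitSpanPi K w = ∑ k, e k • unitSpanPi K (η k) + (p : ℤ) • m) :
    ∃ (e₀ : ℤ) (v : (𝓞 K)ˣ), w = zetaU p K ^ e₀ * (∏ k, η k ^ e k) * v ^ p := by
  obtain ⟨v₀, rfl⟩ := unitSpanPi_surjective K m
  have ht : w * (∏ k, η k ^ e k)⁻¹ * (v₀ ^ p)⁻¹ ∈ torsion K := by
    rw [← unitSpanPi_eq_zero_iff, unitSpanPi_mul, unitSpanPi_mul, unitSpanPi_inv, unitSpanPi_inv,
      unitSpanPi_prod, unitSpanPi_pow, h]
    simp only [unitSpanPi_zpow]
    abel
  obtain ⟨b, s, hs, hts⟩ := unitSpan_torsion p K hp2 _ ht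
  refine ⟨b, s * v₀, ?_⟩
  rw [mul_inv_eq_iff_eq_mul, mul_inv_eq_iff_eq_mul] at hts
  rw [hts, mul_pow, hs, zpow_natCast]
  ac_rfl

theorem unitSpan_aux {M : Type*} [AddCommGroup M] (n : ℤ) (m : M) : 0 = n • m + n • -m := by
  simp

/-- **Spanning**: a family of `rank K` units which, together with `ζ`, is independent modulo
`p`-th powers generates the unit group modulo `p`-th powers (together with `ζ`). -/
theorem unit_span (hp2 : p ≠ 2) (η : Fin (rank K) → (𝓞 K)ˣ)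
    (hind : ∀ (e₀ : ℤ) (e : Fin (rank K) → ℤ) (v : (𝓞 K)ˣ),
      zetaU p K ^ e₀ * ∏ k, η k ^ e k = v ^ p → ∀ k, (p : ℤ) ∣ e k)
    (u : (𝓞 K)ˣ) :
    ∃ (e₀ : ℤ) (e : Fin (rank K) → ℤ) (v : (𝓞 K)ˣ),
      u = zetaU p K ^ e₀ * (∏ k, η k ^ e k) * v ^ p := by
  have hind' : ∀ (e : Fin (rank K) → ℤ) (m : Additive ((𝓞 K)ˣ ⧸ torsion K)),
      ∑ k, e k • unitSpanPi K (η k) = (p : ℤ) • m → ∀ k, (p : ℤ) ∣ e k := by
    intro e m hm
    obtain ⟨e₀, v, hv⟩ := unitSpan_key p K hp2 η 1 e (-m) (by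
      rw [unitSpanPi_one, hm]
      exact unitSpan_aux (M := Additive ((𝓞 K)ˣ ⧸ torsion K)) (p : ℤ) m)
    exact hind e₀ e v⁻¹ (by rw [inv_pow, eq_inv_iff_mul_eq_one, ← hv])
  obtain ⟨e, m, hm⟩ := modN_span p (finrank_modTorsion K) (fun k => unitSpanPi K (η k)) hind'
    (unitSpanPi K u)
  obtain ⟨e₀, v, hv⟩ := unitSpan_key p K hp2 η u e m hm
  exact ⟨e₀, e, v, hv⟩

end

end Fermat.Agent.FLTK
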